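import Fermat.Agent.U5.KL.BridgeDefs

/-!
# Program U (S52), Klein route, KL/Bridge : covariance `Φ_{m,n}(h w) = h Φ_{m,n}(w)`

for the generators `T̂ = diag(ζ³, ζ²)`, `Ẑ = ζ·1`, `-1` (any diagonal `diag(c,d)` with
`c⁵ = d⁵ = 1`, or `c = d = -1`) and for `Ŝ(u,v) = (a u + b v, b u - a v)` where
`a² + a b - b² = 0`, `a² + b² = -1` (these two relations hold for helper25's
`Ŝ = (1/√5)[[-(ζ-ζ⁴), ζ²-ζ³],[ζ²-ζ³, ζ-ζ⁴]]`, see `u5kb_S_rel`).  Any commutative ring.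
Prefix `u5kb`.
-/

set_option autoImplicit false

namespace Fermat.Agent.U5

variable {R : Type*} [CommRing R]

/-! ### diagonal elements -/

theorem u5kb_Fv_diag (c d : R) (hc : c ^ 5 = 1) (hd : d ^ 5 = 1) (u v : R) :
    u5kbFv (c * u) (d * v) = c * u5kbFv u v := by
  have h11 : c ^ 11 = c := by linear_combination (c ^ 6 + c) * hc
  have h65 : c ^ 6 * d ^ 5 = c := by linear_combination c ^ 6 * hd + c * hc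
  have h10 : c * d ^ 10 = c := by linear_combination (c * d ^ 5 + c) * hd
  simp only [u5kbFv]
  linear_combination u ^ 11 * h11 + 66 * u ^ 6 * v ^ 5 * h65 - 11 * u * v ^ 10 * h10

theorem u5kb_Fu_diag (c d : R) (hc : c ^ 5 = 1) (hd : d ^ 5 = 1) (u v : R) :
    u5kbFu (c * u) (d * v) = d * u5kbFu u v := by
  have h11 : d ^ 11 = d := by linear_combination (d ^ 6 + d) * hd
  have h65 : c ^ 5 * d ^ 6 = d := by linear_combination d ^ 6 * hc + d * hd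
  have h10 : c ^ 10 * d = d := by linear_combination (c ^ 5 * d + d) * hc
  simp only [u5kbFu]
  linear_combination 11 * u ^ 10 * v * h10 + 66 * u ^ 5 * v ^ 6 * h65 - v ^ 11 * h11

/-- `Φ_{m,n}(c u, d v) = (c Φ₁, d Φ₂)` for `c⁵ = d⁵ = 1` (`T̂ = diag(ζ³,ζ²)`, `Ẑ = diag(ζ,ζ)`). -/
theorem u5kb_Phi_diag (c d : R) (hc : c ^ 5 = 1) (hd : d ^ 5 = 1) (m n : R) (w : R × R) :
    u5kbPhi m n (c * w.1, d * w.2) = (c * (u5kbPhi m n w).1, d * (u5kbPhi m n w).2) := by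
  ext
  · simp only [u5kbPhi, u5kbPhi1, u5kb_Fv_diag c d hc hd]; ring
  · simp only [u5kbPhi, u5kbPhi2, u5kb_Fu_diag c d hc hd]; ring

/-- `Φ_{m,n}(-w) = -Φ_{m,n}(w)` -/
theorem u5kb_Phi_neg (m n : R) (w : R × R) :
    u5kbPhi m n (-w.1, -w.2) = (-(u5kbPhi m n w).1, -(u5kbPhi m n w).2) := by
  ext
  · simp only [u5kbPhi, u5kbPhi1, u5kbFv]; ring
  · simp only [u5kbPhi, u5kbPhi2, u5kbFu]; ring

/-! ### the element `Ŝ` -/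

/-- the relations of `Ŝ` in terms of `b` alone -/
theorem u5kb_S_red (a b : R) (h1 : a ^ 2 + a * b - b ^ 2 = 0) (h2 : a ^ 2 + b ^ 2 = -1) :
    a = -5 * b ^ 3 - 3 * b ∧ 5 * b ^ 4 + 5 * b ^ 2 + 1 = 0 := by
  have ha : a = -5 * b ^ 3 - 3 * b := by
    linear_combination (-(a + 2 * b)) * h1 + (a + 3 * b) * h2
  refine ⟨ha, ?_⟩
  have h3 : a * b - 2 * b ^ 2 - 1 = 0 := by linear_combination h1 - h2
  rw [ha] at h3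
  linear_combination -h3

set_option maxHeartbeats 4000000 in
theorem u5kb_Fv_S_aux (b : R) (hb : 5 * b ^ 4 + 5 * b ^ 2 + 1 = 0) (u v : R) :
    u5kbFv ((-5 * b ^ 3 - 3 * b) * u + b * v) (b * u - (-5 * b ^ 3 - 3 * b) * v)
      = (-5 * b ^ 3 - 3 * b) * u5kbFv u v - b * u5kbFu u v := by
  simp only [u5kbFv, u5kbFu]
  linear_combination (-9765625 * b ^ 29 * u ^ 11 + 644531250 * b ^ 29 * u ^ 6 * v ^ 5 + 107421875 * b ^ 29 * u * v ^ 10 - 54687500 * b ^ 27 * u ^ 11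
      + 21484375 * b ^ 27 * u ^ 10 * v + 644531250 * b ^ 27 * u ^ 7 * v ^ 4 + 3609375000 * b ^ 27 * u ^ 6 * v ^ 5
      - 773437500 * b ^ 27 * u ^ 5 * v ^ 6 + 214843750 * b ^ 27 * u ^ 2 * v ^ 9 + 601562500 * b ^ 27 * u * v ^ 10
      - 21484375 * b ^ 27 * v ^ 11 - 136718750 * b ^ 25 * u ^ 11 + 107421875 * b ^ 25 * u ^ 10 * v - 21484375 * b ^ 25 * u ^ 9 * v ^ 2
      + 257812500 * b ^ 25 * u ^ 8 * v ^ 3 + 3222656250 * b ^ 25 * u ^ 7 * v ^ 4 + 8250000000 * b ^ 25 * u ^ 6 * v ^ 5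
      - 3867187500 * b ^ 25 * u ^ 5 * v ^ 6 + 386718750 * b ^ 25 * u ^ 4 * v ^ 7 + 193359375 * b ^ 25 * u ^ 3 * v ^ 8
      + 1074218750 * b ^ 25 * u ^ 2 * v ^ 9 + 1460937500 * b ^ 25 * u * v ^ 10 - 107421875 * b ^ 25 * v ^ 11
      - 200390625 * b ^ 23 * u ^ 11 + 236328125 * b ^ 23 * u ^ 10 * v - 42968750 * b ^ 23 * u ^ 9 * v ^ 2
      + 1147265625 * b ^ 23 * u ^ 8 * v ^ 3 + 6780468750 * b ^ 23 * u ^ 7 * v ^ 4 + 9822656250 * b ^ 23 * u ^ 6 * v ^ 5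
      - 8121093750 * b ^ 23 * u ^ 5 * v ^ 6 + 1804687500 * b ^ 23 * u ^ 4 * v ^ 7 + 747656250 * b ^ 23 * u ^ 3 * v ^ 8
      + 2324609375 * b ^ 23 * u ^ 2 * v ^ 9 + 2015234375 * b ^ 23 * u * v ^ 10 - 236328125 * b ^ 23 * v ^ 11
      - 189921875 * b ^ 21 * u ^ 11 + 304218750 * b ^ 21 * u ^ 10 * v + 16328125 * b ^ 21 * u ^ 9 * v ^ 2
      + 2142421875 * b ^ 21 * u ^ 8 * v ^ 3 + 7791093750 * b ^ 21 * u ^ 7 * v ^ 4 + 6223593750 * b ^ 21 * u ^ 6 * v ^ 5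
      - 9260625000 * b ^ 21 * u ^ 5 * v ^ 6 + 3521718750 * b ^ 21 * u ^ 4 * v ^ 7 + 1203984375 * b ^ 21 * u ^ 3 * v ^ 8
      + 2859140625 * b ^ 21 * u ^ 2 * v ^ 9 + 1729921875 * b ^ 21 * u * v ^ 10 - 299062500 * b ^ 21 * v ^ 11
      - 120625000 * b ^ 19 * u ^ 11 + 254890625 * b ^ 19 * u ^ 10 * v + 116015625 * b ^ 19 * u ^ 9 * v ^ 2
      + 2175937500 * b ^ 19 * u ^ 8 * v ^ 3 + 5285156250 * b ^ 19 * u ^ 7 * v ^ 4 + 1593281250 * b ^ 19 * u ^ 6 * v ^ 5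
      - 6156562500 * b ^ 19 * u ^ 5 * v ^ 6 + 3733125000 * b ^ 19 * u ^ 4 * v ^ 7 + 1044140625 * b ^ 19 * u ^ 3 * v ^ 8
      + 2198281250 * b ^ 19 * u ^ 2 * v ^ 9 + 945312500 * b ^ 19 * u * v ^ 10 - 238390625 * b ^ 19 * v ^ 11
      - 51146875 * b ^ 17 * u ^ 11 + 143996875 * b ^ 17 * u ^ 10 * v + 131312500 * b ^ 17 * u ^ 9 * v ^ 2
      + 1296796875 * b ^ 17 * u ^ 8 * v ^ 3 + 2118187500 * b ^ 17 * u ^ 7 * v ^ 4 - 377437500 * b ^ 17 * u ^ 6 * v ^ 5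
      - 2347125000 * b ^ 17 * u ^ 5 * v ^ 6 + 2325468750 * b ^ 17 * u ^ 4 * v ^ 7 + 524906250 * b ^ 17 * u ^ 3 * v ^ 8
      + 1087796875 * b ^ 17 * u ^ 2 * v ^ 9 + 318071875 * b ^ 17 * u * v ^ 10 - 122753125 * b ^ 17 * v ^ 11
      - 13828125 * b ^ 15 * u ^ 11 + 53762500 * b ^ 15 * u ^ 10 * v + 69471875 * b ^ 15 * u ^ 9 * v ^ 2
      + 452615625 * b ^ 15 * u ^ 8 * v ^ 3 + 464681250 * b ^ 15 * u ^ 7 * v ^ 4 - 366093750 * b ^ 15 * u ^ 6 * v ^ 5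
      - 445912500 * b ^ 15 * u ^ 5 * v ^ 6 + 852431250 * b ^ 15 * u ^ 4 * v ^ 7 + 152315625 * b ^ 15 * u ^ 3 * v ^ 8
      + 339934375 * b ^ 15 * u ^ 2 * v ^ 9 + 57578125 * b ^ 15 * u * v ^ 10 - 39943750 * b ^ 15 * v ^ 11
      - 2115625 * b ^ 13 * u ^ 11 + 12106875 * b ^ 13 * u ^ 10 * v + 18177500 * b ^ 13 * u ^ 9 * v ^ 2
      + 85387500 * b ^ 13 * u ^ 8 * v ^ 3 + 43065000 * b ^ 13 * u ^ 7 * v ^ 4 - 88316250 * b ^ 13 * u ^ 6 * v ^ 5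
      - 17613750 * b ^ 13 * u ^ 5 * v ^ 6 + 170445000 * b ^ 13 * u ^ 4 * v ^ 7 + 23512500 * b ^ 13 * u ^ 3 * v ^ 8
      + 61545000 * b ^ 13 * u ^ 2 * v ^ 9 + 2866875 * b ^ 13 * u * v ^ 10 - 7528125 * b ^ 13 * v ^ 11
      - 130625 * b ^ 11 * u ^ 11 + 1265000 * b ^ 11 * u ^ 10 * v + 1897500 * b ^ 11 * u ^ 9 * v ^ 2
      + 6682500 * b ^ 11 * u ^ 8 * v ^ 3 - 6641250 * b ^ 11 * u ^ 6 * v ^ 5 + 4455000 * b ^ 11 * u ^ 5 * v ^ 6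
      + 14355000 * b ^ 11 * u ^ 4 * v ^ 7 + 1485000 * b ^ 11 * u ^ 3 * v ^ 8 + 4950000 * b ^ 11 * u ^ 2 * v ^ 9
      - 460625 * b ^ 11 * u * v ^ 10 - 632500 * b ^ 11 * v ^ 11 + 450 * b ^ 9 * u ^ 11 + 3025 * b ^ 9 * u ^ 10 * v
      + 29700 * b ^ 9 * u ^ 6 * v ^ 5 + 18150 * b ^ 9 * u ^ 5 * v ^ 6 - 4950 * b ^ 9 * u * v ^ 10 - 275 * b ^ 9 * v ^ 11
      - 125 * b ^ 7 * u ^ 11 - 825 * b ^ 7 * u ^ 10 * v - 8250 * b ^ 7 * u ^ 6 * v ^ 5 - 4950 * b ^ 7 * u ^ 5 * v ^ 6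
      + 1375 * b ^ 7 * u * v ^ 10 + 75 * b ^ 7 * v ^ 11 + 35 * b ^ 5 * u ^ 11 + 220 * b ^ 5 * u ^ 10 * v
      + 2310 * b ^ 5 * u ^ 6 * v ^ 5 + 1320 * b ^ 5 * u ^ 5 * v ^ 6 - 385 * b ^ 5 * u * v ^ 10 - 20 * b ^ 5 * v ^ 11
      - 10 * b ^ 3 * u ^ 11 - 55 * b ^ 3 * u ^ 10 * v - 660 * b ^ 3 * u ^ 6 * v ^ 5 - 330 * b ^ 3 * u ^ 5 * v ^ 6
      + 110 * b ^ 3 * u * v ^ 10 + 5 * b ^ 3 * v ^ 11 + 3 * b * u ^ 11 + 11 * b * u ^ 10 * v + 198 * b * u ^ 6 * v ^ 5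
      + 66 * b * u ^ 5 * v ^ 6 - 33 * b * u * v ^ 10 - b * v ^ 11) * hb

set_option maxHeartbeats 4000000 in
theorem u5kb_Fu_S_aux (b : R) (hb : 5 * b ^ 4 + 5 * b ^ 2 + 1 = 0) (u v : R) :
    u5kbFu ((-5 * b ^ 3 - 3 * b) * u + b * v) (b * u - (-5 * b ^ 3 - 3 * b) * v)
      = -b * u5kbFv u v - (-5 * b ^ 3 - 3 * b) * u5kbFu u v := by
  simp only [u5kbFv, u5kbFu]
  linear_combination (107421875 * b ^ 29 * u ^ 10 * v - 644531250 * b ^ 29 * u ^ 5 * v ^ 6 - 9765625 * b ^ 29 * v ^ 11 + 21484375 * b ^ 27 * u ^ 11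
      + 601562500 * b ^ 27 * u ^ 10 * v - 214843750 * b ^ 27 * u ^ 9 * v ^ 2 - 773437500 * b ^ 27 * u ^ 6 * v ^ 5
      - 3609375000 * b ^ 27 * u ^ 5 * v ^ 6 + 644531250 * b ^ 27 * u ^ 4 * v ^ 7 - 21484375 * b ^ 27 * u * v ^ 10
      - 54687500 * b ^ 27 * v ^ 11 + 107421875 * b ^ 25 * u ^ 11 + 1460937500 * b ^ 25 * u ^ 10 * v
      - 1074218750 * b ^ 25 * u ^ 9 * v ^ 2 + 193359375 * b ^ 25 * u ^ 8 * v ^ 3 - 386718750 * b ^ 25 * u ^ 7 * v ^ 4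
      - 3867187500 * b ^ 25 * u ^ 6 * v ^ 5 - 8250000000 * b ^ 25 * u ^ 5 * v ^ 6 + 3222656250 * b ^ 25 * u ^ 4 * v ^ 7
      - 257812500 * b ^ 25 * u ^ 3 * v ^ 8 - 21484375 * b ^ 25 * u ^ 2 * v ^ 9 - 107421875 * b ^ 25 * u * v ^ 10
      - 136718750 * b ^ 25 * v ^ 11 + 236328125 * b ^ 23 * u ^ 11 + 2015234375 * b ^ 23 * u ^ 10 * v
      - 2324609375 * b ^ 23 * u ^ 9 * v ^ 2 + 747656250 * b ^ 23 * u ^ 8 * v ^ 3 - 1804687500 * b ^ 23 * u ^ 7 * v ^ 4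
      - 8121093750 * b ^ 23 * u ^ 6 * v ^ 5 - 9822656250 * b ^ 23 * u ^ 5 * v ^ 6 + 6780468750 * b ^ 23 * u ^ 4 * v ^ 7
      - 1147265625 * b ^ 23 * u ^ 3 * v ^ 8 - 42968750 * b ^ 23 * u ^ 2 * v ^ 9 - 236328125 * b ^ 23 * u * v ^ 10
      - 200390625 * b ^ 23 * v ^ 11 + 299062500 * b ^ 21 * u ^ 11 + 1729921875 * b ^ 21 * u ^ 10 * v
      - 2859140625 * b ^ 21 * u ^ 9 * v ^ 2 + 1203984375 * b ^ 21 * u ^ 8 * v ^ 3 - 3521718750 * b ^ 21 * u ^ 7 * v ^ 4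
      - 9260625000 * b ^ 21 * u ^ 6 * v ^ 5 - 6223593750 * b ^ 21 * u ^ 5 * v ^ 6 + 7791093750 * b ^ 21 * u ^ 4 * v ^ 7
      - 2142421875 * b ^ 21 * u ^ 3 * v ^ 8 + 16328125 * b ^ 21 * u ^ 2 * v ^ 9 - 304218750 * b ^ 21 * u * v ^ 10
      - 189921875 * b ^ 21 * v ^ 11 + 238390625 * b ^ 19 * u ^ 11 + 945312500 * b ^ 19 * u ^ 10 * v
      - 2198281250 * b ^ 19 * u ^ 9 * v ^ 2 + 1044140625 * b ^ 19 * u ^ 8 * v ^ 3 - 3733125000 * b ^ 19 * u ^ 7 * v ^ 4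
      - 6156562500 * b ^ 19 * u ^ 6 * v ^ 5 - 1593281250 * b ^ 19 * u ^ 5 * v ^ 6 + 5285156250 * b ^ 19 * u ^ 4 * v ^ 7
      - 2175937500 * b ^ 19 * u ^ 3 * v ^ 8 + 116015625 * b ^ 19 * u ^ 2 * v ^ 9 - 254890625 * b ^ 19 * u * v ^ 10
      - 120625000 * b ^ 19 * v ^ 11 + 122753125 * b ^ 17 * u ^ 11 + 318071875 * b ^ 17 * u ^ 10 * v
      - 1087796875 * b ^ 17 * u ^ 9 * v ^ 2 + 524906250 * b ^ 17 * u ^ 8 * v ^ 3 - 2325468750 * b ^ 17 * u ^ 7 * v ^ 4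
      - 2347125000 * b ^ 17 * u ^ 6 * v ^ 5 + 377437500 * b ^ 17 * u ^ 5 * v ^ 6 + 2118187500 * b ^ 17 * u ^ 4 * v ^ 7
      - 1296796875 * b ^ 17 * u ^ 3 * v ^ 8 + 131312500 * b ^ 17 * u ^ 2 * v ^ 9 - 143996875 * b ^ 17 * u * v ^ 10
      - 51146875 * b ^ 17 * v ^ 11 + 39943750 * b ^ 15 * u ^ 11 + 57578125 * b ^ 15 * u ^ 10 * v - 339934375 * b ^ 15 * u ^ 9 * v ^ 2
      + 152315625 * b ^ 15 * u ^ 8 * v ^ 3 - 852431250 * b ^ 15 * u ^ 7 * v ^ 4 - 445912500 * b ^ 15 * u ^ 6 * v ^ 5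
      + 366093750 * b ^ 15 * u ^ 5 * v ^ 6 + 464681250 * b ^ 15 * u ^ 4 * v ^ 7 - 452615625 * b ^ 15 * u ^ 3 * v ^ 8
      + 69471875 * b ^ 15 * u ^ 2 * v ^ 9 - 53762500 * b ^ 15 * u * v ^ 10 - 13828125 * b ^ 15 * v ^ 11
      + 7528125 * b ^ 13 * u ^ 11 + 2866875 * b ^ 13 * u ^ 10 * v - 61545000 * b ^ 13 * u ^ 9 * v ^ 2
      + 23512500 * b ^ 13 * u ^ 8 * v ^ 3 - 170445000 * b ^ 13 * u ^ 7 * v ^ 4 - 17613750 * b ^ 13 * u ^ 6 * v ^ 5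
      + 88316250 * b ^ 13 * u ^ 5 * v ^ 6 + 43065000 * b ^ 13 * u ^ 4 * v ^ 7 - 85387500 * b ^ 13 * u ^ 3 * v ^ 8
      + 18177500 * b ^ 13 * u ^ 2 * v ^ 9 - 12106875 * b ^ 13 * u * v ^ 10 - 2115625 * b ^ 13 * v ^ 11
      + 632500 * b ^ 11 * u ^ 11 - 460625 * b ^ 11 * u ^ 10 * v - 4950000 * b ^ 11 * u ^ 9 * v ^ 2 + 1485000 * b ^ 11 * u ^ 8 * v ^ 3
      - 14355000 * b ^ 11 * u ^ 7 * v ^ 4 + 4455000 * b ^ 11 * u ^ 6 * v ^ 5 + 6641250 * b ^ 11 * u ^ 5 * v ^ 6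
      - 6682500 * b ^ 11 * u ^ 3 * v ^ 8 + 1897500 * b ^ 11 * u ^ 2 * v ^ 9 - 1265000 * b ^ 11 * u * v ^ 10
      - 130625 * b ^ 11 * v ^ 11 + 275 * b ^ 9 * u ^ 11 - 4950 * b ^ 9 * u ^ 10 * v + 18150 * b ^ 9 * u ^ 6 * v ^ 5
      - 29700 * b ^ 9 * u ^ 5 * v ^ 6 - 3025 * b ^ 9 * u * v ^ 10 + 450 * b ^ 9 * v ^ 11 - 75 * b ^ 7 * u ^ 11
      + 1375 * b ^ 7 * u ^ 10 * v - 4950 * b ^ 7 * u ^ 6 * v ^ 5 + 8250 * b ^ 7 * u ^ 5 * v ^ 6 + 825 * b ^ 7 * u * v ^ 10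
      - 125 * b ^ 7 * v ^ 11 + 20 * b ^ 5 * u ^ 11 - 385 * b ^ 5 * u ^ 10 * v + 1320 * b ^ 5 * u ^ 6 * v ^ 5
      - 2310 * b ^ 5 * u ^ 5 * v ^ 6 - 220 * b ^ 5 * u * v ^ 10 + 35 * b ^ 5 * v ^ 11 - 5 * b ^ 3 * u ^ 11
      + 110 * b ^ 3 * u ^ 10 * v - 330 * b ^ 3 * u ^ 6 * v ^ 5 + 660 * b ^ 3 * u ^ 5 * v ^ 6 + 55 * b ^ 3 * u * v ^ 10
      - 10 * b ^ 3 * v ^ 11 + b * u ^ 11 - 33 * b * u ^ 10 * v + 66 * b * u ^ 6 * v ^ 5 - 198 * b * u ^ 5 * v ^ 6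
      - 11 * b * u * v ^ 10 + 3 * b * v ^ 11) * hb

theorem u5kb_Fv_S (a b : R) (h1 : a ^ 2 + a * b - b ^ 2 = 0) (h2 : a ^ 2 + b ^ 2 = -1) (u v : R) :
    u5kbFv (a * u + b * v) (b * u - a * v) = a * u5kbFv u v - b * u5kbFu u v := by
  obtain ⟨ha, hb⟩ := u5kb_S_red a b h1 h2
  rw [ha]
  exact u5kb_Fv_S_aux b hb u v

theorem u5kb_Fu_S (a b : R) (h1 : a ^ 2 + a * b - b ^ 2 = 0) (h2 : a ^ 2 + b ^ 2 = -1) (u v : R) :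
    u5kbFu (a * u + b * v) (b * u - a * v) = -b * u5kbFv u v - a * u5kbFu u v := by
  obtain ⟨ha, hb⟩ := u5kb_S_red a b h1 h2
  rw [ha]
  exact u5kb_Fu_S_aux b hb u v

/-- `Φ_{m,n}(Ŝ w) = Ŝ Φ_{m,n}(w)` for `Ŝ(u,v) = (a u + b v, b u - a v)`. -/
theorem u5kb_Phi_S (a b : R) (h1 : a ^ 2 + a * b - b ^ 2 = 0) (h2 : a ^ 2 + b ^ 2 = -1)
    (m n : R) (w : R × R) :
    u5kbPhi m n (a * w.1 + b * w.2, b * w.1 - a * w.2)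
      = (a * (u5kbPhi m n w).1 + b * (u5kbPhi m n w).2,
         b * (u5kbPhi m n w).1 - a * (u5kbPhi m n w).2) := by
  ext
  · simp only [u5kbPhi, u5kbPhi1, u5kbPhi2, u5kb_Fv_S a b h1 h2]; ring
  · simp only [u5kbPhi, u5kbPhi1, u5kbPhi2, u5kb_Fu_S a b h1 h2]; ring

/-- the two relations for the entries of helper25's `Ŝ` in reduced form
`a = (-1 - 2ζ - 3ζ² + ζ³)/5`, `b = (2 + 4ζ + ζ² + 3ζ³)/5` (denominator-free version). -/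
theorem u5kb_S_rel5 (z : R) (hz : z ^ 4 + z ^ 3 + z ^ 2 + z + 1 = 0) :
    (-1 - 2 * z - 3 * z ^ 2 + z ^ 3) ^ 2 + (-1 - 2 * z - 3 * z ^ 2 + z ^ 3) * (2 + 4 * z + z ^ 2 + 3 * z ^ 3)
        - (2 + 4 * z + z ^ 2 + 3 * z ^ 3) ^ 2 = 0 ∧
      (-1 - 2 * z - 3 * z ^ 2 + z ^ 3) ^ 2 + (2 + 4 * z + z ^ 2 + 3 * z ^ 3) ^ 2 = -25 := by
  constructor
  · linear_combination (-5 * z ^ 2 - 15 * z - 5) * hz
  · linear_combination (10 * z ^ 2 - 10 * z + 30) * hz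

/-- the two relations for `a = (-1 - 2ζ - 3ζ² + ζ³)/5`, `b = (2 + 4ζ + ζ² + 3ζ³)/5` in a field -/
theorem u5kb_S_rel {K : Type*} [Field K] (h5 : (5 : K) ≠ 0) (z : K)
    (hz : z ^ 4 + z ^ 3 + z ^ 2 + z + 1 = 0) :
    ((-1 - 2 * z - 3 * z ^ 2 + z ^ 3) / 5) ^ 2
        + ((-1 - 2 * z - 3 * z ^ 2 + z ^ 3) / 5) * ((2 + 4 * z + z ^ 2 + 3 * z ^ 3) / 5)
        - ((2 + 4 * z + z ^ 2 + 3 * z ^ 3) / 5) ^ 2 = 0 ∧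
      ((-1 - 2 * z - 3 * z ^ 2 + z ^ 3) / 5) ^ 2 + ((2 + 4 * z + z ^ 2 + 3 * z ^ 3) / 5) ^ 2 = -1 := by
  obtain ⟨h1, h2⟩ := u5kb_S_rel5 z hz
  constructor
  · field_simp
    linear_combination h1
  · field_simp
    linear_combination h2

end Fermat.Agent.U5
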