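import Fermat.Agent.U5.KL.BridgeH

/-!
# Program U (S52), Klein route, KL/Bridge (K8) : the family is the image of `Φ_{m,n}`

For Klein's forms `f, H, T` (helper27's `u5kfF`, `u5kfH`, `u5kfT`) and
`Φ_{m,n}(w) = m·w + 3n·(-f_v(w), f_u(w))` (`u5kbPhi`), with `a = 9 H(w)`, `b = 54 T(w)`:

* `u5kb_F : f(Φw) = f(w) · u5fD a b m n`   (`ring`),
* `u5kb_H : 27 H(Φw) = u5fA a b m n`        (coefficientwise in `n`, file `BridgeH`),
* `u5kb_T : 54 T(Φw) = u5fB a b m n`        (from the two syzygies `T² + H³ = 1728 f⁵`,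
  `4A³ + 27B² = (4(3a)³ + 27b²) D⁵` in the domain `ℤ[u,v,m,n]`, sign fixed at `(1,0,1,0)`),

over any commutative ring.  Consequently `Φ_{m,n}` maps the fibre `Fib(3a, b)` into
`Fib(u5fA a b m n, u5fB a b m n)` (`u5kb_mem`), and `f(Φw) ≠ 0` when `D(m,n) ≠ 0` (`u5kb_F_ne_zero`).
Prefix `u5kb`.
-/

set_option autoImplicit false

namespace Fermat.Agent.U5

section

variable {R : Type*} [CommRing R]

set_option maxHeartbeats 4000000 in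
/-- **(K8)** for `f`: `f(Φ_{m,n} w) = f(w) · D(m,n)`. -/
theorem u5kb_F (u v m n : R) :
    u5kfF (u5kbPhi1 m n u v) (u5kbPhi2 m n u v)
      = u5kfF u v * u5fD (9 * u5kfH u v) (54 * u5kfT u v) m n := by
  simp only [u5kbPhi1, u5kbPhi2, u5kbFu, u5kbFv, u5kfF, u5kfH, u5kfT, u5fD, u5cD0, u5cD1, u5cD2,
    u5cD3, u5cD4, u5cD5, u5cD6, u5cD7, u5cD8, u5cD9, u5cD10, u5cD11, u5cD12]
  ring

/-- pure algebra: the `T`-bridge up to sign from the `F`- and `H`-bridges and the two syzygies -/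
theorem u5kb_abs (F0 H0 T0 F1 H1 T1 D A B : R) (s0 : T0 ^ 2 + H0 ^ 3 = 1728 * F0 ^ 5)
    (s1 : T1 ^ 2 + H1 ^ 3 = 1728 * F1 ^ 5) (hF : F1 = F0 * D) (hA : 27 * H1 = A)
    (hsyz : 4 * A ^ 3 + 27 * B ^ 2 = (4 * (3 * (9 * H0)) ^ 3 + 27 * (54 * T0) ^ 2) * D ^ 5) :
    27 * ((B - 54 * T1) * (B + 54 * T1)) = 0 := by
  subst hF hA
  linear_combination hsyz + 78732 * D ^ 5 * s0 - 78732 * s1

end

open MvPolynomial in
/-- the `T`-bridge in the polynomial ring `ℤ[u,v,m,n]` -/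
theorem u5kb_T_poly :
    (54 : MvPolynomial (Fin 4) ℤ) * u5kfT (u5kbPhi1 (X 2) (X 3) (X 0) (X 1))
        (u5kbPhi2 (X 2) (X 3) (X 0) (X 1))
      = u5fB (9 * u5kfH (X 0) (X 1)) (54 * u5kfT (X 0) (X 1)) (X 2) (X 3) := by
  have h := u5kb_abs (R := MvPolynomial (Fin 4) ℤ) _ _ _ _ _ _ _ _
    (u5fB (9 * u5kfH (X 0) (X 1)) (54 * u5kfT (X 0) (X 1)) (X 2) (X 3))
    (u5kf_syz (X 0) (X 1))
    (u5kf_syz (u5kbPhi1 (X 2) (X 3) (X 0) (X 1)) (u5kbPhi2 (X 2) (X 3) (X 0) (X 1)))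
    (u5kb_F (X 0) (X 1) (X 2) (X 3)) (u5kb_H (X 0) (X 1) (X 2) (X 3))
    (u5_syz (9 * u5kfH (X 0) (X 1)) (54 * u5kfT (X 0) (X 1)) (X 2) (X 3))
  have h27 : (27 : MvPolynomial (Fin 4) ℤ) ≠ 0 := by
    have : (27 : MvPolynomial (Fin 4) ℤ) = C 27 := by simp
    rw [this, Ne, C_eq_zero]; norm_num
  rcases mul_eq_zero.mp ((mul_eq_zero.mp h).resolve_left h27) with h1 | h1
  · exact (sub_eq_zero.mp h1).symm
  · exfalso
    -- evaluate at `(u,v,m,n) = (1,0,1,0)`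
    have h2 := congrArg (MvPolynomial.eval ![1, 0, 1, 0]) h1
    rw [map_add, map_mul, u5kb_map_fB, u5kb_map_T] at h2
    simp only [map_mul, u5kb_map_H, u5kb_map_T, u5kb_map_Phi1, u5kb_map_Phi2,
      eval_X, map_ofNat, map_zero] at h2
    simp [u5kfT, u5kfH, u5kbPhi1, u5kbPhi2, u5kbFu, u5kbFv, u5fB, u5cB0] at h2

section

variable {R : Type*} [CommRing R]

/-- **(K8)** for `T`: `54 T(Φ_{m,n} w) = u5fB (9 H(w)) (54 T(w)) m n`. -/
theorem u5kb_T (u v m n : R) :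
    54 * u5kfT (u5kbPhi1 m n u v) (u5kbPhi2 m n u v)
      = u5fB (9 * u5kfH u v) (54 * u5kfT u v) m n := by
  obtain ⟨φ, h0, h1, h2, h3⟩ : ∃ φ : MvPolynomial (Fin 4) ℤ →+* R,
      φ (MvPolynomial.X 0) = u ∧ φ (MvPolynomial.X 1) = v ∧ φ (MvPolynomial.X 2) = m ∧
        φ (MvPolynomial.X 3) = n :=
    ⟨MvPolynomial.eval₂Hom (Int.castRingHom R) ![u, v, m, n], by simp, by simp, by simp, by simp⟩
  have h := congrArg φ u5kb_T_poly
  rw [map_mul, u5kb_map_T, u5kb_map_Phi1, u5kb_map_Phi2, u5kb_map_fB, map_mul, map_mul,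
    u5kb_map_H, u5kb_map_T, h0, h1, h2, h3] at h
  simpa only [map_ofNat] using h

/-- `Φ_{m,n}` in terms of pairs -/
theorem u5kb_F_pair (m n : R) (w : R × R) :
    u5kfF (u5kbPhi m n w).1 (u5kbPhi m n w).2
      = u5kfF w.1 w.2 * u5fD (9 * u5kfH w.1 w.2) (54 * u5kfT w.1 w.2) m n :=
  u5kb_F w.1 w.2 m n

theorem u5kb_H_pair (m n : R) (w : R × R) :
    27 * u5kfH (u5kbPhi m n w).1 (u5kbPhi m n w).2
      = u5fA (9 * u5kfH w.1 w.2) (54 * u5kfT w.1 w.2) m n :=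
  u5kb_H w.1 w.2 m n

theorem u5kb_T_pair (m n : R) (w : R × R) :
    54 * u5kfT (u5kbPhi m n w).1 (u5kbPhi m n w).2
      = u5fB (9 * u5kfH w.1 w.2) (54 * u5kfT w.1 w.2) m n :=
  u5kb_T w.1 w.2 m n

end

section Field

variable {K : Type*} [Field K] [CharZero K]

/-- `Φ_{m,n}` maps `Fib(3a, b)` into `Fib(A(m,n), B(m,n))`. -/
theorem u5kb_mem {a b : K} (m n : K) {w : K × K} (hw : w ∈ u5kfFibAB (3 * a) b) :
    u5kbPhi m n w ∈ u5kfFibAB (u5fA a b m n) (u5fB a b m n) := by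
  obtain ⟨h1, h2⟩ := hw
  have ha : 9 * u5kfH w.1 w.2 = a := by
    have h3 : (3 : K) ≠ 0 := by norm_num
    apply mul_left_cancel₀ h3
    linear_combination h1
  refine ⟨?_, ?_⟩
  · rw [u5kb_H_pair, ha, h2]
  · rw [u5kb_T_pair, ha, h2]

/-- `f(Φ_{m,n} w) = f(w) · D(m,n)` on the fibre `Fib(3a, b)`. -/
theorem u5kb_F_fib {a b : K} (m n : K) {w : K × K} (hw : w ∈ u5kfFibAB (3 * a) b) :
    u5kfF (u5kbPhi m n w).1 (u5kbPhi m n w).2 = u5kfF w.1 w.2 * u5fD a b m n := by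
  obtain ⟨h1, h2⟩ := hw
  have ha : 9 * u5kfH w.1 w.2 = a := by
    have h3 : (3 : K) ≠ 0 := by norm_num
    apply mul_left_cancel₀ h3
    linear_combination h1
  rw [u5kb_F_pair, ha, h2]

end Field

end Fermat.Agent.U5
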