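import Mathlib

/-!
# Program U (S52), Klein route : the fibres of `(H, T)` have at most `600` points and are non-empty

Klein's icosahedral forms `f, H, T` (`T² + H³ = 1728 f⁵`), as functions on any commutative ring.
For a field `K` and `h₀ t₀ ∈ K` with `t₀² + h₀³ ≠ 0`, `h₀ ≠ 0`, `t₀ ≠ 0` the fibre
`Fib = {(u,v) ∈ K² | H(u,v) = h₀, T(u,v) = t₀}` is finite with at most `600` elements
(`u5kf_card_le`) : `u ≠ 0`, `z = v/u` is a root of `t₀² H(1,z)³ - h₀³ T(1,z)²` (non-zero at `z = 0`,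
degree `≤ 60`) and `u¹⁰ = t₀ H(1,z) / (h₀ T(1,z))`.  Over an algebraically closed field of
characteristic `0` the fibre is non-empty (`u5kf_nonempty`).  Prefix `u5kf`.
-/

set_option autoImplicit false

namespace Fermat.Agent.U5

open Polynomial

section Forms

variable {R : Type*} [CommRing R]

/-- Klein's form `f = uv(u¹⁰ + 11u⁵v⁵ - v¹⁰)` -/
def u5kfF (u v : R) : R := u * v * (u ^ 10 + 11 * u ^ 5 * v ^ 5 - v ^ 10)

/-- Klein's form `H = -(u²⁰ + v²⁰) + 228(u¹⁵v⁵ - u⁵v¹⁵) - 494u¹⁰v¹⁰` -/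
def u5kfH (u v : R) : R :=
  -(u ^ 20 + v ^ 20) + 228 * (u ^ 15 * v ^ 5 - u ^ 5 * v ^ 15) - 494 * u ^ 10 * v ^ 10

/-- Klein's form `T = u³⁰ + v³⁰ + 522(u²⁵v⁵ - u⁵v²⁵) - 10005(u²⁰v¹⁰ + u¹⁰v²⁰)` -/
def u5kfT (u v : R) : R :=
  u ^ 30 + v ^ 30 + 522 * (u ^ 25 * v ^ 5 - u ^ 5 * v ^ 25)
    - 10005 * (u ^ 20 * v ^ 10 + u ^ 10 * v ^ 20)

/-- `T² + H³ = 1728 f⁵` -/
theorem u5kf_syz (u v : R) : u5kfT u v ^ 2 + u5kfH u v ^ 3 = 1728 * u5kfF u v ^ 5 := by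
  simp only [u5kfT, u5kfH, u5kfF]
  ring

theorem u5kf_H_smul (u z : R) : u5kfH u (z * u) = u ^ 20 * u5kfH 1 z := by
  simp only [u5kfH]
  ring

theorem u5kf_T_smul (u z : R) : u5kfT u (z * u) = u ^ 30 * u5kfT 1 z := by
  simp only [u5kfT]
  ring

theorem u5kf_F_smul (u z : R) : u5kfF u (z * u) = u ^ 12 * u5kfF 1 z := by
  simp only [u5kfF]
  ring

/-- the Bezout-type certificate for `gcd(f, H) = 1` in `y = z⁵` -/
theorem u5kf_cert (z : R) :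
    u5kfH 1 z = ((z ^ 5) ^ 2 - 11 * z ^ 5 - 1) * (-(z ^ 5) ^ 2 - 239 * z ^ 5 + 1)
      - 3125 * (z ^ 5) ^ 2 := by
  simp only [u5kfH]
  ring

theorem u5kf_F_one (z : R) : u5kfF 1 z = -(z * ((z ^ 5) ^ 2 - 11 * z ^ 5 - 1)) := by
  simp only [u5kfF]
  ring

end Forms

section Count

variable {K : Type*} [Field K]

/-- `H(1, z)` as a polynomial -/
noncomputable def u5kfHP (K : Type*) [Field K] : K[X] := u5kfH 1 X

/-- `T(1, z)` as a polynomial -/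
noncomputable def u5kfTP (K : Type*) [Field K] : K[X] := u5kfT 1 X

theorem u5kfHP_eval (z : K) : (u5kfHP K).eval z = u5kfH 1 z := by
  simp [u5kfHP, u5kfH]

theorem u5kfTP_eval (z : K) : (u5kfTP K).eval z = u5kfT 1 z := by
  simp [u5kfTP, u5kfT]

/-- the eliminant `t₀² H(1,z)³ - h₀³ T(1,z)²` -/
noncomputable def u5kfG (h₀ t₀ : K) : K[X] :=
  C (t₀ ^ 2) * u5kfHP K ^ 3 - C (h₀ ^ 3) * u5kfTP K ^ 2

theorem u5kfG_eval (h₀ t₀ z : K) :
    (u5kfG h₀ t₀).eval z = t₀ ^ 2 * u5kfH 1 z ^ 3 - h₀ ^ 3 * u5kfT 1 z ^ 2 := by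
  simp [u5kfG, u5kfHP_eval, u5kfTP_eval]

theorem u5kfG_ne_zero (h₀ t₀ : K) (hne : t₀ ^ 2 + h₀ ^ 3 ≠ 0) : u5kfG h₀ t₀ ≠ 0 := by
  intro h0
  have h1 := u5kfG_eval h₀ t₀ 0
  rw [h0, eval_zero] at h1
  apply hne
  simp only [u5kfH, u5kfT] at h1
  norm_num at h1
  linear_combination h1

theorem u5kfHP_natDegree_le : (u5kfHP K).natDegree ≤ 20 := by
  unfold u5kfHP u5kfH
  compute_degree

theorem u5kfTP_natDegree_le : (u5kfTP K).natDegree ≤ 30 := by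
  unfold u5kfTP u5kfT
  compute_degree

theorem u5kfG_natDegree_le (h₀ t₀ : K) : (u5kfG h₀ t₀).natDegree ≤ 60 := by
  unfold u5kfG
  refine (natDegree_sub_le _ _).trans (max_le ?_ ?_)
  · refine (natDegree_C_mul_le _ _).trans ?_
    refine natDegree_pow_le.trans ?_
    have := u5kfHP_natDegree_le (K := K)
    omega
  · refine (natDegree_C_mul_le _ _).trans ?_
    refine natDegree_pow_le.trans ?_
    have := u5kfTP_natDegree_le (K := K)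
    omega

/-- the fibre of `(H, T)` -/
def u5kfFib (h₀ t₀ : K) : Set (K × K) := {w | u5kfH w.1 w.2 = h₀ ∧ u5kfT w.1 w.2 = t₀}

theorem u5kf_fst_ne_zero {h₀ t₀ : K} (hne : t₀ ^ 2 + h₀ ^ 3 ≠ 0) {w : K × K}
    (hw : w ∈ u5kfFib h₀ t₀) : w.1 ≠ 0 := by
  intro h0
  obtain ⟨h1, h2⟩ := hw
  apply hne
  rw [← h1, ← h2, h0]
  simp only [u5kfH, u5kfT]
  ring

theorem u5kf_F_ne_zero {h₀ t₀ : K} (hne : t₀ ^ 2 + h₀ ^ 3 ≠ 0) {w : K × K}
    (hw : w ∈ u5kfFib h₀ t₀) : u5kfF w.1 w.2 ≠ 0 := by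
  intro h0
  obtain ⟨h1, h2⟩ := hw
  apply hne
  have := u5kf_syz w.1 w.2
  rw [h0, h1, h2] at this
  rw [this]
  ring

/-- for a point of the fibre, `z = v/u` is a root of the eliminant and `u¹⁰` is determined by `z` -/
theorem u5kf_fib_param {h₀ t₀ : K} (hne : t₀ ^ 2 + h₀ ^ 3 ≠ 0) (hh : h₀ ≠ 0) (ht : t₀ ≠ 0)
    {w : K × K} (hw : w ∈ u5kfFib h₀ t₀) :
    w.2 = w.2 / w.1 * w.1 ∧ (u5kfG h₀ t₀).IsRoot (w.2 / w.1) ∧
      w.1 ^ 10 = t₀ * (u5kfHP K).eval (w.2 / w.1) / (h₀ * (u5kfTP K).eval (w.2 / w.1)) := by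
  have hu := u5kf_fst_ne_zero hne hw
  obtain ⟨h1, h2⟩ := hw
  have hv : w.2 = w.2 / w.1 * w.1 := by field_simp
  set z := w.2 / w.1 with hz
  rw [hv, u5kf_H_smul] at h1
  rw [hv, u5kf_T_smul] at h2
  have hH1 : u5kfH 1 z ≠ 0 := by
    intro h0
    rw [h0, mul_zero] at h1
    exact hh h1.symm
  have hT1 : u5kfT 1 z ≠ 0 := by
    intro h0
    rw [h0, mul_zero] at h2
    exact ht h2.symm
  refine ⟨hv, ?_, ?_⟩
  · rw [IsRoot, u5kfG_eval, ← h1, ← h2]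
    ring
  · rw [u5kfHP_eval, u5kfTP_eval, ← h1, ← h2]
    field_simp

/-- the finite set containing the fibre -/
noncomputable def u5kfBox (h₀ t₀ : K) : Finset (K × K) := by
  classical
  exact (u5kfG h₀ t₀).roots.toFinset.biUnion (fun z =>
    ((X ^ 10 - C (t₀ * (u5kfHP K).eval z / (h₀ * (u5kfTP K).eval z)) : K[X]).roots.toFinset).image
      (fun u => (u, z * u)))

theorem u5kfBox_card_le (h₀ t₀ : K) : (u5kfBox h₀ t₀).card ≤ 600 := by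
  classical
  unfold u5kfBox
  have h1 : (u5kfG h₀ t₀).roots.toFinset.card ≤ 60 :=
    (Multiset.toFinset_card_le _).trans ((card_roots' _).trans (u5kfG_natDegree_le h₀ t₀))
  refine (Finset.card_biUnion_le_card_mul _ _ 10 ?_).trans ?_
  · intro z _
    refine Finset.card_image_le.trans ?_
    refine (Multiset.toFinset_card_le _).trans ((card_roots' _).trans ?_)
    rw [natDegree_X_pow_sub_C]
  · calc (u5kfG h₀ t₀).roots.toFinset.card * 10 ≤ 60 * 10 := Nat.mul_le_mul_right _ h1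
      _ = 600 := by norm_num

theorem u5kf_subset_box {h₀ t₀ : K} (hne : t₀ ^ 2 + h₀ ^ 3 ≠ 0) (hh : h₀ ≠ 0) (ht : t₀ ≠ 0) :
    u5kfFib h₀ t₀ ⊆ (u5kfBox h₀ t₀ : Set (K × K)) := by
  classical
  intro w hw
  obtain ⟨hv, hroot, hpow⟩ := u5kf_fib_param hne hh ht hw
  rw [Finset.mem_coe]
  unfold u5kfBox
  rw [Finset.mem_biUnion]
  refine ⟨w.2 / w.1, ?_, ?_⟩
  · rw [Multiset.mem_toFinset, mem_roots (u5kfG_ne_zero h₀ t₀ hne)]
    exact hroot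
  · rw [Finset.mem_image]
    refine ⟨w.1, ?_, ?_⟩
    · rw [Multiset.mem_toFinset, mem_roots (X_pow_sub_C_ne_zero (by norm_num) _)]
      rw [IsRoot, eval_sub, eval_pow, eval_X, eval_C, hpow, sub_self]
    · exact Prod.ext rfl hv.symm

/-- the fibre is finite -/
theorem u5kf_finite {h₀ t₀ : K} (hne : t₀ ^ 2 + h₀ ^ 3 ≠ 0) (hh : h₀ ≠ 0) (ht : t₀ ≠ 0) :
    (u5kfFib h₀ t₀).Finite :=
  (Finset.finite_toSet _).subset (u5kf_subset_box hne hh ht)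

/-- **the fibre has at most `600` points** -/
theorem u5kf_ncard_le {h₀ t₀ : K} (hne : t₀ ^ 2 + h₀ ^ 3 ≠ 0) (hh : h₀ ≠ 0) (ht : t₀ ≠ 0) :
    (u5kfFib h₀ t₀).ncard ≤ 600 := by
  refine (Set.ncard_le_ncard (u5kf_subset_box hne hh ht) (Finset.finite_toSet _)).trans ?_
  rw [Set.ncard_coe_finset]
  exact u5kfBox_card_le h₀ t₀

/-- **the fibre has at most `600` points**, in the form consumed by `u5w_transitive` -/
theorem u5kf_card_le {h₀ t₀ : K} (hne : t₀ ^ 2 + h₀ ^ 3 ≠ 0) (hh : h₀ ≠ 0) (ht : t₀ ≠ 0) :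
    Nat.card ↥(u5kfFib h₀ t₀) ≤ 600 := by
  rw [Nat.card_coe_set_eq]
  exact u5kf_ncard_le hne hh ht

theorem u5kf_finite_coe {h₀ t₀ : K} (hne : t₀ ^ 2 + h₀ ^ 3 ≠ 0) (hh : h₀ ≠ 0) (ht : t₀ ≠ 0) :
    Finite ↥(u5kfFib h₀ t₀) :=
  (u5kf_finite hne hh ht).to_subtype

end Count

section Nonempty

variable {K : Type*} [Field K]

/-- `gcd(f, H) = 1` pointwise : `H(1,z) = 0` and `f(1,z) = 0` is impossible when `5 ≠ 0` -/
theorem u5kf_H_ne_zero_of_F (h5 : (5 : K) ≠ 0) (z : K) (hF : u5kfF 1 z = 0) : u5kfH 1 z ≠ 0 := by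
  intro hH
  rw [u5kf_F_one, neg_eq_zero, mul_eq_zero] at hF
  rw [u5kf_cert] at hH
  rcases hF with hz | hq
  · rw [hz] at hH
    norm_num at hH
  · rw [hq, zero_mul, zero_sub, neg_eq_zero, mul_eq_zero] at hH
    have h3125 : (3125 : K) ≠ 0 := by
      have : (3125 : K) = 5 ^ 5 := by norm_num
      rw [this]
      exact pow_ne_zero _ h5
    rcases hH with hH | hH
    · exact h3125 hH
    · have hy : z ^ 5 = 0 := by simpa using hH
      rw [hy] at hq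
      norm_num at hq

theorem u5kfHP_coeff_top : (u5kfHP K).coeff 20 = -1 := by
  have h : u5kfHP K = -X ^ 20 + (228 : K[X]) * X ^ 5 - 228 * X ^ 15 - 494 * X ^ 10 - 1 := by
    simp only [u5kfHP, u5kfH]; ring
  rw [h]
  simp [coeff_X_pow, coeff_one]

theorem u5kfTP_coeff_top : (u5kfTP K).coeff 30 = 1 := by
  have h : u5kfTP K = X ^ 30 + 1 + (522 : K[X]) * X ^ 5 - 522 * X ^ 25 - 10005 * X ^ 20
      - 10005 * X ^ 10 := by
    simp only [u5kfTP, u5kfT]; ring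
  rw [h]
  simp [coeff_X_pow, coeff_one]

theorem u5kfG_coeff_top (h₀ t₀ : K) : (u5kfG h₀ t₀).coeff 60 = -(t₀ ^ 2 + h₀ ^ 3) := by
  unfold u5kfG
  rw [coeff_sub, coeff_C_mul, coeff_C_mul]
  have h1 : (u5kfHP K ^ 3).coeff (3 * 20) = (u5kfHP K).coeff 20 ^ 3 :=
    coeff_pow_of_natDegree_le u5kfHP_natDegree_le
  have h2 : (u5kfTP K ^ 2).coeff (2 * 30) = (u5kfTP K).coeff 30 ^ 2 :=
    coeff_pow_of_natDegree_le u5kfTP_natDegree_le
  norm_num at h1 h2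
  rw [h1, h2, u5kfHP_coeff_top, u5kfTP_coeff_top]
  ring

theorem u5kfG_natDegree {h₀ t₀ : K} (hne : t₀ ^ 2 + h₀ ^ 3 ≠ 0) : (u5kfG h₀ t₀).natDegree = 60 := by
  refine le_antisymm (u5kfG_natDegree_le h₀ t₀) ?_
  refine le_natDegree_of_ne_zero ?_
  rw [u5kfG_coeff_top]
  exact neg_ne_zero.mpr hne

/-- at a root of the eliminant, `H(1,z) ≠ 0` -/
theorem u5kf_H_ne_zero_of_root (h2 : (2 : K) ≠ 0) (h3 : (3 : K) ≠ 0) (h5 : (5 : K) ≠ 0)
    {h₀ t₀ : K} (hh : h₀ ≠ 0) {z : K} (hz : (u5kfG h₀ t₀).IsRoot z) : u5kfH 1 z ≠ 0 := by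
  intro hH
  rw [IsRoot, u5kfG_eval, hH] at hz
  have hT : u5kfT 1 z = 0 := by
    have : h₀ ^ 3 * u5kfT 1 z ^ 2 = 0 := by linear_combination -hz
    rcases mul_eq_zero.mp this with h | h
    · exact absurd (pow_eq_zero_iff (by norm_num) |>.mp h) hh
    · exact pow_eq_zero_iff (by norm_num) |>.mp h
  have hs := u5kf_syz (1 : K) z
  rw [hH, hT] at hs
  have h1728 : (1728 : K) ≠ 0 := by
    have : (1728 : K) = 2 ^ 6 * 3 ^ 3 := by norm_num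
    rw [this]
    exact mul_ne_zero (pow_ne_zero _ h2) (pow_ne_zero _ h3)
  have hF : u5kfF 1 z = 0 := by
    have : (1728 : K) * u5kfF 1 z ^ 5 = 0 := by rw [← hs]; ring
    rcases mul_eq_zero.mp this with h | h
    · exact absurd h h1728
    · exact pow_eq_zero_iff (by norm_num) |>.mp h
  exact u5kf_H_ne_zero_of_F h5 z hF hH

/-- **the fibre is non-empty** over an algebraically closed field in which `2, 3, 5` are invertible -/
theorem u5kf_nonempty' [IsAlgClosed K] (h2 : (2 : K) ≠ 0) (h3 : (3 : K) ≠ 0) (h5 : (5 : K) ≠ 0)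
    {h₀ t₀ : K} (hne : t₀ ^ 2 + h₀ ^ 3 ≠ 0) (hh : h₀ ≠ 0) (ht : t₀ ≠ 0) :
    (u5kfFib h₀ t₀).Nonempty := by
  have hdeg : (u5kfG h₀ t₀).degree ≠ 0 := by
    rw [degree_eq_natDegree (u5kfG_ne_zero h₀ t₀ hne), u5kfG_natDegree hne]
    norm_num
  obtain ⟨z, hz⟩ := IsAlgClosed.exists_root _ hdeg
  have hH := u5kf_H_ne_zero_of_root h2 h3 h5 hh hz
  have hz' := hz
  rw [IsRoot, u5kfG_eval] at hz'
  have hT : u5kfT 1 z ≠ 0 := by
    intro h0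
    rw [h0] at hz'
    have : t₀ ^ 2 * u5kfH 1 z ^ 3 = 0 := by linear_combination hz'
    rcases mul_eq_zero.mp this with h | h
    · exact ht (pow_eq_zero_iff (by norm_num) |>.mp h)
    · exact hH (pow_eq_zero_iff (by norm_num) |>.mp h)
  obtain ⟨u, hu⟩ := IsAlgClosed.exists_pow_nat_eq (t₀ * u5kfH 1 z / (h₀ * u5kfT 1 z)) (n := 10)
    (by norm_num)
  refine ⟨(u, z * u), ?_, ?_⟩
  · show u5kfH u (z * u) = h₀
    rw [u5kf_H_smul]
    have : u ^ 20 = (u ^ 10) ^ 2 := by ring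
    rw [this, hu]
    field_simp
    linear_combination hz'
  · show u5kfT u (z * u) = t₀
    rw [u5kf_T_smul]
    have : u ^ 30 = (u ^ 10) ^ 3 := by ring
    rw [this, hu]
    field_simp
    linear_combination hz'

theorem u5kf_nonempty [IsAlgClosed K] [CharZero K]
    {h₀ t₀ : K} (hne : t₀ ^ 2 + h₀ ^ 3 ≠ 0) (hh : h₀ ≠ 0) (ht : t₀ ≠ 0) :
    (u5kfFib h₀ t₀).Nonempty :=
  u5kf_nonempty' (by norm_num) (by norm_num) (by norm_num) hne hh ht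

end Nonempty

section BlueprintForm

variable {K : Type*} [Field K]

/-- the fibre in the normalisation of the blueprint : `Fib(A,B) = {w | 27 H(w) = A, 54 T(w) = B}`,
attached to the curve `y² = x³ + A x + B` -/
def u5kfFibAB (A B : K) : Set (K × K) :=
  {w | 27 * u5kfH w.1 w.2 = A ∧ 54 * u5kfT w.1 w.2 = B}

theorem u5kfFibAB_eq [CharZero K] (A B : K) : u5kfFibAB A B = u5kfFib (A / 27) (B / 54) := by
  ext w
  simp only [u5kfFibAB, u5kfFib, Set.mem_ofPred_eq]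
  constructor
  · rintro ⟨h1, h2⟩
    exact ⟨by rw [← h1]; field_simp, by rw [← h2]; field_simp⟩
  · rintro ⟨h1, h2⟩
    exact ⟨by rw [h1]; field_simp, by rw [h2]; field_simp⟩

theorem u5kfAB_disc [CharZero K] (A B : K) :
    4 * A ^ 3 + 27 * B ^ 2 = 78732 * ((B / 54) ^ 2 + (A / 27) ^ 3) := by
  field_simp
  ring

theorem u5kfAB_hne [CharZero K] {A B : K} (hd : 4 * A ^ 3 + 27 * B ^ 2 ≠ 0) :
    (B / 54) ^ 2 + (A / 27) ^ 3 ≠ 0 := by
  intro h0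
  apply hd
  rw [u5kfAB_disc, h0, mul_zero]

theorem u5kfAB_finite [CharZero K] {A B : K} (hA : A ≠ 0) (hB : B ≠ 0)
    (hd : 4 * A ^ 3 + 27 * B ^ 2 ≠ 0) : Finite ↥(u5kfFibAB A B) := by
  rw [u5kfFibAB_eq]
  exact u5kf_finite_coe (u5kfAB_hne hd) (div_ne_zero hA (by norm_num)) (div_ne_zero hB (by norm_num))

/-- `|Fib(A,B)| ≤ 600` -/
theorem u5kfAB_card_le [CharZero K] {A B : K} (hA : A ≠ 0) (hB : B ≠ 0)
    (hd : 4 * A ^ 3 + 27 * B ^ 2 ≠ 0) : Nat.card ↥(u5kfFibAB A B) ≤ 600 := by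
  rw [u5kfFibAB_eq]
  exact u5kf_card_le (u5kfAB_hne hd) (div_ne_zero hA (by norm_num)) (div_ne_zero hB (by norm_num))

/-- `Fib(A,B) ≠ ∅` -/
theorem u5kfAB_nonempty [IsAlgClosed K] [CharZero K] {A B : K} (hA : A ≠ 0) (hB : B ≠ 0)
    (hd : 4 * A ^ 3 + 27 * B ^ 2 ≠ 0) : (u5kfFibAB A B).Nonempty := by
  rw [u5kfFibAB_eq]
  exact u5kf_nonempty (u5kfAB_hne hd) (div_ne_zero hA (by norm_num)) (div_ne_zero hB (by norm_num))

/-- on `Fib(A,B)` with `disc ≠ 0` : `u ≠ 0` -/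
theorem u5kfAB_fst_ne_zero [CharZero K] {A B : K} (hd : 4 * A ^ 3 + 27 * B ^ 2 ≠ 0) {w : K × K}
    (hw : w ∈ u5kfFibAB A B) : w.1 ≠ 0 := by
  rw [u5kfFibAB_eq] at hw
  exact u5kf_fst_ne_zero (u5kfAB_hne hd) hw

/-- on `Fib(A,B)` with `disc ≠ 0` : `f(w) ≠ 0` -/
theorem u5kfAB_F_ne_zero [CharZero K] {A B : K} (hd : 4 * A ^ 3 + 27 * B ^ 2 ≠ 0) {w : K × K}
    (hw : w ∈ u5kfFibAB A B) : u5kfF w.1 w.2 ≠ 0 := by
  rw [u5kfFibAB_eq] at hw
  exact u5kf_F_ne_zero (u5kfAB_hne hd) hw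

/-- scalars `c ≠ 1` act freely on `Fib(A,B)` (for `Ẑ = ζ·1`) -/
theorem u5kfAB_smul_ne [CharZero K] {A B : K} (hd : 4 * A ^ 3 + 27 * B ^ 2 ≠ 0) {w : K × K}
    (hw : w ∈ u5kfFibAB A B) {c : K} (hc : c ≠ 1) : (c * w.1, c * w.2) ≠ w := by
  intro h
  have h1 : c * w.1 = w.1 := congrArg Prod.fst h
  have hu := u5kfAB_fst_ne_zero hd hw
  apply hc
  have : (c - 1) * w.1 = 0 := by linear_combination h1
  rcases mul_eq_zero.mp this with h | h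
  · exact sub_eq_zero.mp h
  · exact absurd h hu

end BlueprintForm

end Fermat.Agent.U5
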