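import Mathlib

/-!
# Program U (S52), leaf `U5LeafKlein`, piece KL/Words : transitivity from labels (prefix `u5w`)

Abstract form of the "LABELS + 120 words ⟹ transitivity" step of blueprints/S52.md §3.

`X` (the fibre `Fib`) is a finite set with at most `600` elements carrying three maps `S T Z`
(the generators `Ŝ`, `T̂`, `Ẑ = ζ·1`), and every `w : X` carries a "basis" `(e₁ w, e₂ w)` of a
`5`-torsion group (independence mod `5`).  If the labels transform by
`Ŝ : e₁ ↦ e₂, e₂ ↦ -e₁`, `T̂ : e₁ ↦ e₁, e₂ ↦ e₂ - e₁`, `Ẑ : id`, `Ẑ` commutes with `Ŝ`, `T̂` and acts
freely (`Ẑ^k w ≠ w` for `0 < k < 5`), then the `600` points `Ẑ^k (word · w)` (120 explicit words)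
are pairwise distinct, hence exhaust `X` : every `w'` is `Ẑ^k (word · w)`.

* `u5wAct S T l` : the action of the word `l` (`true = S`, `false = T`; the head acts LAST);
* `u5wMat l` : its label matrix in `M₂(ℤ)`, `(e₁,e₂)(l · w) = (e₁,e₂)(w) · M_l`;
* `u5w_label` : the label formula for words;
* `u5wWords` : 120 words with pairwise distinct matrices mod `5` (`u5w_codes_nodup`, `decide`);
* `u5w_transitive` : the transitivity statement;
* `u5w_act_induction` : a property stable under `S`, `T` is stable under every word.
-/

set_option autoImplicit false

namespace Fermat.Agent.U5

/-- the action of a word in `S` (`true`) and `T` (`false`); the head of the list acts last. -/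
def u5wAct {X : Type*} (S T : X → X) : List Bool → X → X
  | [] => id
  | b :: l => (if b then S else T) ∘ u5wAct S T l

theorem u5wAct_nil {X : Type*} (S T : X → X) (w : X) : u5wAct S T [] w = w := rfl

theorem u5wAct_cons {X : Type*} (S T : X → X) (b : Bool) (l : List Bool) (w : X) :
    u5wAct S T (b :: l) w = (if b then S else T) (u5wAct S T l w) := rfl

/-- a property stable under the generators is stable under every word. -/
theorem u5w_act_induction {X : Type*} (S T : X → X) (P : X → Prop) (hS : ∀ x, P x → P (S x))
    (hT : ∀ x, P x → P (T x)) (l : List Bool) (w : X) (hw : P w) : P (u5wAct S T l w) := by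
  induction l with
  | nil => exact hw
  | cons b l ih =>
    rw [u5wAct_cons]
    cases b
    · exact hT _ ih
    · exact hS _ ih

/-- equivariance : a map commuting with the generators commutes with every word. -/
theorem u5w_act_comm {X Y : Type*} (S T : X → X) (S' T' : Y → Y) (Φ : X → Y)
    (hS : ∀ x, Φ (S x) = S' (Φ x)) (hT : ∀ x, Φ (T x) = T' (Φ x)) (l : List Bool) (w : X) :
    Φ (u5wAct S T l w) = u5wAct S' T' l (Φ w) := by
  induction l with
  | nil => rfl
  | cons b l ih =>
    rw [u5wAct_cons, u5wAct_cons]
    cases b
    · simp only [Bool.false_eq_true, if_false]; rw [hT, ih]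
    · simp only [if_true]; rw [hS, ih]

/-- the label matrix `(a, b, c, d) = [[a, b], [c, d]]` of a word :
`e₁(l·w) = a e₁ + c e₂`, `e₂(l·w) = b e₁ + d e₂`. -/
def u5wMat : List Bool → ℤ × ℤ × ℤ × ℤ
  | [] => (1, 0, 0, 1)
  | true :: l => let m := u5wMat l; (m.2.1, -m.1, m.2.2.2, -m.2.2.1)
  | false :: l => let m := u5wMat l; (m.1, m.2.1 - m.1, m.2.2.1, m.2.2.2 - m.2.2.1)

/-- the label matrix mod `5`, coded as a natural number `< 625`. -/
def u5wCode (l : List Bool) : ℕ :=
  let m := u5wMat l
  (m.1 % 5).toNat + 5 * ((m.2.1 % 5).toNat + 5 * ((m.2.2.1 % 5).toNat + 5 * (m.2.2.2 % 5).toNat))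

/-- 120 words representing the 120 elements of `SL₂(𝔽₅)`. -/
def u5wWords : List (List Bool) :=
  [[],
  [false],
  [true],
  [false, false],
  [false, true],
  [true, false],
  [true, true],
  [false, false, false],
  [false, false, true],
  [false, true, false],
  [false, true, true],
  [true, false, false],
  [true, false, true],
  [true, true, true],
  [false, false, false, false],
  [false, false, false, true],
  [false, false, true, false],
  [false, false, true, true],
  [false, true, false, false],
  [false, true, false, true],
  [false, true, true, true],
  [true, false, false, false],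
  [true, false, false, true],
  [true, false, true, false],
  [true, false, true, true],
  [false, false, false, false, true],
  [false, false, false, true, false],
  [false, false, false, true, true],
  [false, false, true, false, false],
  [false, false, true, false, true],
  [false, false, true, true, true],
  [false, true, false, false, false],
  [false, true, false, false, true],
  [false, true, false, true, true],
  [true, false, false, false, false],
  [true, false, false, false, true],
  [true, false, false, true, false],
  [true, false, false, true, true],
  [true, false, true, false, false],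
  [true, false, true, true, true],
  [false, false, false, false, true, false],
  [false, false, false, false, true, true],
  [false, false, false, true, false, false],
  [false, false, false, true, false, true],
  [false, false, false, true, true, true],
  [false, false, true, false, false, false],
  [false, false, true, false, false, true],
  [false, false, true, false, true, true],
  [false, true, false, false, false, false],
  [false, true, false, false, false, true],
  [false, true, false, false, true, false],
  [false, true, false, false, true, true],
  [true, false, false, false, true, false],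
  [true, false, false, false, true, true],
  [true, false, false, true, false, false],
  [true, false, false, true, false, true],
  [true, false, false, true, true, true],
  [true, false, true, false, false, false],
  [true, false, true, false, false, true],
  [false, false, false, false, true, false, false],
  [false, false, false, false, true, false, true],
  [false, false, false, true, false, false, false],
  [false, false, false, true, false, false, true],
  [false, false, false, true, false, true, true],
  [false, false, true, false, false, false, false],
  [false, false, true, false, false, false, true],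
  [false, false, true, false, false, true, false],
  [false, false, true, false, false, true, true],
  [false, true, false, false, false, true, false],
  [false, true, false, false, false, true, true],
  [false, true, false, false, true, false, false],
  [false, true, false, false, true, true, true],
  [true, false, false, false, true, false, false],
  [true, false, false, false, true, false, true],
  [true, false, false, true, false, false, false],
  [true, false, false, true, false, false, true],
  [true, false, false, true, false, true, true],
  [true, false, true, false, false, false, false],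
  [true, false, true, false, false, false, true],
  [false, false, false, false, true, false, false, true],
  [false, false, false, true, false, false, false, true],
  [false, false, false, true, false, false, true, false],
  [false, false, false, true, false, false, true, true],
  [false, false, true, false, false, false, true, false],
  [false, false, true, false, false, false, true, true],
  [false, false, true, false, false, true, false, false],
  [false, false, true, false, false, true, true, true],
  [false, true, false, false, false, true, false, false],
  [false, true, false, false, false, true, false, true],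
  [false, true, false, false, true, false, false, false],
  [false, true, false, false, true, false, false, true],
  [true, false, false, false, true, false, false, true],
  [true, false, false, true, false, false, false, true],
  [true, false, false, true, false, false, true, true],
  [false, false, false, false, true, false, false, true, false],
  [false, false, false, true, false, false, false, true, false],
  [false, false, false, true, false, false, false, true, true],
  [false, false, false, true, false, false, true, false, false],
  [false, false, false, true, false, false, true, true, true],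
  [false, false, true, false, false, false, true, false, false],
  [false, false, true, false, false, false, true, false, true],
  [false, false, true, false, false, true, false, false, false],
  [false, false, true, false, false, true, false, false, true],
  [false, true, false, false, false, true, false, false, true],
  [false, true, false, false, true, false, false, false, true],
  [true, false, false, false, true, false, false, true, false],
  [true, false, false, true, false, false, false, true, false],
  [true, false, false, true, false, false, false, true, true],
  [true, false, false, true, false, false, true, true, true],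
  [false, false, false, false, true, false, false, true, false, false],
  [false, false, false, true, false, false, false, true, false, true],
  [false, false, false, true, false, false, true, false, false, false],
  [false, false, false, true, false, false, true, false, false, true],
  [false, false, true, false, false, false, true, false, false, true],
  [false, false, true, false, false, true, false, false, false, true],
  [true, false, false, false, true, false, false, true, false, false],
  [true, false, false, true, false, false, false, true, false, false],
  [true, false, false, true, false, false, false, true, false, true],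
  [false, false, false, false, true, false, false, true, false, false, true],
  [true, false, false, false, true, false, false, true, false, false, true]]

theorem u5w_words_length : u5wWords.length = 120 := by decide

set_option maxRecDepth 100000 in
theorem u5w_codes_nodup : (u5wWords.map u5wCode).Nodup := by decide

section Label

variable {X V : Type*} [AddCommGroup V] (S T : X → X) (e₁ e₂ : X → V)

/-- the label formula for words. -/
theorem u5w_label (hS₁ : ∀ w, e₁ (S w) = e₂ w) (hS₂ : ∀ w, e₂ (S w) = -e₁ w)
    (hT₁ : ∀ w, e₁ (T w) = e₁ w) (hT₂ : ∀ w, e₂ (T w) = e₂ w - e₁ w) (l : List Bool) (w : X) :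
    e₁ (u5wAct S T l w) = (u5wMat l).1 • e₁ w + (u5wMat l).2.2.1 • e₂ w ∧
    e₂ (u5wAct S T l w) = (u5wMat l).2.1 • e₁ w + (u5wMat l).2.2.2 • e₂ w := by
  induction l with
  | nil =>
    simp [u5wAct, u5wMat]
  | cons b l ih =>
    obtain ⟨ih1, ih2⟩ := ih
    rw [u5wAct_cons]
    cases b
    · simp only [Bool.false_eq_true, if_false, u5wMat]
      rw [hT₁, hT₂, ih1, ih2]
      refine ⟨rfl, ?_⟩
      rw [sub_smul, sub_smul]
      abel
    · simp only [if_true, u5wMat]
      rw [hS₁, hS₂, ih1, ih2]
      refine ⟨rfl, ?_⟩
      rw [neg_smul, neg_smul]
      abel

end Label

/-- equal codes ⟸ the matrices agree mod `5`. -/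
theorem u5w_code_eq_of_emod {l l' : List Bool}
    (h1 : (u5wMat l).1 % 5 = (u5wMat l').1 % 5) (h2 : (u5wMat l).2.1 % 5 = (u5wMat l').2.1 % 5)
    (h3 : (u5wMat l).2.2.1 % 5 = (u5wMat l').2.2.1 % 5)
    (h4 : (u5wMat l).2.2.2 % 5 = (u5wMat l').2.2.2 % 5) : u5wCode l = u5wCode l' := by
  unfold u5wCode
  simp only [h1, h2, h3, h4]

section Trans

variable {X V : Type*} [AddCommGroup V]

/-- **transitivity from labels.** -/
theorem u5w_transitive [Finite X] (hcard : Nat.card X ≤ 600) (S T Z : X → X) (e₁ e₂ : X → V)
    (hind : ∀ w (a b : ℤ), a • e₁ w + b • e₂ w = 0 → (5 : ℤ) ∣ a ∧ (5 : ℤ) ∣ b)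
    (hS₁ : ∀ w, e₁ (S w) = e₂ w) (hS₂ : ∀ w, e₂ (S w) = -e₁ w)
    (hT₁ : ∀ w, e₁ (T w) = e₁ w) (hT₂ : ∀ w, e₂ (T w) = e₂ w - e₁ w)
    (hZ₁ : ∀ w, e₁ (Z w) = e₁ w) (hZ₂ : ∀ w, e₂ (Z w) = e₂ w)
    (hZfree : ∀ w (k : ℕ), 0 < k → k < 5 → Z^[k] w ≠ w) (w w' : X) :
    ∃ (l : List Bool) (k : ℕ), k < 5 ∧ w' = Z^[k] (u5wAct S T l w) := by
  classical
  -- labels are `Z`-invariant
  have hZk₁ : ∀ (k : ℕ) x, e₁ (Z^[k] x) = e₁ x := by
    intro k
    induction k with
    | zero => intro x; rfl
    | succ k ih => intro x; rw [Function.iterate_succ_apply', hZ₁, ih]
  have hZk₂ : ∀ (k : ℕ) x, e₂ (Z^[k] x) = e₂ x := by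
    intro k
    induction k with
    | zero => intro x; rfl
    | succ k ih => intro x; rw [Function.iterate_succ_apply', hZ₂, ih]
  -- the map `Fin 120 × Fin 5 → X`
  let f : Fin 120 × Fin 5 → X := fun p =>
    Z^[(p.2 : ℕ)] (u5wAct S T (u5wWords.get (p.1.cast u5w_words_length.symm)) w)
  have hinj : Function.Injective f := by
    rintro ⟨i, k⟩ ⟨i', k'⟩ h
    simp only [f] at h
    set l := u5wWords.get (i.cast u5w_words_length.symm) with hl
    set l' := u5wWords.get (i'.cast u5w_words_length.symm) with hl'
    -- compare labels
    have h1 := congrArg e₁ h
    have h2 := congrArg e₂ h
    rw [hZk₁, hZk₁] at h1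
    rw [hZk₂, hZk₂] at h2
    obtain ⟨a1, a2⟩ := u5w_label S T e₁ e₂ hS₁ hS₂ hT₁ hT₂ l w
    obtain ⟨b1, b2⟩ := u5w_label S T e₁ e₂ hS₁ hS₂ hT₁ hT₂ l' w
    rw [a1, b1] at h1
    rw [a2, b2] at h2
    have d1 : ((u5wMat l).1 - (u5wMat l').1) • e₁ w +
        ((u5wMat l).2.2.1 - (u5wMat l').2.2.1) • e₂ w = 0 := by
      rw [sub_smul, sub_smul]
      have := sub_eq_zero.mpr h1
      rw [← this]; abel
    have d2 : ((u5wMat l).2.1 - (u5wMat l').2.1) • e₁ w +
        ((u5wMat l).2.2.2 - (u5wMat l').2.2.2) • e₂ w = 0 := by
      rw [sub_smul, sub_smul]
      have := sub_eq_zero.mpr h2
      rw [← this]; abel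
    obtain ⟨c1, c3⟩ := hind w _ _ d1
    obtain ⟨c2, c4⟩ := hind w _ _ d2
    have hcode : u5wCode l = u5wCode l' :=
      u5w_code_eq_of_emod (Int.emod_eq_emod_iff_emod_sub_eq_zero.mpr (Int.emod_eq_zero_of_dvd c1))
        (Int.emod_eq_emod_iff_emod_sub_eq_zero.mpr (Int.emod_eq_zero_of_dvd c2))
        (Int.emod_eq_emod_iff_emod_sub_eq_zero.mpr (Int.emod_eq_zero_of_dvd c3))
        (Int.emod_eq_emod_iff_emod_sub_eq_zero.mpr (Int.emod_eq_zero_of_dvd c4))
    -- the words coincide
    have hidx : i.cast u5w_words_length.symm = i'.cast u5w_words_length.symm := by
      have hnd := u5w_codes_nodup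
      rw [List.nodup_iff_injective_get] at hnd
      have hlen : (u5wWords.map u5wCode).length = u5wWords.length := List.length_map _
      have := @hnd ((i.cast u5w_words_length.symm).cast hlen.symm)
        ((i'.cast u5w_words_length.symm).cast hlen.symm) (by
          simp only [List.get_eq_getElem, List.getElem_map, Fin.val_cast]
          simpa [hl, hl', List.get_eq_getElem] using hcode)
      exact Fin.ext (by simpa using congrArg Fin.val this)
    have hii : i = i' := Fin.ext (by simpa using congrArg Fin.val hidx)
    subst hii
    -- now the `Z`-exponents
    have hkk : (k : ℕ) = (k' : ℕ) := by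
      by_contra hne
      rcases Nat.lt_or_gt_of_ne hne with hlt | hlt
      · have : Z^[(k' : ℕ) - (k : ℕ)] (Z^[(k : ℕ)] (u5wAct S T l w)) = Z^[(k : ℕ)] (u5wAct S T l w) := by
          rw [← Function.iterate_add_apply, Nat.sub_add_cancel hlt.le]
          exact h.symm
        exact hZfree _ _ (Nat.sub_pos_of_lt hlt) (lt_of_le_of_lt (Nat.sub_le _ _) k'.2) this
      · have : Z^[(k : ℕ) - (k' : ℕ)] (Z^[(k' : ℕ)] (u5wAct S T l w)) = Z^[(k' : ℕ)] (u5wAct S T l w) := by
          rw [← Function.iterate_add_apply, Nat.sub_add_cancel hlt.le]
          exact h
        exact hZfree _ _ (Nat.sub_pos_of_lt hlt) (lt_of_le_of_lt (Nat.sub_le _ _) k.2) this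
    exact Prod.ext rfl (Fin.ext hkk)
  have hbij : Function.Bijective f := by
    refine hinj.bijective_of_nat_card_le ?_
    rw [Nat.card_prod, Nat.card_fin, Nat.card_fin]
    exact hcard
  obtain ⟨⟨i, k⟩, hik⟩ := hbij.2 w'
  exact ⟨_, (k : ℕ), k.2, hik.symm⟩

end Trans

end Fermat.Agent.U5
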