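import Mathlib
import Fermat.Agent.U5.KL.WordsAbs

/-!
# Program U (S52), leaf `U5LeafKlein`, piece KL/GlueAbs : the abstract equivariance glue (prefix `u5kg`)

Abstract form of the "GALOIS" step of blueprints/S52.md §3.

* `U5kgBasis e₁ e₂` : `(e₁, e₂)` is a basis mod `5` of an abelian group (spanning over `ℤ`,
  independence mod `5`);
* `u5kg_exists_equiv` : two `5`-torsion groups with bases `(e₁, e₂)`, `(f₁, f₂)` are isomorphic by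
  `a e₁ + b e₂ ↦ a f₁ + b f₂`;
* `u5kg_glue` : `X₀, X₁` two "fibres" with generators `S T Z`, labels `e₁ e₂ : X₀ → V₀`,
  `f₁ f₂ : X₁ → V₁` transforming by the SAME rules (`Ŝ : e₁ ↦ e₂, e₂ ↦ -e₁`,
  `T̂ : e₁ ↦ e₁, e₂ ↦ e₂ - e₁`, `Ẑ : id`), a map `Φ : X₀ → X₁` commuting with the generators and with
  the action of `G`, transitivity on `X₀`, and the Galois rule `σ e₁(w) = κ(σ) e₁(σ w)`,
  `σ e₂(w) = e₂(σ w)` on both sides: then `V₀ ≃+ V₁` `G`-equivariantly.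
-/

set_option autoImplicit false

namespace Fermat.Agent.U5

/-- `(e₁, e₂)` is a basis mod `5` -/
structure U5kgBasis {V : Type*} [AddCommGroup V] (e₁ e₂ : V) : Prop where
  span : ∀ x : V, ∃ a b : ℤ, x = a • e₁ + b • e₂
  ind : ∀ a b : ℤ, a • e₁ + b • e₂ = 0 → (5 : ℤ) ∣ a ∧ (5 : ℤ) ∣ b

section Equiv

variable {V₀ V₁ : Type*} [AddCommGroup V₀] [AddCommGroup V₁]

/-- well-definedness of `a e₁ + b e₂ ↦ a f₁ + b f₂` -/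
theorem u5kg_wd {e₁ e₂ : V₀} {f₁ f₂ : V₁} (hb : U5kgBasis e₁ e₂)
    (tors₁ : ∀ x : V₁, (5 : ℤ) • x = 0) {a b a' b' : ℤ}
    (h : a • e₁ + b • e₂ = a' • e₁ + b' • e₂) : a • f₁ + b • f₂ = a' • f₁ + b' • f₂ := by
  have h0 : (a - a') • e₁ + (b - b') • e₂ = 0 := by
    rw [sub_smul, sub_smul]
    have := sub_eq_zero.mpr h
    rw [← this]; abel
  obtain ⟨⟨c, hc⟩, ⟨d, hd⟩⟩ := hb.ind _ _ h0
  have ha : a = a' + 5 * c := by omega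
  have hb' : b = b' + 5 * d := by omega
  rw [ha, hb', add_smul, add_smul, mul_smul, mul_smul, tors₁, tors₁]
  abel

/-- the map `a e₁ + b e₂ ↦ a f₁ + b f₂` -/
noncomputable def u5kgFun {e₁ e₂ : V₀} (hb : U5kgBasis e₁ e₂) (f₁ f₂ : V₁) (x : V₀) : V₁ :=
  (hb.span x).choose • f₁ + (hb.span x).choose_spec.choose • f₂

theorem u5kgFun_apply {e₁ e₂ : V₀} (hb : U5kgBasis e₁ e₂) {f₁ f₂ : V₁}
    (tors₁ : ∀ x : V₁, (5 : ℤ) • x = 0) (a b : ℤ) :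
    u5kgFun hb f₁ f₂ (a • e₁ + b • e₂) = a • f₁ + b • f₂ := by
  unfold u5kgFun
  apply u5kg_wd hb tors₁
  exact ((hb.span (a • e₁ + b • e₂)).choose_spec.choose_spec).symm

/-- **two `5`-torsion groups with bases mod `5` are isomorphic, basis to basis** -/
theorem u5kg_exists_equiv {e₁ e₂ : V₀} {f₁ f₂ : V₁} (hb₀ : U5kgBasis e₁ e₂)
    (hb₁ : U5kgBasis f₁ f₂) (tors₀ : ∀ x : V₀, (5 : ℤ) • x = 0)
    (tors₁ : ∀ x : V₁, (5 : ℤ) • x = 0) :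
    ∃ ψ : V₀ ≃+ V₁, ∀ a b : ℤ, ψ (a • e₁ + b • e₂) = a • f₁ + b • f₂ := by
  refine ⟨{ toFun := u5kgFun hb₀ f₁ f₂
            invFun := u5kgFun hb₁ e₁ e₂
            left_inv := ?_
            right_inv := ?_
            map_add' := ?_ }, fun a b => u5kgFun_apply hb₀ tors₁ a b⟩
  · intro x
    obtain ⟨a, b, rfl⟩ := hb₀.span x
    rw [u5kgFun_apply hb₀ tors₁, u5kgFun_apply hb₁ tors₀]
  · intro y
    obtain ⟨a, b, rfl⟩ := hb₁.span y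
    rw [u5kgFun_apply hb₁ tors₀, u5kgFun_apply hb₀ tors₁]
  · intro x y
    obtain ⟨a, b, rfl⟩ := hb₀.span x
    obtain ⟨c, d, rfl⟩ := hb₀.span y
    have : a • e₁ + b • e₂ + (c • e₁ + d • e₂) = (a + c) • e₁ + (b + d) • e₂ := by
      rw [add_smul, add_smul]; abel
    rw [this, u5kgFun_apply hb₀ tors₁, u5kgFun_apply hb₀ tors₁, u5kgFun_apply hb₀ tors₁,
      add_smul, add_smul]
    abel

/-- two additive maps that act on the bases by the same integer matrix are intertwined by the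
basis-to-basis isomorphism -/
theorem u5kg_intertwine {e₁ e₂ : V₀} {f₁ f₂ : V₁} (hb₀ : U5kgBasis e₁ e₂) (ψ : V₀ ≃+ V₁)
    (hψ : ∀ a b : ℤ, ψ (a • e₁ + b • e₂) = a • f₁ + b • f₂) (s₀ : V₀ →+ V₀) (s₁ : V₁ →+ V₁)
    {p q r t : ℤ} (h₀₁ : s₀ e₁ = p • e₁ + q • e₂) (h₀₂ : s₀ e₂ = r • e₁ + t • e₂)
    (h₁₁ : s₁ f₁ = p • f₁ + q • f₂) (h₁₂ : s₁ f₂ = r • f₁ + t • f₂) (x : V₀) :
    ψ (s₀ x) = s₁ (ψ x) := by
  obtain ⟨a, b, rfl⟩ := hb₀.span x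
  have hL : s₀ (a • e₁ + b • e₂) = (a * p + b * r) • e₁ + (a * q + b * t) • e₂ := by
    rw [map_add, map_zsmul, map_zsmul, h₀₁, h₀₂]
    simp only [smul_add, add_smul, mul_smul]; abel
  have hR : s₁ (a • f₁ + b • f₂) = (a * p + b * r) • f₁ + (a * q + b * t) • f₂ := by
    rw [map_add, map_zsmul, map_zsmul, h₁₁, h₁₂]
    simp only [smul_add, add_smul, mul_smul]; abel
  rw [hL, hψ, hψ, hR]

end Equiv

section Glue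

variable {G X₀ X₁ V₀ V₁ : Type*} [AddCommGroup V₀] [AddCommGroup V₁]

theorem u5kg_iterate_label {X V : Type*} (Z : X → X) (e : X → V) (hZ : ∀ w, e (Z w) = e w)
    (k : ℕ) (w : X) : e (Z^[k] w) = e w := by
  induction k with
  | zero => rfl
  | succ k ih => rw [Function.iterate_succ_apply', hZ, ih]

theorem u5kg_iterate_comm {X Y : Type*} (Z : X → X) (Z' : Y → Y) (Φ : X → Y)
    (hZ : ∀ w, Φ (Z w) = Z' (Φ w)) (k : ℕ) (w : X) : Φ (Z^[k] w) = Z'^[k] (Φ w) := by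
  induction k with
  | zero => rfl
  | succ k ih => rw [Function.iterate_succ_apply', Function.iterate_succ_apply', hZ, ih]

/-- **The abstract equivariance glue.** -/
theorem u5kg_glue (tors₀ : ∀ x : V₀, (5 : ℤ) • x = 0) (tors₁ : ∀ x : V₁, (5 : ℤ) • x = 0)
    (actV₀ : G → V₀ →+ V₀) (actV₁ : G → V₁ →+ V₁) (actX₀ : G → X₀ → X₀) (actX₁ : G → X₁ → X₁)
    (Φ : X₀ → X₁) (hΦ : ∀ σ w, Φ (actX₀ σ w) = actX₁ σ (Φ w))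
    (S₀ T₀ Z₀ : X₀ → X₀) (S₁ T₁ Z₁ : X₁ → X₁)
    (hΦS : ∀ w, Φ (S₀ w) = S₁ (Φ w)) (hΦT : ∀ w, Φ (T₀ w) = T₁ (Φ w))
    (hΦZ : ∀ w, Φ (Z₀ w) = Z₁ (Φ w))
    (e₁ e₂ : X₀ → V₀) (f₁ f₂ : X₁ → V₁)
    (hS₁ : ∀ w, e₁ (S₀ w) = e₂ w) (hS₂ : ∀ w, e₂ (S₀ w) = -e₁ w)
    (hT₁ : ∀ w, e₁ (T₀ w) = e₁ w) (hT₂ : ∀ w, e₂ (T₀ w) = e₂ w - e₁ w)
    (hZ₁ : ∀ w, e₁ (Z₀ w) = e₁ w) (hZ₂ : ∀ w, e₂ (Z₀ w) = e₂ w)
    (gS₁ : ∀ w, f₁ (S₁ w) = f₂ w) (gS₂ : ∀ w, f₂ (S₁ w) = -f₁ w)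
    (gT₁ : ∀ w, f₁ (T₁ w) = f₁ w) (gT₂ : ∀ w, f₂ (T₁ w) = f₂ w - f₁ w)
    (gZ₁ : ∀ w, f₁ (Z₁ w) = f₁ w) (gZ₂ : ∀ w, f₂ (Z₁ w) = f₂ w)
    (htrans : ∀ w w' : X₀, ∃ (l : List Bool) (k : ℕ), w' = Z₀^[k] (u5wAct S₀ T₀ l w))
    (κ : G → ℤ)
    (hgal₁ : ∀ σ w, actV₀ σ (e₁ w) = κ σ • e₁ (actX₀ σ w))
    (hgal₂ : ∀ σ w, actV₀ σ (e₂ w) = e₂ (actX₀ σ w))
    (ggal₁ : ∀ σ w, actV₁ σ (f₁ w) = κ σ • f₁ (actX₁ σ w))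
    (ggal₂ : ∀ σ w, actV₁ σ (f₂ w) = f₂ (actX₁ σ w))
    (w₀ : X₀) (hb₀ : U5kgBasis (e₁ w₀) (e₂ w₀)) (hb₁ : U5kgBasis (f₁ (Φ w₀)) (f₂ (Φ w₀))) :
    ∃ ψ : V₀ ≃+ V₁, ∀ σ x, ψ (actV₀ σ x) = actV₁ σ (ψ x) := by
  obtain ⟨ψ, hψ⟩ := u5kg_exists_equiv hb₀ hb₁ tors₀ tors₁
  refine ⟨ψ, fun σ x => ?_⟩
  obtain ⟨l, k, hlk⟩ := htrans w₀ (actX₀ σ w₀)
  -- the same word on the target side
  have hlk' : actX₁ σ (Φ w₀) = Z₁^[k] (u5wAct S₁ T₁ l (Φ w₀)) := by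
    rw [← hΦ, hlk, u5kg_iterate_comm Z₀ Z₁ Φ hΦZ, u5w_act_comm S₀ T₀ S₁ T₁ Φ hΦS hΦT]
  obtain ⟨a1, a2⟩ := u5w_label S₀ T₀ e₁ e₂ hS₁ hS₂ hT₁ hT₂ l w₀
  obtain ⟨b1, b2⟩ := u5w_label S₁ T₁ f₁ f₂ gS₁ gS₂ gT₁ gT₂ l (Φ w₀)
  refine u5kg_intertwine hb₀ ψ hψ (actV₀ σ) (actV₁ σ)
    (p := κ σ * (u5wMat l).1) (q := κ σ * (u5wMat l).2.2.1)
    (r := (u5wMat l).2.1) (t := (u5wMat l).2.2.2) ?_ ?_ ?_ ?_ x
  · rw [hgal₁, hlk, u5kg_iterate_label Z₀ e₁ hZ₁, a1, smul_add, mul_smul, mul_smul]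
  · rw [hgal₂, hlk, u5kg_iterate_label Z₀ e₂ hZ₂, a2]
  · rw [ggal₁, hlk', u5kg_iterate_label Z₁ f₁ gZ₁, b1, smul_add, mul_smul, mul_smul]
  · rw [ggal₂, hlk', u5kg_iterate_label Z₁ f₂ gZ₂, b2]

end Glue

end Fermat.Agent.U5
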