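import Mathlib
import Fermat.Agent.S51.ModFive
import Fermat.Agent.U5.Top
import Fermat.Agent.U5.KL.Fibre
import Fermat.Agent.U5.KL.WordsAbs
import Fermat.Agent.U5.KL.GlueAbs

/-!
# Program U (S52), leaf `U5LeafKlein`, piece KL/Galois : the final assembly (prefix `u5kg`)

`u5kg_core` : for two short curves `E_i : y² = x³ + A_i x + B_i` over `ℚ` (`disc ≠ 0`, `A₀ B₀ ≠ 0`),
with fibres `X_i = Fib(A_i, B_i) ⊆ ℚ̄²` (KL/Fibre), generators `S_i T_i Z_i : X_i → X_i`, labels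
`e₁ e₂ : X₀ → E₀(ℚ̄)`, `f₁ f₂ : X₁ → E₁(ℚ̄)` (5-torsion, independent mod 5, transforming by the
label rules of KL/WordsAbs), `Ẑ` free on `X₀`, the Galois rule `σ e₁(w) = κ(σ) e₁(σ w)`,
`σ e₂(w) = e₂(σ w)` on both sides and a map `Φ : X₀ → X₁` commuting with the generators and with
Galois : `U5CongrQ 5 E₀ E₁`.

Uses KL/Fibre (count, nonempty), KL/WordsAbs (transitivity) and KL/GlueAbs.  The inputs are
owed by KL/Point (labels) and KL/Bridge (`Φ`); the instantiation is `KL/Final.lean`.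
-/

set_option autoImplicit false
set_option linter.unusedVariables false
set_option linter.unusedSectionVars false

namespace Fermat.Agent.U5

open WeierstrassCurve WeierstrassCurve.Affine

open scoped Classical in
/-- the point `(x, y)` of `E` (`O` if `(x, y)` is not a nonsingular point of `E`) -/
noncomputable def u5kgPt {F : Type*} [Field F] (E : Affine F) (x y : F) : E.Point :=
  if h : E.Nonsingular x y then Point.some x y h else 0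

theorem u5kgPt_of {F : Type*} [Field F] {E : Affine F} {x y : F} (h : E.Nonsingular x y) :
    u5kgPt E x y = Point.some x y h := by
  classical
  rw [u5kgPt, dif_pos h]

/-- the Galois action on `K × K` -/
noncomputable def u5kgSig (σ : U5Qb ≃ₐ[ℚ] U5Qb) (w : U5Qb × U5Qb) : U5Qb × U5Qb := (σ w.1, σ w.2)

/-- the scalar action on `K × K` -/
noncomputable def u5kgZ (ζ : U5Qb) (w : U5Qb × U5Qb) : U5Qb × U5Qb := (ζ * w.1, ζ * w.2)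

section Smul

variable (E₀ : WeierstrassCurve ℚ)

/-- the Galois action on `u5kgPt` -/
theorem u5kg_smul_pt (σ : U5Qb ≃ₐ[ℚ] U5Qb) (x y : U5Qb) :
    σ • u5kgPt (E₀⁄U5Qb) x y = u5kgPt (E₀⁄U5Qb) (σ x) (σ y) := by
  classical
  by_cases h : (E₀⁄U5Qb).Nonsingular x y
  · rw [u5kgPt_of h]
    have h' : (E₀⁄U5Qb).Nonsingular (σ x) (σ y) := by
      have := (Affine.baseChange_nonsingular (W := E₀) (f := σ.toAlgHom) σ.injective x y).mpr h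
      exact this
    rw [u5kgPt_of h']
    rfl
  · have h' : ¬ (E₀⁄U5Qb).Nonsingular (σ x) (σ y) := by
      intro h''
      exact h ((Affine.baseChange_nonsingular (W := E₀) (f := σ.toAlgHom) σ.injective x y).mp h'')
    rw [u5kgPt, dif_neg h, u5kgPt, dif_neg h']
    exact smul_zero σ

end Smul

/-! ### a basis mod `5` from independence and `card ≤ 25` -/

theorem u5kg_basis_of_ind {V : Type*} [AddCommGroup V] [Finite V] (hcard : Nat.card V ≤ 25)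
    (tors : ∀ x : V, (5 : ℤ) • x = 0) {e₁ e₂ : V}
    (ind : ∀ a b : ℤ, a • e₁ + b • e₂ = 0 → (5 : ℤ) ∣ a ∧ (5 : ℤ) ∣ b) : U5kgBasis e₁ e₂ := by
  refine ⟨?_, ind⟩
  let f : Fin 5 × Fin 5 → V := fun p => ((p.1 : ℕ) : ℤ) • e₁ + ((p.2 : ℕ) : ℤ) • e₂
  have hinj : Function.Injective f := by
    rintro ⟨i, j⟩ ⟨i', j'⟩ h
    simp only [f] at h
    have h0 : (((i : ℕ) : ℤ) - ((i' : ℕ) : ℤ)) • e₁ + (((j : ℕ) : ℤ) - ((j' : ℕ) : ℤ)) • e₂ = 0 := by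
      rw [sub_smul, sub_smul]
      have := sub_eq_zero.mpr h
      rw [← this]; abel
    obtain ⟨h1, h2⟩ := ind _ _ h0
    have hi := i.2
    have hi' := i'.2
    have hj := j.2
    have hj' := j'.2
    have e1 : (i : ℕ) = (i' : ℕ) := by omega
    have e2 : (j : ℕ) = (j' : ℕ) := by omega
    exact Prod.ext (Fin.ext e1) (Fin.ext e2)
  have hc : Nat.card V ≤ Nat.card (Fin 5 × Fin 5) := by
    rw [Nat.card_prod, Nat.card_fin]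
    exact hcard
  have hbij := Function.Injective.bijective_of_nat_card_le hinj hc
  intro x
  obtain ⟨⟨i, j⟩, hij⟩ := hbij.2 x
  exact ⟨((i : ℕ) : ℤ), ((j : ℕ) : ℤ), hij.symm⟩

/-! ### the fibre as a type, the Galois action on it -/

section Fibre

/-- the cast `ℚ → ℚ̄` -/
noncomputable abbrev u5kgC (q : ℚ) : U5Qb := algebraMap ℚ U5Qb q

/-- the curve `y² = x³ + A x + B` over `ℚ̄` -/
noncomputable abbrev u5kgE (A B : ℚ) : Affine U5Qb := ((u5Short A B)⁄U5Qb)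

/-- the fibre `Fib(A,B)` as a type -/
abbrev U5kgX (A B : ℚ) : Type := ↥(u5kfFibAB (u5kgC A) (u5kgC B))

theorem u5kg_sig_mem (σ : U5Qb ≃ₐ[ℚ] U5Qb) {A B : ℚ} {w : U5Qb × U5Qb}
    (hw : w ∈ u5kfFibAB (u5kgC A) (u5kgC B)) : u5kgSig σ w ∈ u5kfFibAB (u5kgC A) (u5kgC B) := by
  obtain ⟨h1, h2⟩ := hw
  constructor
  · have := congrArg σ h1
    rw [AlgEquiv.commutes] at this
    refine Eq.trans ?_ this
    simp only [u5kgSig, u5kfH, map_add, map_mul, map_pow, map_sub, map_neg, map_ofNat]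
  · have := congrArg σ h2
    rw [AlgEquiv.commutes] at this
    refine Eq.trans ?_ this
    simp only [u5kgSig, u5kfT, map_add, map_mul, map_pow, map_sub, map_neg, map_ofNat]

theorem u5kg_Z_mem {ζ : U5Qb} (hζ : ζ ^ 5 = 1) {A B : U5Qb} {w : U5Qb × U5Qb}
    (hw : w ∈ u5kfFibAB A B) : u5kgZ ζ w ∈ u5kfFibAB A B := by
  obtain ⟨h1, h2⟩ := hw
  have e20 : ζ ^ 20 = 1 := by
    have : ζ ^ 20 = (ζ ^ 5) ^ 4 := by ring
    rw [this, hζ, one_pow]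
  have e30 : ζ ^ 30 = 1 := by
    have : ζ ^ 30 = (ζ ^ 5) ^ 6 := by ring
    rw [this, hζ, one_pow]
  constructor
  · rw [← h1]
    have : u5kfH (ζ * w.1) (ζ * w.2) = ζ ^ 20 * u5kfH w.1 w.2 := by
      simp only [u5kfH]; ring
    show 27 * u5kfH (ζ * w.1) (ζ * w.2) = _
    rw [this, e20, one_mul]
  · rw [← h2]
    have : u5kfT (ζ * w.1) (ζ * w.2) = ζ ^ 30 * u5kfT w.1 w.2 := by
      simp only [u5kfT]; ring
    show 54 * u5kfT (ζ * w.1) (ζ * w.2) = _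
    rw [this, e30, one_mul]

theorem u5kg_Z_iterate (ζ : U5Qb) (k : ℕ) (w : U5Qb × U5Qb) :
    (u5kgZ ζ)^[k] w = u5kgZ (ζ ^ k) w := by
  induction k with
  | zero => simp [u5kgZ]
  | succ k ih =>
    rw [Function.iterate_succ_apply', ih]
    simp only [u5kgZ, pow_succ]
    ext <;> simp <;> ring

theorem u5kg_Δ_ne_zero {A B : ℚ} (hd : 4 * A ^ 3 + 27 * B ^ 2 ≠ 0) : (u5kgE A B).Δ ≠ 0 := by
  show ((u5Short A B).map (algebraMap ℚ U5Qb)).Δ ≠ 0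
  rw [WeierstrassCurve.map_Δ]
  intro h
  have h0 := (map_eq_zero_iff _ (algebraMap ℚ U5Qb).injective).mp h
  apply hd
  simp only [u5Short, WeierstrassCurve.Δ, WeierstrassCurve.b₂, WeierstrassCurve.b₄,
    WeierstrassCurve.b₆, WeierstrassCurve.b₈] at h0
  linarith

/-- the Galois action on the fibre -/
noncomputable def u5kgXsig {A B : ℚ} (σ : U5Qb ≃ₐ[ℚ] U5Qb) (w : U5kgX A B) : U5kgX A B :=
  ⟨u5kgSig σ w.1, u5kg_sig_mem σ w.2⟩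

/-- the scalar action on the fibre -/
noncomputable def u5kgXZ {ζ : U5Qb} (hζ : ζ ^ 5 = 1) {A B : ℚ} (w : U5kgX A B) : U5kgX A B :=
  ⟨u5kgZ ζ w.1, u5kg_Z_mem hζ w.2⟩

theorem u5kgXZ_iterate {ζ : U5Qb} (hζ : ζ ^ 5 = 1) {A B : ℚ} (k : ℕ) (w : U5kgX A B) :
    ((u5kgXZ hζ)^[k] w).1 = u5kgZ (ζ ^ k) w.1 := by
  induction k with
  | zero => simp [u5kgZ]
  | succ k ih =>
    rw [Function.iterate_succ_apply']
    show u5kgZ ζ ((u5kgXZ hζ)^[k] w).1 = _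
    rw [ih]
    simp only [u5kgZ, pow_succ]
    ext <;> simp <;> ring

/-- `Ẑ = ζ·1` acts freely on the fibre -/
theorem u5kgXZ_free {ζ : U5Qb} (hprim : IsPrimitiveRoot ζ 5) {A B : ℚ}
    (hd : 4 * A ^ 3 + 27 * B ^ 2 ≠ 0) (w : U5kgX A B) (k : ℕ) (hk0 : 0 < k) (hk5 : k < 5) :
    (u5kgXZ hprim.pow_eq_one)^[k] w ≠ w := by
  intro h
  have h1 := congrArg Subtype.val h
  rw [u5kgXZ_iterate] at h1
  have hne : ζ ^ k ≠ 1 := hprim.pow_ne_one_of_pos_of_lt hk0.ne' hk5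
  have hd' : 4 * (u5kgC A) ^ 3 + 27 * (u5kgC B) ^ 2 ≠ 0 := by
    intro h0
    apply hd
    have : u5kgC (4 * A ^ 3 + 27 * B ^ 2) = 0 := by
      simp only [u5kgC, map_add, map_mul, map_pow, map_ofNat]
      exact h0
    exact (map_eq_zero_iff _ (algebraMap ℚ U5Qb).injective).mp this
  exact u5kfAB_smul_ne hd' w.2 hne h1

end Fibre

/-! ### the core assembly -/

section Core

variable {A₀ B₀ A₁ B₁ : ℚ}

/-- lifting a `5`-torsion point to the torsion submodule -/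
noncomputable def u5kgLift {A B : ℚ} (P : (u5kgE A B).Point) (h : (5 : ℤ) • P = 0) :
    U5Tors (u5Short A B) 5 :=
  ⟨P, by rw [Submodule.mem_torsionBy_iff]; exact_mod_cast h⟩

theorem u5kgLift_val {A B : ℚ} (P : (u5kgE A B).Point) (h : (5 : ℤ) • P = 0) :
    ((u5kgLift P h : U5Tors (u5Short A B) 5) : (u5kgE A B).Point) = P := rfl

theorem u5kg_tors {A B : ℚ} (x : U5Tors (u5Short A B) 5) : (5 : ℤ) • x = 0 := by
  have := x.2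
  rw [Submodule.mem_torsionBy_iff] at this
  apply Subtype.ext
  rw [Submodule.coe_smul, Submodule.coe_zero]
  exact_mod_cast this

/-- **the core assembly** -/
theorem u5kg_core (hA₀ : A₀ ≠ 0) (hB₀ : B₀ ≠ 0) (hd₀ : 4 * A₀ ^ 3 + 27 * B₀ ^ 2 ≠ 0)
    (hd₁ : 4 * A₁ ^ 3 + 27 * B₁ ^ 2 ≠ 0)
    (S₀ T₀ Z₀ : U5kgX A₀ B₀ → U5kgX A₀ B₀) (S₁ T₁ Z₁ : U5kgX A₁ B₁ → U5kgX A₁ B₁)
    (e₁ e₂ : U5kgX A₀ B₀ → (u5kgE A₀ B₀).Point) (f₁ f₂ : U5kgX A₁ B₁ → (u5kgE A₁ B₁).Point)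
    (te₁ : ∀ w, (5 : ℤ) • e₁ w = 0) (te₂ : ∀ w, (5 : ℤ) • e₂ w = 0)
    (tf₁ : ∀ w, (5 : ℤ) • f₁ w = 0) (tf₂ : ∀ w, (5 : ℤ) • f₂ w = 0)
    (hind₀ : ∀ w (a b : ℤ), a • e₁ w + b • e₂ w = 0 → (5 : ℤ) ∣ a ∧ (5 : ℤ) ∣ b)
    (hind₁ : ∀ w (a b : ℤ), a • f₁ w + b • f₂ w = 0 → (5 : ℤ) ∣ a ∧ (5 : ℤ) ∣ b)
    (hS₁ : ∀ w, e₁ (S₀ w) = e₂ w) (hS₂ : ∀ w, e₂ (S₀ w) = -e₁ w)
    (hT₁ : ∀ w, e₁ (T₀ w) = e₁ w) (hT₂ : ∀ w, e₂ (T₀ w) = e₂ w - e₁ w)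
    (hZ₁ : ∀ w, e₁ (Z₀ w) = e₁ w) (hZ₂ : ∀ w, e₂ (Z₀ w) = e₂ w)
    (gS₁ : ∀ w, f₁ (S₁ w) = f₂ w) (gS₂ : ∀ w, f₂ (S₁ w) = -f₁ w)
    (gT₁ : ∀ w, f₁ (T₁ w) = f₁ w) (gT₂ : ∀ w, f₂ (T₁ w) = f₂ w - f₁ w)
    (gZ₁ : ∀ w, f₁ (Z₁ w) = f₁ w) (gZ₂ : ∀ w, f₂ (Z₁ w) = f₂ w)
    (hZfree : ∀ w (k : ℕ), 0 < k → k < 5 → Z₀^[k] w ≠ w)
    (κ : (U5Qb ≃ₐ[ℚ] U5Qb) → ℤ)
    (hgal₁ : ∀ (σ : U5Qb ≃ₐ[ℚ] U5Qb) w, σ • e₁ w = κ σ • e₁ (u5kgXsig σ w))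
    (hgal₂ : ∀ (σ : U5Qb ≃ₐ[ℚ] U5Qb) w, σ • e₂ w = e₂ (u5kgXsig σ w))
    (ggal₁ : ∀ (σ : U5Qb ≃ₐ[ℚ] U5Qb) w, σ • f₁ w = κ σ • f₁ (u5kgXsig σ w))
    (ggal₂ : ∀ (σ : U5Qb ≃ₐ[ℚ] U5Qb) w, σ • f₂ w = f₂ (u5kgXsig σ w))
    (Φ : U5kgX A₀ B₀ → U5kgX A₁ B₁)
    (hΦS : ∀ w, Φ (S₀ w) = S₁ (Φ w)) (hΦT : ∀ w, Φ (T₀ w) = T₁ (Φ w))
    (hΦZ : ∀ w, Φ (Z₀ w) = Z₁ (Φ w))
    (hΦσ : ∀ (σ : U5Qb ≃ₐ[ℚ] U5Qb) w, Φ (u5kgXsig σ w) = u5kgXsig σ (Φ w)) :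
    U5CongrQ 5 (u5Short A₀ B₀) (u5Short A₁ B₁) := by
  classical
  -- the fibre `X₀` is finite with at most 600 elements, and nonempty
  have hcA : u5kgC A₀ ≠ 0 := (map_ne_zero_iff _ (algebraMap ℚ U5Qb).injective).mpr hA₀
  have hcB : u5kgC B₀ ≠ 0 := (map_ne_zero_iff _ (algebraMap ℚ U5Qb).injective).mpr hB₀
  have hcd : 4 * (u5kgC A₀) ^ 3 + 27 * (u5kgC B₀) ^ 2 ≠ 0 := by
    intro h0
    apply hd₀
    have : u5kgC (4 * A₀ ^ 3 + 27 * B₀ ^ 2) = 0 := by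
      simp only [u5kgC, map_add, map_mul, map_pow, map_ofNat]
      exact h0
    exact (map_eq_zero_iff _ (algebraMap ℚ U5Qb).injective).mp this
  haveI : Finite (U5kgX A₀ B₀) := u5kfAB_finite hcA hcB hcd
  have hcard : Nat.card (U5kgX A₀ B₀) ≤ 600 := u5kfAB_card_le hcA hcB hcd
  obtain ⟨p₀, hp₀⟩ := u5kfAB_nonempty hcA hcB hcd
  let w₀ : U5kgX A₀ B₀ := ⟨p₀, hp₀⟩
  -- the labels as torsion elements
  let E₁ : U5kgX A₀ B₀ → U5Tors (u5Short A₀ B₀) 5 := fun w => u5kgLift (e₁ w) (te₁ w)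
  let E₂ : U5kgX A₀ B₀ → U5Tors (u5Short A₀ B₀) 5 := fun w => u5kgLift (e₂ w) (te₂ w)
  let F₁ : U5kgX A₁ B₁ → U5Tors (u5Short A₁ B₁) 5 := fun w => u5kgLift (f₁ w) (tf₁ w)
  let F₂ : U5kgX A₁ B₁ → U5Tors (u5Short A₁ B₁) 5 := fun w => u5kgLift (f₂ w) (tf₂ w)
  have hIND₀ : ∀ w (a b : ℤ), a • E₁ w + b • E₂ w = 0 → (5 : ℤ) ∣ a ∧ (5 : ℤ) ∣ b := by
    intro w a b h
    apply hind₀ w a b
    have := congrArg Subtype.val h
    simpa [E₁, E₂, u5kgLift] using this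
  have hIND₁ : ∀ w (a b : ℤ), a • F₁ w + b • F₂ w = 0 → (5 : ℤ) ∣ a ∧ (5 : ℤ) ∣ b := by
    intro w a b h
    apply hind₁ w a b
    have := congrArg Subtype.val h
    simpa [F₁, F₂, u5kgLift] using this
  -- transitivity on `X₀`
  have htrans : ∀ w w' : U5kgX A₀ B₀, ∃ (l : List Bool) (k : ℕ),
      w' = Z₀^[k] (u5wAct S₀ T₀ l w) := by
    intro w w'
    obtain ⟨l, k, -, h⟩ := u5w_transitive hcard S₀ T₀ Z₀ E₁ E₂ hIND₀
      (fun w => Subtype.ext (hS₁ w)) (fun w => Subtype.ext (hS₂ w))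
      (fun w => Subtype.ext (hT₁ w))
      (fun w => Subtype.ext (by
        show e₂ (T₀ w) = _
        rw [hT₂]; rfl))
      (fun w => Subtype.ext (hZ₁ w)) (fun w => Subtype.ext (hZ₂ w)) hZfree w w'
    exact ⟨l, k, h⟩
  -- the bases
  obtain ⟨hfin₀, hc₀⟩ := S51.m5_card_le (u5kgE A₀ B₀) (u5kg_Δ_ne_zero hd₀)
  obtain ⟨hfin₁, hc₁⟩ := S51.m5_card_le (u5kgE A₁ B₁) (u5kg_Δ_ne_zero hd₁)
  have hb₀ : U5kgBasis (E₁ w₀) (E₂ w₀) :=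
    u5kg_basis_of_ind hc₀ u5kg_tors (hIND₀ w₀)
  have hb₁ : U5kgBasis (F₁ (Φ w₀)) (F₂ (Φ w₀)) :=
    u5kg_basis_of_ind hc₁ u5kg_tors (hIND₁ (Φ w₀))
  -- the glue
  obtain ⟨ψ, hψ⟩ := u5kg_glue (G := U5Qb ≃ₐ[ℚ] U5Qb) (V₀ := U5Tors (u5Short A₀ B₀) 5)
    (V₁ := U5Tors (u5Short A₁ B₁) 5) u5kg_tors u5kg_tors
    (fun σ => DistribMulAction.toAddMonoidHom (U5Tors (u5Short A₀ B₀) 5) σ)
    (fun σ => DistribMulAction.toAddMonoidHom (U5Tors (u5Short A₁ B₁) 5) σ)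
    (fun σ w => u5kgXsig σ w) (fun σ w => u5kgXsig σ w) Φ hΦσ S₀ T₀ Z₀ S₁ T₁ Z₁ hΦS hΦT hΦZ
    E₁ E₂ F₁ F₂
    (fun w => Subtype.ext (hS₁ w)) (fun w => Subtype.ext (hS₂ w))
    (fun w => Subtype.ext (hT₁ w))
    (fun w => Subtype.ext (by
      show e₂ (T₀ w) = _
      rw [hT₂]; rfl))
    (fun w => Subtype.ext (hZ₁ w)) (fun w => Subtype.ext (hZ₂ w))
    (fun w => Subtype.ext (gS₁ w)) (fun w => Subtype.ext (gS₂ w))
    (fun w => Subtype.ext (gT₁ w))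
    (fun w => Subtype.ext (by
      show f₂ (T₁ w) = _
      rw [gT₂]; rfl))
    (fun w => Subtype.ext (gZ₁ w)) (fun w => Subtype.ext (gZ₂ w))
    htrans κ
    (fun σ w => Subtype.ext (hgal₁ σ w)) (fun σ w => Subtype.ext (hgal₂ σ w))
    (fun σ w => Subtype.ext (ggal₁ σ w)) (fun σ w => Subtype.ext (ggal₂ σ w))
    w₀ hb₀ hb₁
  exact ⟨ψ, fun σ x => hψ σ x⟩

end Core

end Fermat.Agent.U5
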