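import Mathlib
import Fermat.Agent.U5.KL.Galois
import Fermat.Agent.U5.KL.BridgeMain
import Fermat.Agent.U5.KL.BridgeCov

/-!
# Program U (S52), leaf `U5LeafKlein`, piece KL/FinalPre : the bridge map on the fibres over `ℚ̄`,
roots of unity and the Galois group (prefix `u5kg`)

* `u5kgPhi a b m n : Fib(3a, b) → Fib(A(m,n), B(m,n))` (fibres over `ℚ̄`, parameters in `ℚ`) with
  its Galois equivariance `u5kgPhi_sig`;
* `u5kg_prim_of_cyclo`, `u5kg_exists_pow` : `ζ⁴+ζ³+ζ²+ζ+1 = 0` makes `ζ` a primitive 5th root of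
  unity, and every `σ ∈ Gal(ℚ̄/ℚ)` has `σ ζ = ζ^k`, `k ∈ {1,2,3,4}`;
* `u5kg_smul_some`, `u5kg_some_congr` : the Galois action on affine points.
-/

set_option autoImplicit false

namespace Fermat.Agent.U5

open WeierstrassCurve WeierstrassCurve.Affine

section Phi

variable (a b m n : ℚ)

theorem u5kgC_three_mul : u5kgC (3 * a) = 3 * u5kgC a := by
  simp only [u5kgC, map_mul, map_ofNat]

/-- the bridge map on the fibres over `ℚ̄` -/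
noncomputable def u5kgPhi (w : U5kgX (3 * a) b) : U5kgX (u5fA a b m n) (u5fB a b m n) :=
  ⟨u5kbPhi (u5kgC m) (u5kgC n) w.1, by
    have hw : w.1 ∈ u5kfFibAB (3 * u5kgC a) (u5kgC b) := by
      obtain ⟨p, hp⟩ := w
      show p ∈ u5kfFibAB (3 * u5kgC a) (u5kgC b)
      rw [← u5kgC_three_mul]
      exact hp
    have := u5kb_mem (u5kgC m) (u5kgC n) hw
    rw [show u5kgC (u5fA a b m n) = u5fA (u5kgC a) (u5kgC b) (u5kgC m) (u5kgC n) from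
        u5kb_map_fA _ a b m n,
      show u5kgC (u5fB a b m n) = u5fB (u5kgC a) (u5kgC b) (u5kgC m) (u5kgC n) from
        u5kb_map_fB _ a b m n]
    exact this⟩

theorem u5kgPhi_val (w : U5kgX (3 * a) b) :
    (u5kgPhi a b m n w).1 = u5kbPhi (u5kgC m) (u5kgC n) w.1 := rfl

/-- Galois equivariance of the bridge map -/
theorem u5kgPhi_sig (σ : U5Qb ≃ₐ[ℚ] U5Qb) (w : U5kgX (3 * a) b) :
    u5kgPhi a b m n (u5kgXsig σ w) = u5kgXsig σ (u5kgPhi a b m n w) := by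
  apply Subtype.ext
  show u5kbPhi (u5kgC m) (u5kgC n) (u5kgSig σ w.1) = u5kgSig σ (u5kbPhi (u5kgC m) (u5kgC n) w.1)
  have h1 := u5kb_map_Phi1 (σ : U5Qb →+* U5Qb) (u5kgC m) (u5kgC n) w.1.1 w.1.2
  have h2 := u5kb_map_Phi2 (σ : U5Qb →+* U5Qb) (u5kgC m) (u5kgC n) w.1.1 w.1.2
  have hm : (σ : U5Qb →+* U5Qb) (u5kgC m) = u5kgC m := σ.commutes m
  have hn : (σ : U5Qb →+* U5Qb) (u5kgC n) = u5kgC n := σ.commutes n
  rw [hm, hn] at h1 h2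
  exact Prod.ext h1.symm h2.symm

end Phi

section Roots

/-- a root of `ζ⁴+ζ³+ζ²+ζ+1` in characteristic zero is a primitive 5th root of unity -/
theorem u5kg_prim_of_cyclo {K : Type*} [Field K] [CharZero K] {ζ : K}
    (hζ : ζ ^ 4 + ζ ^ 3 + ζ ^ 2 + ζ + 1 = 0) : IsPrimitiveRoot ζ 5 := by
  have h5 : ζ ^ 5 = 1 := by linear_combination (ζ - 1) * hζ
  have h1 : ζ ≠ 1 := by
    intro h
    rw [h] at hζ
    norm_num at hζ
  have hp : Nat.Prime 5 := by norm_num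
  have := (orderOf_eq_prime_iff (x := ζ) (p := 5) (hp := ⟨hp⟩)).mpr ⟨h5, h1⟩
  rw [← this]
  exact IsPrimitiveRoot.orderOf ζ

/-- a root of `ζ⁴+ζ³+ζ²+ζ+1` exists in an algebraically closed field of characteristic zero -/
theorem u5kg_exists_zeta (K : Type*) [Field K] [IsAlgClosed K] [CharZero K] :
    ∃ ζ : K, ζ ^ 4 + ζ ^ 3 + ζ ^ 2 + ζ + 1 = 0 := by
  have : NeZero ((5 : ℕ) : K) := ⟨by norm_num⟩
  obtain ⟨ζ, hζ⟩ := HasEnoughRootsOfUnity.exists_primitiveRoot K 5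
  refine ⟨ζ, ?_⟩
  have := hζ.geom_sum_eq_zero (by norm_num)
  simp only [Finset.sum_range_succ, Finset.sum_range_zero, pow_zero, pow_one, zero_add] at this
  linear_combination this

/-- every automorphism raises `ζ` to a power `k ∈ {1,2,3,4}` -/
theorem u5kg_exists_pow {K : Type*} [Field K] {ζ : K} (hprim : IsPrimitiveRoot ζ 5)
    (σ : K →+* K) : ∃ k : ℕ, 0 < k ∧ k < 5 ∧ σ ζ = ζ ^ k := by
  have h5 : (σ ζ) ^ 5 = 1 := by rw [← map_pow, hprim.pow_eq_one, map_one]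
  obtain ⟨k, hk5, hk⟩ := hprim.eq_pow_of_pow_eq_one h5
  refine ⟨k, ?_, hk5, hk.symm⟩
  rcases Nat.eq_zero_or_pos k with h0 | h0
  · exfalso
    rw [h0, pow_zero] at hk
    have : σ ζ = σ 1 := by rw [map_one, ← hk]
    have h1 : ζ = 1 := σ.injective this
    exact hprim.ne_one (by norm_num) h1
  · exact h0

end Roots

section Points

variable {A B : ℚ}

/-- the Galois action on an affine point -/
theorem u5kg_smul_some (σ : U5Qb ≃ₐ[ℚ] U5Qb) {x y : U5Qb} (h : (u5kgE A B).Nonsingular x y) :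
    σ • (Point.some x y h : (u5kgE A B).Point) =
      Point.some (σ x) (σ y)
        (((u5Short A B).toAffine.baseChange_nonsingular σ.toAlgHom.injective ..).mpr h) := rfl

theorem u5kg_some_congr {F : Type*} [Field F] {E : Affine F} {x x' y y' : F} (hx : x = x')
    (hy : y = y') (h : E.Nonsingular x y) (h' : E.Nonsingular x' y') :
    Point.some x y h = Point.some x' y' h' := by
  subst hx; subst hy; rfl

/-- the exponent `k ∈ {1,2,3,4}` with `σ ζ = ζ^k` -/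
noncomputable def u5kgKappa {ζ : U5Qb} (hprim : IsPrimitiveRoot ζ 5) (σ : U5Qb ≃ₐ[ℚ] U5Qb) : ℕ :=
  (u5kg_exists_pow hprim (σ : U5Qb →+* U5Qb)).choose

theorem u5kgKappa_pos {ζ : U5Qb} (hprim : IsPrimitiveRoot ζ 5) (σ : U5Qb ≃ₐ[ℚ] U5Qb) :
    0 < u5kgKappa hprim σ :=
  (u5kg_exists_pow hprim (σ : U5Qb →+* U5Qb)).choose_spec.1

theorem u5kgKappa_lt {ζ : U5Qb} (hprim : IsPrimitiveRoot ζ 5) (σ : U5Qb ≃ₐ[ℚ] U5Qb) :
    u5kgKappa hprim σ < 5 :=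
  (u5kg_exists_pow hprim (σ : U5Qb →+* U5Qb)).choose_spec.2.1

theorem u5kgKappa_spec {ζ : U5Qb} (hprim : IsPrimitiveRoot ζ 5) (σ : U5Qb ≃ₐ[ℚ] U5Qb) :
    σ ζ = ζ ^ u5kgKappa hprim σ :=
  (u5kg_exists_pow hprim (σ : U5Qb →+* U5Qb)).choose_spec.2.2

/-- **the Galois rule for `e₁` from its coordinate form** : if `e₁(w) = (X1 ζ u v, Y1 ζ u v)` with
`X1`, `Y1` commuting with ring homomorphisms, and `(X1 ζ^k u v, Y1 ζ^k u v) = k • e₁(w)` for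
`k = 1, …, 4`, then `σ e₁(w) = κ(σ) e₁(σ w)`. -/
theorem u5kg_gal₁_of_coords {ζ : U5Qb} (hprim : IsPrimitiveRoot ζ 5)
    (X1 Y1 : U5Qb → U5Qb → U5Qb → U5Qb)
    (hX : ∀ (σ : U5Qb →+* U5Qb) (z u v : U5Qb), σ (X1 z u v) = X1 (σ z) (σ u) (σ v))
    (hY : ∀ (σ : U5Qb →+* U5Qb) (z u v : U5Qb), σ (Y1 z u v) = Y1 (σ z) (σ u) (σ v))
    (e₁ : U5kgX A B → (u5kgE A B).Point)
    (he₁ : ∀ w : U5kgX A B, ∃ h, e₁ w = Point.some (X1 ζ w.1.1 w.1.2) (Y1 ζ w.1.1 w.1.2) h)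
    (hpow : ∀ k : ℕ, 0 < k → k < 5 → ∀ (w : U5kgX A B)
      (h : (u5kgE A B).Nonsingular (X1 (ζ ^ k) w.1.1 w.1.2) (Y1 (ζ ^ k) w.1.1 w.1.2)),
      Point.some (X1 (ζ ^ k) w.1.1 w.1.2) (Y1 (ζ ^ k) w.1.1 w.1.2) h = (k : ℤ) • e₁ w)
    (σ : U5Qb ≃ₐ[ℚ] U5Qb) (w : U5kgX A B) :
    σ • e₁ w = ((u5kgKappa hprim σ : ℕ) : ℤ) • e₁ (u5kgXsig σ w) := by
  obtain ⟨h, he⟩ := he₁ w
  rw [he, u5kg_smul_some]
  have hx : σ (X1 ζ w.1.1 w.1.2) =
      X1 (ζ ^ u5kgKappa hprim σ) (u5kgXsig σ w).1.1 (u5kgXsig σ w).1.2 := by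
    have := hX (σ : U5Qb →+* U5Qb) ζ w.1.1 w.1.2
    rw [← u5kgKappa_spec hprim σ]
    exact this
  have hy : σ (Y1 ζ w.1.1 w.1.2) =
      Y1 (ζ ^ u5kgKappa hprim σ) (u5kgXsig σ w).1.1 (u5kgXsig σ w).1.2 := by
    have := hY (σ : U5Qb →+* U5Qb) ζ w.1.1 w.1.2
    rw [← u5kgKappa_spec hprim σ]
    exact this
  have hns : (u5kgE A B).Nonsingular
      (X1 (ζ ^ u5kgKappa hprim σ) (u5kgXsig σ w).1.1 (u5kgXsig σ w).1.2)
      (Y1 (ζ ^ u5kgKappa hprim σ) (u5kgXsig σ w).1.1 (u5kgXsig σ w).1.2) := by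
    rw [← hx, ← hy]
    exact ((u5Short A B).toAffine.baseChange_nonsingular σ.toAlgHom.injective ..).mpr h
  rw [u5kg_some_congr hx hy _ hns]
  exact hpow _ (u5kgKappa_pos hprim σ) (u5kgKappa_lt hprim σ) (u5kgXsig σ w) hns

/-- **the Galois rule for `e₂` from its coordinate form** : `e₂(w) = (XS u v, YS u v)` with `XS`,
`YS` commuting with ring homomorphisms (integer forms) gives `σ e₂(w) = e₂(σ w)`. -/
theorem u5kg_gal₂_of_coords (XS YS : U5Qb → U5Qb → U5Qb)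
    (hX : ∀ (σ : U5Qb →+* U5Qb) (u v : U5Qb), σ (XS u v) = XS (σ u) (σ v))
    (hY : ∀ (σ : U5Qb →+* U5Qb) (u v : U5Qb), σ (YS u v) = YS (σ u) (σ v))
    (e₂ : U5kgX A B → (u5kgE A B).Point)
    (he₂ : ∀ w : U5kgX A B, ∃ h, e₂ w = Point.some (XS w.1.1 w.1.2) (YS w.1.1 w.1.2) h)
    (σ : U5Qb ≃ₐ[ℚ] U5Qb) (w : U5kgX A B) :
    σ • e₂ w = e₂ (u5kgXsig σ w) := by
  obtain ⟨h, he⟩ := he₂ w
  obtain ⟨h', he'⟩ := he₂ (u5kgXsig σ w)
  rw [he, he', u5kg_smul_some]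
  exact u5kg_some_congr (hX (σ : U5Qb →+* U5Qb) w.1.1 w.1.2) (hY (σ : U5Qb →+* U5Qb) w.1.1 w.1.2)
    _ _

end Points

end Fermat.Agent.U5
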