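import Fermat.Agent.U5.KL.PointId

/-!
# Program U (S52), Klein route, KL/Point : the points `e₁(w)`, `e₂(w)` of order `5` attached to `w ∈ Fib(A,B)`

`K` a field of characteristic `0`, `ζ : K` with `ζ⁴ + ζ³ + ζ² + ζ + 1 = 0`, `W` a short Weierstrass curve
`y² = x³ + A x + B` over `K` with `4A³ + 27B² ≠ 0`, `X := ↥(u5kfFibAB A B)`.

* the group : `u5kpSmap ζ` (`Ŝ`), `u5kpTmap ζ` (`T̂ = diag(ζ³, ζ²)`), `u5kpZmap ζ` (`Ẑ = ζ`) on `K × K`; they preserve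
  `H` and `T`, hence act on `X` : `u5kpS`, `u5kpT`, `u5kpZ`;
* `u5kpE1 w = (X1e ζ u⁵ v⁵, Y1e ζ u⁵ v⁵)`, `u5kpE2 w = (XS u v, YS u v) = u5kpE1 (Ŝ w)` (`XS, YS ∈ ℤ[u,v]`);
* `5 • e₁ = 0 = 5 • e₂`, independence mod `5` (`u5kp_ind`), the labels
  `Ŝ : e₁ ↦ e₂, e₂ ↦ -e₁`, `T̂ : e₁ ↦ e₁, e₂ ↦ e₂ - e₁`, `Ẑ : id`, freeness of `Ẑ`;
* Galois : `e₁[ζ^k] = k • e₁[ζ]`, `k = 2, 3, 4`.
-/

set_option autoImplicit false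
set_option linter.unusedSectionVars false
set_option linter.unusedSimpArgs false

namespace Fermat.Agent.U5

open WeierstrassCurve WeierstrassCurve.Affine

section Group

variable {K : Type*} [Field K] [CharZero K]

/-- `Ŝ` -/
def u5kpSmap (ζ : K) (w : K × K) : K × K :=
  (u5kiSa ζ * w.1 + u5kiSb ζ * w.2, u5kiSb ζ * w.1 - u5kiSa ζ * w.2)

/-- `T̂ = diag(ζ³, ζ²)` -/
def u5kpTmap (ζ : K) (w : K × K) : K × K := (ζ ^ 3 * w.1, ζ ^ 2 * w.2)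

/-- `Ẑ = ζ · 1` -/
def u5kpZmap (ζ : K) (w : K × K) : K × K := (ζ * w.1, ζ * w.2)

variable {ζ : K} (hζ : ζ ^ 4 + ζ ^ 3 + ζ ^ 2 + ζ + 1 = 0)
include hζ

theorem u5kp_pow5_T1 (u : K) : (ζ ^ 3 * u) ^ 5 = u ^ 5 := by
  have h5 := u5ki_zeta5 ζ hζ
  have : (ζ ^ 3 * u) ^ 5 = (ζ ^ 5) ^ 3 * u ^ 5 := by ring
  rw [this, h5, one_pow, one_mul]

theorem u5kp_pow5_T2 (v : K) : (ζ ^ 2 * v) ^ 5 = v ^ 5 := by
  have h5 := u5ki_zeta5 ζ hζ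
  have : (ζ ^ 2 * v) ^ 5 = (ζ ^ 5) ^ 2 * v ^ 5 := by ring
  rw [this, h5, one_pow, one_mul]

theorem u5kp_pow5_Z (u : K) : (ζ * u) ^ 5 = u ^ 5 := by
  have h5 := u5ki_zeta5 ζ hζ
  rw [mul_pow, h5, one_mul]

/-- `Ŝ² = -1` -/
theorem u5kp_S_S (w : K × K) : u5kpSmap ζ (u5kpSmap ζ w) = (-w.1, -w.2) := by
  have h2 := u5ki_S2 ζ hζ
  simp only [u5kpSmap]
  refine Prod.ext ?_ ?_
  · show u5kiSa ζ * (u5kiSa ζ * w.1 + u5kiSb ζ * w.2)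
      + u5kiSb ζ * (u5kiSb ζ * w.1 - u5kiSa ζ * w.2) = -w.1
    linear_combination w.1 * h2
  · show u5kiSb ζ * (u5kiSa ζ * w.1 + u5kiSb ζ * w.2)
      - u5kiSa ζ * (u5kiSb ζ * w.1 - u5kiSa ζ * w.2) = -w.2
    linear_combination w.2 * h2

/-- the coordinates of `P₁ ∘ Ŝ` are `(XS, YS)` -/
theorem u5kp_X1_S (u v : K) :
    u5kiX1e ζ ((u5kiSa ζ * u + u5kiSb ζ * v) ^ 5) ((u5kiSb ζ * u - u5kiSa ζ * v) ^ 5)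
      = u5kiXS u v := by
  rw [u5ki_Ue ζ u v hζ, u5ki_Ve ζ u v hζ, ← u5ki_X1e ζ _ _ hζ, u5ki_SsS ζ u v hζ,
    u5ki_StS ζ u v hζ, u5ki_XS ζ u v hζ]

theorem u5kp_Y1_S (u v : K) :
    u5kiY1e ζ ((u5kiSa ζ * u + u5kiSb ζ * v) ^ 5) ((u5kiSb ζ * u - u5kiSa ζ * v) ^ 5)
      = u5kiYS u v := by
  rw [u5ki_Ue ζ u v hζ, u5ki_Ve ζ u v hζ, ← u5ki_Y1e ζ _ _ hζ, u5ki_SsS ζ u v hζ,
    u5ki_StS ζ u v hζ, u5ki_YS ζ u v hζ]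

/-- `H ∘ Ŝ = H` -/
theorem u5kp_H_S (w : K × K) :
    u5kfH (u5kpSmap ζ w).1 (u5kpSmap ζ w).2 = u5kfH w.1 w.2 := by
  obtain ⟨u, v⟩ := w
  simp only [u5kpSmap]
  rw [u5ki_H_eq, u5ki_H_eq, u5ki_Ue ζ u v hζ, u5ki_Ve ζ u v hζ]
  have h1 := u5ki_link_H ζ (u5kiUe ζ u v) (u5kiVe ζ u v) hζ
  rw [u5ki_SsS ζ u v hζ, u5ki_StS ζ u v hζ] at h1
  have h2 := u5kw_A_eq (u5kiKap ζ) (u5kiSsS ζ u v) (u5kiStS ζ u v)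
  rw [u5ki_XS ζ u v hζ, u5ki_YS ζ u v hζ] at h2
  have h3 := u5ki_HS ζ u v hζ
  have : (27 : K) * u5kiHq (u5kiUe ζ u v) (u5kiVe ζ u v) = 27 * u5kiHq (u ^ 5) (v ^ 5) := by
    rw [h1, h2, ← h3]
  exact mul_left_cancel₀ (by norm_num) this

/-- `T ∘ Ŝ = T` -/
theorem u5kp_T_S (w : K × K) :
    u5kfT (u5kpSmap ζ w).1 (u5kpSmap ζ w).2 = u5kfT w.1 w.2 := by
  have hH := u5kp_H_S hζ w
  obtain ⟨u, v⟩ := w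
  simp only [u5kpSmap] at hH ⊢
  rw [u5ki_H_eq, u5ki_H_eq, u5ki_Ue ζ u v hζ, u5ki_Ve ζ u v hζ] at hH
  rw [u5ki_T_eq, u5ki_T_eq, u5ki_Ue ζ u v hζ, u5ki_Ve ζ u v hζ]
  have h1 := u5ki_link_T ζ (u5kiUe ζ u v) (u5kiVe ζ u v) hζ
  have h1' := u5ki_link_H ζ (u5kiUe ζ u v) (u5kiVe ζ u v) hζ
  rw [u5ki_SsS ζ u v hζ, u5ki_StS ζ u v hζ] at h1 h1'
  have h2 := u5kw_on₁ (u5kiKap ζ) (u5kiSsS ζ u v) (u5kiStS ζ u v)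
  rw [u5ki_XS ζ u v hζ, u5ki_YS ζ u v hζ, ← h1, ← h1', hH] at h2
  have h3 := u5ki_onS u v
  have : (54 : K) * u5kiTq (u5kiUe ζ u v) (u5kiVe ζ u v) = 54 * u5kiTq (u ^ 5) (v ^ 5) := by
    linear_combination h3 - h2
  exact mul_left_cancel₀ (by norm_num) this

theorem u5kp_H_T (w : K × K) :
    u5kfH (u5kpTmap ζ w).1 (u5kpTmap ζ w).2 = u5kfH w.1 w.2 := by
  simp only [u5kpTmap]
  rw [u5ki_H_eq, u5ki_H_eq, u5kp_pow5_T1 hζ, u5kp_pow5_T2 hζ]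

theorem u5kp_T_T (w : K × K) :
    u5kfT (u5kpTmap ζ w).1 (u5kpTmap ζ w).2 = u5kfT w.1 w.2 := by
  simp only [u5kpTmap]
  rw [u5ki_T_eq, u5ki_T_eq, u5kp_pow5_T1 hζ, u5kp_pow5_T2 hζ]

theorem u5kp_H_Z (w : K × K) :
    u5kfH (u5kpZmap ζ w).1 (u5kpZmap ζ w).2 = u5kfH w.1 w.2 := by
  simp only [u5kpZmap]
  rw [u5ki_H_eq, u5ki_H_eq, u5kp_pow5_Z hζ, u5kp_pow5_Z hζ]

theorem u5kp_T_Z (w : K × K) :
    u5kfT (u5kpZmap ζ w).1 (u5kpZmap ζ w).2 = u5kfT w.1 w.2 := by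
  simp only [u5kpZmap]
  rw [u5ki_T_eq, u5ki_T_eq, u5kp_pow5_Z hζ, u5kp_pow5_Z hζ]

/-- `ζ ≠ 1` -/
theorem u5kp_zeta_ne_one : ζ ≠ 1 := by
  intro h
  rw [h] at hζ
  norm_num at hζ

/-- `ζ^k ≠ 1` for `0 < k < 5` -/
theorem u5kp_zeta_pow_ne_one {k : ℕ} (hk : 0 < k) (hk5 : k < 5) : ζ ^ k ≠ 1 := by
  have h5 := u5ki_zeta5 ζ hζ
  have h1 := u5kp_zeta_ne_one hζ
  intro h
  apply h1
  interval_cases k
  · simpa using h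
  · -- ζ² = 1 : ζ = ζ⁶ · ... : ζ^6 = 1 and ζ^6 = ζ
    have : ζ ^ 6 = 1 := by rw [show ζ ^ 6 = (ζ ^ 2) ^ 3 by ring, h, one_pow]
    rw [show ζ ^ 6 = ζ ^ 5 * ζ by ring, h5, one_mul] at this
    exact this
  · have : ζ ^ 6 = 1 := by rw [show ζ ^ 6 = (ζ ^ 3) ^ 2 by ring, h, one_pow]
    rw [show ζ ^ 6 = ζ ^ 5 * ζ by ring, h5, one_mul] at this
    exact this
  · have : ζ ^ 5 = ζ := by rw [show ζ ^ 5 = ζ ^ 4 * ζ by ring, h, one_mul]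
    rw [h5] at this
    exact this.symm

end Group

section Points

variable {K : Type*} [Field K] [CharZero K]

/-- congruence for `Point.some` -/
theorem u5kp_some_congr {W : Affine K} {x y x' y' : K} (hx : x = x') (hy : y = y')
    (h : W.Nonsingular x y) (h' : W.Nonsingular x' y') : Point.some x y h = Point.some x' y' h' := by
  subst hx; subst hy; rfl

variable {ζ : K} (hζ : ζ ^ 4 + ζ ^ 3 + ζ ^ 2 + ζ + 1 = 0) {W : Affine K} (hW : U5kwShort W)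
  (hd : 4 * W.a₄ ^ 3 + 27 * W.a₆ ^ 2 ≠ 0)
include hζ hW hd

/-- `κ ≠ 0` -/
theorem u5kp_kap_ne_zero : u5kiKap ζ ≠ 0 := by
  intro h
  have := u5ki_kap ζ hζ
  rw [h] at this
  norm_num at this

/-- on the fibre : `A = A(κ, s, t)` -/
theorem u5kp_hA {w : K × K} (hw : w ∈ u5kfFibAB W.a₄ W.a₆) :
    W.a₄ = u5kwA (u5kiKap ζ) (u5kiSs ζ (w.1 ^ 5) (w.2 ^ 5)) (u5kiSt ζ (w.1 ^ 5) (w.2 ^ 5)) := by
  rw [← u5ki_link_H ζ _ _ hζ, ← u5ki_H_eq]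
  exact hw.1.symm

theorem u5kp_hB {w : K × K} (hw : w ∈ u5kfFibAB W.a₄ W.a₆) :
    W.a₆ = u5kwB (u5kiKap ζ) (u5kiSs ζ (w.1 ^ 5) (w.2 ^ 5)) (u5kiSt ζ (w.1 ^ 5) (w.2 ^ 5)) := by
  rw [← u5ki_link_T ζ _ _ hζ, ← u5ki_T_eq]
  exact hw.2.symm

/-- on the fibre : `s ≠ 0` and `t ≠ 0` -/
theorem u5kp_st_ne_zero {w : K × K} (hw : w ∈ u5kfFibAB W.a₄ W.a₆) :
    u5kiSs ζ (w.1 ^ 5) (w.2 ^ 5) ≠ 0 ∧ u5kiSt ζ (w.1 ^ 5) (w.2 ^ 5) ≠ 0 := by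
  have hf := u5kfAB_F_ne_zero hd hw
  have hst := u5ki_st ζ (w.1 ^ 5) (w.2 ^ 5) hζ
  have hF : u5kfF w.1 w.2 = w.1 * w.2 * ((w.1 ^ 5) ^ 2 + 11 * w.1 ^ 5 * w.2 ^ 5 - (w.2 ^ 5) ^ 2) := by
    simp only [u5kfF]; ring
  have hne : u5kiSs ζ (w.1 ^ 5) (w.2 ^ 5) * u5kiSt ζ (w.1 ^ 5) (w.2 ^ 5) ≠ 0 := by
    intro h0
    rw [hst] at h0
    apply hf
    rw [hF]
    rcases mul_eq_zero.mp h0 with h | h
    · exfalso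
      -- ε⁵ ≠ 0 from κ² · r5 · ε⁵ = -1
      have := u5ki_kap ζ hζ
      rw [h, mul_zero] at this
      norm_num at this
    · rw [h, mul_zero]
  exact ⟨left_ne_zero_of_mul hne, right_ne_zero_of_mul hne⟩

/-- `P₁(w)` is a nonsingular point of `W` -/
theorem u5kp_nonsing₁ {w : K × K} (hw : w ∈ u5kfFibAB W.a₄ W.a₆) :
    W.Nonsingular (u5kiX1e ζ (w.1 ^ 5) (w.2 ^ 5)) (u5kiY1e ζ (w.1 ^ 5) (w.2 ^ 5)) := by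
  rw [← u5ki_X1e ζ _ _ hζ, ← u5ki_Y1e ζ _ _ hζ]
  exact u5kw_nonsing₁ hW (u5kp_hA hζ hW hd hw) (u5kp_hB hζ hW hd hw) hd

/-- `2P₁(w)` is a nonsingular point of `W` -/
theorem u5kp_nonsing₂ {w : K × K} (hw : w ∈ u5kfFibAB W.a₄ W.a₆) :
    W.Nonsingular (u5kiX2e ζ (w.1 ^ 5) (w.2 ^ 5)) (u5kiY2e ζ (w.1 ^ 5) (w.2 ^ 5)) := by
  rw [← u5ki_X2e ζ _ _ hζ, ← u5ki_Y2e ζ _ _ hζ]
  exact u5kw_nonsing₂ hW (u5kp_hA hζ hW hd hw) (u5kp_hB hζ hW hd hw) hd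

/-- `(XS, YS)(w)` is a nonsingular point of `W` -/
theorem u5kp_nonsingS {w : K × K} (hw : w ∈ u5kfFibAB W.a₄ W.a₆) :
    W.Nonsingular (u5kiXS w.1 w.2) (u5kiYS w.1 w.2) := by
  refine u5kw_nonsingular hW hd ?_
  rw [← hw.1, ← hw.2, u5ki_H_eq, u5ki_T_eq]
  exact u5ki_onS w.1 w.2

end Points

section Labels

variable {K : Type*} [Field K] [CharZero K]

theorem u5ki_X1e_neg (ζ U V : K) : u5kiX1e ζ (-U) (-V) = u5kiX1e ζ U V := by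
  simp only [u5kiX1e]; ring

theorem u5ki_Y1e_neg (ζ U V : K) : u5kiY1e ζ (-U) (-V) = -u5kiY1e ζ U V := by
  simp only [u5kiY1e]; ring

theorem u5ki_XS_smul (c u v : K) : u5kiXS (c * u) (c * v) = c ^ 10 * u5kiXS u v := by
  simp only [u5kiXS]; ring

theorem u5ki_YS_smul (c u v : K) : u5kiYS (c * u) (c * v) = c ^ 15 * u5kiYS u v := by
  simp only [u5kiYS]; ring

variable {ζ : K} (hζ : ζ ^ 4 + ζ ^ 3 + ζ ^ 2 + ζ + 1 = 0) {W : Affine K}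

/-- `Ŝ` on the fibre -/
def u5kpS (w : ↥(u5kfFibAB W.a₄ W.a₆)) : ↥(u5kfFibAB W.a₄ W.a₆) :=
  ⟨u5kpSmap ζ w.1, by
    obtain ⟨h1, h2⟩ := w.2
    exact ⟨by rw [u5kp_H_S hζ]; exact h1, by rw [u5kp_T_S hζ]; exact h2⟩⟩

/-- `T̂` on the fibre -/
def u5kpT (w : ↥(u5kfFibAB W.a₄ W.a₆)) : ↥(u5kfFibAB W.a₄ W.a₆) :=
  ⟨u5kpTmap ζ w.1, by
    obtain ⟨h1, h2⟩ := w.2
    exact ⟨by rw [u5kp_H_T hζ]; exact h1, by rw [u5kp_T_T hζ]; exact h2⟩⟩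

/-- `Ẑ` on the fibre -/
def u5kpZ (w : ↥(u5kfFibAB W.a₄ W.a₆)) : ↥(u5kfFibAB W.a₄ W.a₆) :=
  ⟨u5kpZmap ζ w.1, by
    obtain ⟨h1, h2⟩ := w.2
    exact ⟨by rw [u5kp_H_Z hζ]; exact h1, by rw [u5kp_T_Z hζ]; exact h2⟩⟩

@[simp] theorem u5kpS_coe (w : ↥(u5kfFibAB W.a₄ W.a₆)) :
    ((u5kpS hζ w : ↥(u5kfFibAB W.a₄ W.a₆)) : K × K) = u5kpSmap ζ w.1 := rfl

@[simp] theorem u5kpT_coe (w : ↥(u5kfFibAB W.a₄ W.a₆)) :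
    ((u5kpT hζ w : ↥(u5kfFibAB W.a₄ W.a₆)) : K × K) = u5kpTmap ζ w.1 := rfl

@[simp] theorem u5kpZ_coe (w : ↥(u5kfFibAB W.a₄ W.a₆)) :
    ((u5kpZ hζ w : ↥(u5kfFibAB W.a₄ W.a₆)) : K × K) = u5kpZmap ζ w.1 := rfl

variable (hW : U5kwShort W) (hd : 4 * W.a₄ ^ 3 + 27 * W.a₆ ^ 2 ≠ 0)

/-- `e₁(w) = P₁(w)` -/
def u5kpE1 (w : ↥(u5kfFibAB W.a₄ W.a₆)) : W.Point :=
  Point.some _ _ (u5kp_nonsing₁ hζ hW hd w.2)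

/-- `e₂(w) = P₁(Ŝ w) = (XS, YS)(w)` -/
def u5kpE2 (w : ↥(u5kfFibAB W.a₄ W.a₆)) : W.Point :=
  Point.some _ _ (u5kp_nonsingS hζ hW hd w.2)

theorem u5kpE1_def (w : ↥(u5kfFibAB W.a₄ W.a₆)) :
    u5kpE1 hζ hW hd w = Point.some (u5kiX1e ζ (w.1.1 ^ 5) (w.1.2 ^ 5))
      (u5kiY1e ζ (w.1.1 ^ 5) (w.1.2 ^ 5)) (u5kp_nonsing₁ hζ hW hd w.2) := rfl

theorem u5kpE2_def (w : ↥(u5kfFibAB W.a₄ W.a₆)) :
    u5kpE2 hζ hW hd w = Point.some (u5kiXS w.1.1 w.1.2) (u5kiYS w.1.1 w.1.2)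
      (u5kp_nonsingS hζ hW hd w.2) := rfl

/-- label `Ŝ : e₁ ↦ e₂` -/
theorem u5kp_S₁ (w : ↥(u5kfFibAB W.a₄ W.a₆)) :
    u5kpE1 hζ hW hd (u5kpS hζ w) = u5kpE2 hζ hW hd w :=
  u5kp_some_congr (u5kp_X1_S hζ w.1.1 w.1.2) (u5kp_Y1_S hζ w.1.1 w.1.2) _ _

/-- label `T̂ : e₁ ↦ e₁` -/
theorem u5kp_T₁ (w : ↥(u5kfFibAB W.a₄ W.a₆)) :
    u5kpE1 hζ hW hd (u5kpT hζ w) = u5kpE1 hζ hW hd w := by
  refine u5kp_some_congr ?_ ?_ _ _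
  · show u5kiX1e ζ ((ζ ^ 3 * w.1.1) ^ 5) ((ζ ^ 2 * w.1.2) ^ 5) = _
    rw [u5kp_pow5_T1 hζ, u5kp_pow5_T2 hζ]
  · show u5kiY1e ζ ((ζ ^ 3 * w.1.1) ^ 5) ((ζ ^ 2 * w.1.2) ^ 5) = _
    rw [u5kp_pow5_T1 hζ, u5kp_pow5_T2 hζ]

/-- label `Ẑ : e₁ ↦ e₁` -/
theorem u5kp_Z₁ (w : ↥(u5kfFibAB W.a₄ W.a₆)) :
    u5kpE1 hζ hW hd (u5kpZ hζ w) = u5kpE1 hζ hW hd w := by
  refine u5kp_some_congr ?_ ?_ _ _
  · show u5kiX1e ζ ((ζ * w.1.1) ^ 5) ((ζ * w.1.2) ^ 5) = _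
    rw [u5kp_pow5_Z hζ, u5kp_pow5_Z hζ]
  · show u5kiY1e ζ ((ζ * w.1.1) ^ 5) ((ζ * w.1.2) ^ 5) = _
    rw [u5kp_pow5_Z hζ, u5kp_pow5_Z hζ]

/-- label `Ẑ : e₂ ↦ e₂` -/
theorem u5kp_Z₂ (w : ↥(u5kfFibAB W.a₄ W.a₆)) :
    u5kpE2 hζ hW hd (u5kpZ hζ w) = u5kpE2 hζ hW hd w := by
  have h5 := u5ki_zeta5 ζ hζ
  refine u5kp_some_congr ?_ ?_ _ _
  · show u5kiXS (ζ * w.1.1) (ζ * w.1.2) = _
    rw [u5ki_XS_smul, show ζ ^ 10 = (ζ ^ 5) ^ 2 by ring, h5, one_pow, one_mul]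
  · show u5kiYS (ζ * w.1.1) (ζ * w.1.2) = _
    rw [u5ki_YS_smul, show ζ ^ 15 = (ζ ^ 5) ^ 3 by ring, h5, one_pow, one_mul]

/-- label `Ŝ : e₂ ↦ -e₁` -/
theorem u5kp_S₂ (w : ↥(u5kfFibAB W.a₄ W.a₆)) :
    u5kpE2 hζ hW hd (u5kpS hζ w) = -u5kpE1 hζ hW hd w := by
  rw [← u5kp_S₁ hζ hW hd (u5kpS hζ w)]
  have hSS : ((u5kpS hζ (u5kpS hζ w) : ↥(u5kfFibAB W.a₄ W.a₆)) : K × K) = (-w.1.1, -w.1.2) :=
    u5kp_S_S hζ w.1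
  have hneg : W.Nonsingular (u5kiX1e ζ (w.1.1 ^ 5) (w.1.2 ^ 5)) (-u5kiY1e ζ (w.1.1 ^ 5) (w.1.2 ^ 5)) := by
    have := u5kp_nonsing₁ hζ hW hd (u5kpS hζ (u5kpS hζ w)).2
    rw [hSS] at this
    simp only at this
    rwa [show (-w.1.1) ^ 5 = -(w.1.1 ^ 5) by ring, show (-w.1.2) ^ 5 = -(w.1.2 ^ 5) by ring,
      u5ki_X1e_neg, u5ki_Y1e_neg] at this
  rw [u5kpE1_def hζ hW hd w, u5kw_neg_some hW _ hneg]
  refine u5kp_some_congr ?_ ?_ _ _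
  · rw [hSS]
    simp only
    rw [show (-w.1.1) ^ 5 = -(w.1.1 ^ 5) by ring, show (-w.1.2) ^ 5 = -(w.1.2 ^ 5) by ring,
      u5ki_X1e_neg]
  · rw [hSS]
    simp only
    rw [show (-w.1.1) ^ 5 = -(w.1.1 ^ 5) by ring, show (-w.1.2) ^ 5 = -(w.1.2 ^ 5) by ring,
      u5ki_Y1e_neg]

end Labels

section Torsion

variable {K : Type*} [Field K] [CharZero K] [DecidableEq K]
variable {ζ : K} (hζ : ζ ^ 4 + ζ ^ 3 + ζ ^ 2 + ζ + 1 = 0) {W : Affine K}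
  (hW : U5kwShort W) (hd : 4 * W.a₄ ^ 3 + 27 * W.a₆ ^ 2 ≠ 0)

/-- `e₁(w)` in Tate's coordinates -/
theorem u5kpE1_tate (w : ↥(u5kfFibAB W.a₄ W.a₆)) :
    u5kpE1 hζ hW hd w = Point.some
      (u5kwX1 (u5kiKap ζ) (u5kiSs ζ (w.1.1 ^ 5) (w.1.2 ^ 5)) (u5kiSt ζ (w.1.1 ^ 5) (w.1.2 ^ 5)))
      (u5kwY1 (u5kiKap ζ) (u5kiSs ζ (w.1.1 ^ 5) (w.1.2 ^ 5)) (u5kiSt ζ (w.1.1 ^ 5) (w.1.2 ^ 5)))
      (u5kw_nonsing₁ hW (u5kp_hA hζ hW hd w.2) (u5kp_hB hζ hW hd w.2) hd) :=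
  u5kp_some_congr (u5ki_X1e ζ _ _ hζ).symm (u5ki_Y1e ζ _ _ hζ).symm _ _

/-- **`5 • e₁(w) = 0`** -/
theorem u5kp_five₁ (w : ↥(u5kfFibAB W.a₄ W.a₆)) : (5 : ℤ) • u5kpE1 hζ hW hd w = 0 := by
  rw [u5kpE1_tate]
  obtain ⟨hs, ht⟩ := u5kp_st_ne_zero hζ hW hd w.2
  exact u5kw_five hW (u5kp_hA hζ hW hd w.2) (u5kp_hB hζ hW hd w.2) hd
    (u5kp_kap_ne_zero hζ hW hd) hs ht _

/-- **`5 • e₂(w) = 0`** -/
theorem u5kp_five₂ (w : ↥(u5kfFibAB W.a₄ W.a₆)) : (5 : ℤ) • u5kpE2 hζ hW hd w = 0 := by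
  rw [← u5kp_S₁ hζ hW hd w]
  exact u5kp_five₁ hζ hW hd _

theorem u5kpE1_ne_zero (w : ↥(u5kfFibAB W.a₄ W.a₆)) : u5kpE1 hζ hW hd w ≠ 0 :=
  Point.some_ne_zero _

theorem u5kpE2_ne_zero (w : ↥(u5kfFibAB W.a₄ W.a₆)) : u5kpE2 hζ hW hd w ≠ 0 :=
  Point.some_ne_zero _

/-- `2 • e₁(w) = (X2e, Y2e)` -/
theorem u5kp_two_smul (w : ↥(u5kfFibAB W.a₄ W.a₆)) :
    (2 : ℤ) • u5kpE1 hζ hW hd w = Point.some (u5kiX2e ζ (w.1.1 ^ 5) (w.1.2 ^ 5))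
      (u5kiY2e ζ (w.1.1 ^ 5) (w.1.2 ^ 5)) (u5kp_nonsing₂ hζ hW hd w.2) := by
  rw [u5kpE1_tate]
  obtain ⟨hs, ht⟩ := u5kp_st_ne_zero hζ hW hd w.2
  rw [u5kw_two_smul hW (u5kp_hA hζ hW hd w.2) (u5kp_kap_ne_zero hζ hW hd) hs ht _
    (u5kw_nonsing₂ hW (u5kp_hA hζ hW hd w.2) (u5kp_hB hζ hW hd w.2) hd)]
  exact u5kp_some_congr (u5ki_X2e ζ _ _ hζ) (u5ki_Y2e ζ _ _ hζ) _ _

include hζ hd in
/-- separation : `x(e₂) ≠ x(e₁)` -/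
theorem u5kp_XS_ne_X1 {w : K × K} (hw : w ∈ u5kfFibAB W.a₄ W.a₆) :
    u5kiXS w.1 w.2 ≠ u5kiX1e ζ (w.1 ^ 5) (w.2 ^ 5) := by
  intro h
  have hf := u5kfAB_F_ne_zero hd hw
  have := u5ki_sep1 ζ w.1 w.2 hζ
  rw [h, sub_self, zero_mul] at this
  have h36 : (36 : K) * u5kfF w.1 w.2 ^ 2 ≠ 0 := mul_ne_zero (by norm_num) (pow_ne_zero _ hf)
  exact h36 this.symm

include hζ hd in
/-- separation : `x(e₂) ≠ x(2e₁)` -/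
theorem u5kp_XS_ne_X2 {w : K × K} (hw : w ∈ u5kfFibAB W.a₄ W.a₆) :
    u5kiXS w.1 w.2 ≠ u5kiX2e ζ (w.1 ^ 5) (w.2 ^ 5) := by
  intro h
  have hf := u5kfAB_F_ne_zero hd hw
  have := u5ki_sep2 ζ w.1 w.2 hζ
  rw [h, sub_self, zero_mul] at this
  have h36 : (36 : K) * u5kfF w.1 w.2 ^ 2 ≠ 0 := mul_ne_zero (by norm_num) (pow_ne_zero _ hf)
  exact h36 this.symm

/-- the chord : `e₁(w) + e₂(T̂ w) = e₂(w)` -/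
theorem u5kp_chord (w : ↥(u5kfFibAB W.a₄ W.a₆)) :
    u5kpE1 hζ hW hd w + u5kpE2 hζ hW hd (u5kpT hζ w) = u5kpE2 hζ hW hd w := by
  rw [u5kpE1_def, u5kpE2_def, u5kpE2_def]
  have hXT : u5kiXS (u5kpT hζ w).1.1 (u5kpT hζ w).1.2 = u5kiXSTe ζ w.1.1 w.1.2 :=
    u5ki_XST ζ w.1.1 w.1.2 hζ
  have hYT : u5kiYS (u5kpT hζ w).1.1 (u5kpT hζ w).1.2 = u5kiYSTe ζ w.1.1 w.1.2 :=
    u5ki_YST ζ w.1.1 w.1.2 hζ
  refine u5kw_add_of_chord hW _ _ _ ?_ ?_ ?_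
  · -- `x₁ ≠ x₂`
    have := u5kp_XS_ne_X1 hζ hd (u5kpT hζ w).2
    intro h
    apply this
    rw [← h]
    show _ = u5kiX1e ζ ((ζ ^ 3 * w.1.1) ^ 5) ((ζ ^ 2 * w.1.2) ^ 5)
    rw [u5kp_pow5_T1 hζ, u5kp_pow5_T2 hζ]
  · rw [hXT, hYT]
    exact u5ki_chordX ζ w.1.1 w.1.2 hζ
  · rw [hXT, hYT]
    exact u5ki_chordY ζ w.1.1 w.1.2 hζ

/-- label `T̂ : e₂ ↦ e₂ - e₁` -/
theorem u5kp_T₂ (w : ↥(u5kfFibAB W.a₄ W.a₆)) :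
    u5kpE2 hζ hW hd (u5kpT hζ w) = u5kpE2 hζ hW hd w - u5kpE1 hζ hW hd w := by
  rw [← u5kp_chord hζ hW hd w]
  abel

/-- `Ẑ^k w = ζ^k w` -/
theorem u5kpZ_iterate (w : ↥(u5kfFibAB W.a₄ W.a₆)) (k : ℕ) :
    (((u5kpZ hζ)^[k] w : ↥(u5kfFibAB W.a₄ W.a₆)) : K × K) = (ζ ^ k * w.1.1, ζ ^ k * w.1.2) := by
  induction k with
  | zero => simp
  | succ k ih =>
    rw [Function.iterate_succ_apply', u5kpZ_coe, ih]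
    simp only [u5kpZmap]
    refine Prod.ext ?_ ?_ <;> simp only <;> ring

include hd in
/-- `Ẑ` acts freely -/
theorem u5kp_Zfree (w : ↥(u5kfFibAB W.a₄ W.a₆)) (k : ℕ) (hk : 0 < k) (hk5 : k < 5) :
    (u5kpZ hζ)^[k] w ≠ w := by
  intro h
  have h1 := congrArg Subtype.val h
  rw [u5kpZ_iterate] at h1
  exact u5kfAB_smul_ne hd w.2 (u5kp_zeta_pow_ne_one hζ hk hk5) h1

end Torsion

section Independence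

variable {K : Type*} [Field K] [CharZero K] [DecidableEq K]
variable {ζ : K} (hζ : ζ ^ 4 + ζ ^ 3 + ζ ^ 2 + ζ + 1 = 0) {W : Affine K}
  (hW : U5kwShort W) (hd : 4 * W.a₄ ^ 3 + 27 * W.a₆ ^ 2 ≠ 0)

omit [CharZero K] [DecidableEq K] in
theorem u5kp_some_x_eq {x y x' y' : K} {h : W.Nonsingular x y} {h' : W.Nonsingular x' y'}
    (e : Point.some x y h = Point.some x' y' h') : x = x' := by
  cases e; rfl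

/-- multiples of a `5`-torsion point only depend on the residue mod `5` -/
theorem u5kp_smul_emod {P : W.Point} (h5 : (5 : ℤ) • P = 0) (k : ℤ) : k • P = (k % 5) • P := by
  conv_lhs => rw [← Int.ediv_mul_add_emod k 5]
  rw [add_smul, mul_smul, h5, smul_zero, zero_add]

/-- `-e₁(w) = (X1e, -Y1e)` -/
theorem u5kp_neg_E1 (w : ↥(u5kfFibAB W.a₄ W.a₆)) :
    ∃ h, -u5kpE1 hζ hW hd w = Point.some (u5kiX1e ζ (w.1.1 ^ 5) (w.1.2 ^ 5))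
      (-u5kiY1e ζ (w.1.1 ^ 5) (w.1.2 ^ 5)) h := by
  have hneg : W.Nonsingular (u5kiX1e ζ (w.1.1 ^ 5) (w.1.2 ^ 5))
      (-u5kiY1e ζ (w.1.1 ^ 5) (w.1.2 ^ 5)) := by
    have := (u5kp_nonsing₁ hζ hW hd w.2)
    have h2 := (Affine.nonsingular_neg (W' := W) _ _).mpr this
    rwa [u5kw_negY hW] at h2
  exact ⟨hneg, u5kw_neg_some hW _ hneg⟩

/-- `-2e₁(w) = (X2e, -Y2e)` -/
theorem u5kp_neg_two_E1 (w : ↥(u5kfFibAB W.a₄ W.a₆)) :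
    ∃ h, -((2 : ℤ) • u5kpE1 hζ hW hd w) = Point.some (u5kiX2e ζ (w.1.1 ^ 5) (w.1.2 ^ 5))
      (-u5kiY2e ζ (w.1.1 ^ 5) (w.1.2 ^ 5)) h := by
  have hneg : W.Nonsingular (u5kiX2e ζ (w.1.1 ^ 5) (w.1.2 ^ 5))
      (-u5kiY2e ζ (w.1.1 ^ 5) (w.1.2 ^ 5)) := by
    have := (u5kp_nonsing₂ hζ hW hd w.2)
    have h2 := (Affine.nonsingular_neg (W' := W) _ _).mpr this
    rwa [u5kw_negY hW] at h2
  refine ⟨hneg, ?_⟩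
  rw [u5kp_two_smul]
  exact u5kw_neg_some hW _ hneg

/-- `3 • e₁ = -(2 • e₁)`, `4 • e₁ = -e₁` -/
theorem u5kp_three_smul (w : ↥(u5kfFibAB W.a₄ W.a₆)) :
    (3 : ℤ) • u5kpE1 hζ hW hd w = -((2 : ℤ) • u5kpE1 hζ hW hd w) := by
  have h5 := u5kp_five₁ hζ hW hd w
  have : (3 : ℤ) • u5kpE1 hζ hW hd w + (2 : ℤ) • u5kpE1 hζ hW hd w = 0 := by
    rw [← add_smul]; exact h5
  exact eq_neg_of_add_eq_zero_left this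

theorem u5kp_four_smul (w : ↥(u5kfFibAB W.a₄ W.a₆)) :
    (4 : ℤ) • u5kpE1 hζ hW hd w = -u5kpE1 hζ hW hd w := by
  have h5 := u5kp_five₁ hζ hW hd w
  have : (4 : ℤ) • u5kpE1 hζ hW hd w + u5kpE1 hζ hW hd w = 0 := by
    nth_rewrite 2 [← one_smul ℤ (u5kpE1 hζ hW hd w)]
    rw [← add_smul]; exact h5
  exact eq_neg_of_add_eq_zero_left this

/-- `e₂(w)` is not a multiple of `e₁(w)` -/
theorem u5kp_E2_ne_smul (w : ↥(u5kfFibAB W.a₄ W.a₆)) (k : ℤ) :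
    u5kpE2 hζ hW hd w ≠ k • u5kpE1 hζ hW hd w := by
  rw [u5kp_smul_emod (u5kp_five₁ hζ hW hd w) k]
  have h0 : 0 ≤ k % 5 := Int.emod_nonneg _ (by norm_num)
  have h5 : k % 5 < 5 := Int.emod_lt_of_pos _ (by norm_num)
  have hX1 := u5kp_XS_ne_X1 hζ hd w.2
  have hX2 := u5kp_XS_ne_X2 hζ hd w.2
  intro h
  interval_cases (k % 5)
  · rw [zero_smul] at h
    exact u5kpE2_ne_zero hζ hW hd w h
  · rw [one_smul, u5kpE2_def, u5kpE1_def] at h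
    exact hX1 (u5kp_some_x_eq h)
  · rw [u5kp_two_smul, u5kpE2_def] at h
    exact hX2 (u5kp_some_x_eq h)
  · obtain ⟨hn, e⟩ := u5kp_neg_two_E1 hζ hW hd w
    rw [u5kp_three_smul, e, u5kpE2_def] at h
    exact hX2 (u5kp_some_x_eq h)
  · obtain ⟨hn, e⟩ := u5kp_neg_E1 hζ hW hd w
    rw [u5kp_four_smul, e, u5kpE2_def] at h
    exact hX1 (u5kp_some_x_eq h)

omit [CharZero K] in
/-- a point killed by `5` and by some `a` prime to `5` vanishes -/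
theorem u5kp_eq_zero_of_coprime {P : W.Point} (h5 : (5 : ℤ) • P = 0) {a : ℤ} (ha : ¬ (5 : ℤ) ∣ a)
    (haP : a • P = 0) : P = 0 := by
  have hp : Prime (5 : ℤ) := by norm_num
  have hcop : IsCoprime (5 : ℤ) a := (hp.coprime_iff_not_dvd).mpr ha
  obtain ⟨x, y, hxy⟩ := hcop
  calc P = (1 : ℤ) • P := (one_smul _ _).symm
    _ = (x * 5 + y * a) • P := by rw [hxy]
    _ = 0 := by rw [add_smul, mul_smul, mul_smul, h5, haP, smul_zero, smul_zero, add_zero]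

/-- **independence mod `5`** of `e₁(w)`, `e₂(w)` -/
theorem u5kp_ind (w : ↥(u5kfFibAB W.a₄ W.a₆)) (a b : ℤ)
    (h : a • u5kpE1 hζ hW hd w + b • u5kpE2 hζ hW hd w = 0) : (5 : ℤ) ∣ a ∧ (5 : ℤ) ∣ b := by
  have h51 := u5kp_five₁ hζ hW hd w
  have h52 := u5kp_five₂ hζ hW hd w
  have hb : (5 : ℤ) ∣ b := by
    by_contra hb
    have hp : Prime (5 : ℤ) := by norm_num
    have hcop : IsCoprime (5 : ℤ) b := (hp.coprime_iff_not_dvd).mpr hb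
    obtain ⟨x, y, hxy⟩ := hcop
    apply u5kp_E2_ne_smul hζ hW hd w (-(y * a))
    have hbE : b • u5kpE2 hζ hW hd w = -(a • u5kpE1 hζ hW hd w) := eq_neg_of_add_eq_zero_right h
    calc u5kpE2 hζ hW hd w = (1 : ℤ) • u5kpE2 hζ hW hd w := (one_smul _ _).symm
      _ = (x * 5 + y * b) • u5kpE2 hζ hW hd w := by rw [hxy]
      _ = y • (b • u5kpE2 hζ hW hd w) := by
          rw [add_smul, mul_smul, mul_smul, h52, smul_zero, zero_add]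
      _ = (-(y * a)) • u5kpE1 hζ hW hd w := by
          rw [hbE, smul_neg, ← mul_smul, neg_smul]
  refine ⟨?_, hb⟩
  by_contra ha
  obtain ⟨b', rfl⟩ := hb
  have hbE : ((5 : ℤ) * b') • u5kpE2 hζ hW hd w = 0 := by
    rw [mul_comm, mul_smul, h52, smul_zero]
  rw [hbE, add_zero] at h
  exact u5kpE1_ne_zero hζ hW hd w (u5kp_eq_zero_of_coprime h51 ha h)

end Independence

section Galois

variable {K : Type*} [Field K] [CharZero K] [DecidableEq K]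
variable {ζ : K} (hζ : ζ ^ 4 + ζ ^ 3 + ζ ^ 2 + ζ + 1 = 0) {W : Affine K}
  (hW : U5kwShort W) (hd : 4 * W.a₄ ^ 3 + 27 * W.a₆ ^ 2 ≠ 0)

include hζ in
omit [DecidableEq K] in
/-- the roots of `Φ₅` are `ζ, ζ², ζ³, ζ⁴` -/
theorem u5kp_root_cases {ξ : K} (hξ : ξ ^ 4 + ξ ^ 3 + ξ ^ 2 + ξ + 1 = 0) :
    ξ = ζ ∨ ξ = ζ ^ 2 ∨ ξ = ζ ^ 3 ∨ ξ = ζ ^ 4 := by
  have h := u5ki_factor ζ ξ hζ
  rw [hξ] at h
  rcases mul_eq_zero.mp h with h | h4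
  · rcases mul_eq_zero.mp h with h | h3
    · rcases mul_eq_zero.mp h with h1 | h2
      · exact Or.inl (sub_eq_zero.mp h1)
      · exact Or.inr (Or.inl (sub_eq_zero.mp h2))
    · exact Or.inr (Or.inr (Or.inl (sub_eq_zero.mp h3)))
  · exact Or.inr (Or.inr (Or.inr (sub_eq_zero.mp h4)))

/-- Galois : `e₁[ζ²] = 2 • e₁[ζ]` -/
theorem u5kp_conj2 (w : ↥(u5kfFibAB W.a₄ W.a₆)) :
    u5kpE1 (u5ki_phi_pow2 ζ hζ) hW hd w = (2 : ℤ) • u5kpE1 hζ hW hd w := by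
  rw [u5kp_two_smul, u5kpE1_def]
  exact u5kp_some_congr (u5ki_conj2_X ζ _ _ hζ) (u5ki_conj2_Y ζ _ _ hζ) _ _

/-- Galois : `e₁[ζ³] = 3 • e₁[ζ]` -/
theorem u5kp_conj3 (w : ↥(u5kfFibAB W.a₄ W.a₆)) :
    u5kpE1 (u5ki_phi_pow3 ζ hζ) hW hd w = (3 : ℤ) • u5kpE1 hζ hW hd w := by
  obtain ⟨hn, e⟩ := u5kp_neg_two_E1 hζ hW hd w
  rw [u5kp_three_smul, e, u5kpE1_def]
  exact u5kp_some_congr (u5ki_conj3_X ζ _ _ hζ) (u5ki_conj3_Y ζ _ _ hζ) _ _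

/-- Galois : `e₁[ζ⁴] = 4 • e₁[ζ]` -/
theorem u5kp_conj4 (w : ↥(u5kfFibAB W.a₄ W.a₆)) :
    u5kpE1 (u5ki_phi_pow4 ζ hζ) hW hd w = (4 : ℤ) • u5kpE1 hζ hW hd w := by
  obtain ⟨hn, e⟩ := u5kp_neg_E1 hζ hW hd w
  rw [u5kp_four_smul, e, u5kpE1_def]
  exact u5kp_some_congr (u5ki_conj4_X ζ _ _ hζ) (u5ki_conj4_Y ζ _ _ hζ) _ _

end Galois

section Maps

variable {K L : Type*} [Field K] [Field L] (σ : K →+* L)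

theorem u5kf_map_H (u v : K) : σ (u5kfH u v) = u5kfH (σ u) (σ v) := by
  simp only [u5kfH, map_add, map_sub, map_mul, map_pow, map_neg, map_ofNat]

theorem u5kf_map_T (u v : K) : σ (u5kfT u v) = u5kfT (σ u) (σ v) := by
  simp only [u5kfT, map_add, map_sub, map_mul, map_pow, map_neg, map_ofNat]

theorem u5kf_map_F (u v : K) : σ (u5kfF u v) = u5kfF (σ u) (σ v) := by
  simp only [u5kfF, map_add, map_sub, map_mul, map_pow, map_neg, map_ofNat]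

/-- a ring homomorphism maps `Fib(A,B)` to `Fib(σ A, σ B)` -/
theorem u5kf_map_mem {A B : K} {w : K × K} (hw : w ∈ u5kfFibAB A B) :
    (σ w.1, σ w.2) ∈ u5kfFibAB (σ A) (σ B) := by
  obtain ⟨h1, h2⟩ := hw
  refine ⟨?_, ?_⟩
  · show 27 * u5kfH (σ w.1) (σ w.2) = σ A
    rw [← h1, map_mul, u5kf_map_H, map_ofNat]
  · show 54 * u5kfT (σ w.1) (σ w.2) = σ B
    rw [← h2, map_mul, u5kf_map_T, map_ofNat]

theorem u5ki_map_X1e (ζ U V : K) : σ (u5kiX1e ζ U V) = u5kiX1e (σ ζ) (σ U) (σ V) := by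
  simp only [u5kiX1e, map_add, map_sub, map_mul, map_pow, map_neg, map_ofNat, map_div₀, map_one]

theorem u5ki_map_Y1e (ζ U V : K) : σ (u5kiY1e ζ U V) = u5kiY1e (σ ζ) (σ U) (σ V) := by
  simp only [u5kiY1e, map_add, map_sub, map_mul, map_pow, map_neg, map_ofNat, map_div₀, map_one]

theorem u5ki_map_XS (u v : K) : σ (u5kiXS u v) = u5kiXS (σ u) (σ v) := by
  simp only [u5kiXS, map_add, map_sub, map_mul, map_pow, map_neg, map_ofNat, map_div₀, map_one]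

theorem u5ki_map_YS (u v : K) : σ (u5kiYS u v) = u5kiYS (σ u) (σ v) := by
  simp only [u5kiYS, map_add, map_sub, map_mul, map_pow, map_neg, map_ofNat, map_div₀, map_one]

theorem u5ki_map_Sa (ζ : K) : σ (u5kiSa ζ) = u5kiSa (σ ζ) := by
  simp only [u5kiSa, map_add, map_sub, map_mul, map_pow, map_neg, map_ofNat, map_div₀, map_one]

theorem u5ki_map_Sb (ζ : K) : σ (u5kiSb ζ) = u5kiSb (σ ζ) := by
  simp only [u5kiSb, map_add, map_sub, map_mul, map_pow, map_neg, map_ofNat, map_div₀, map_one]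

/-- `σ ζ` is again a root of `Φ₅` -/
theorem u5kp_map_phi {ζ : K} (hζ : ζ ^ 4 + ζ ^ 3 + ζ ^ 2 + ζ + 1 = 0) :
    (σ ζ) ^ 4 + (σ ζ) ^ 3 + (σ ζ) ^ 2 + σ ζ + 1 = 0 := by
  have := congrArg σ hζ
  simpa only [map_add, map_pow, map_one, map_zero] using this

end Maps

end Fermat.Agent.U5
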