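import Mathlib
import Fermat.Agent.U5.KL.FinalPre
import Fermat.Agent.U5.KL.Point

/-!
# Program U (S52), leaf `U5LeafKlein` : the final assembly (prefix `u5kg`)

`u5kg_klein : U5LeafKlein` (helper25's literal of `U5/Top.lean`) : for `a b m n : ℚ`, `a b ≠ 0`,
`4(3a)³ + 27b² ≠ 0`, `D(m,n) ≠ 0`, the curves `y² = x³ + 3a x + b` and
`y² = x³ + A(m,n) x + B(m,n)` have Galois-isomorphic `5`-torsion.

Instantiation of `u5kg_core` (KL/Galois) with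
* helper27's KL/Point (generators `Ŝ T̂ Ẑ` on the fibres, labels `e₁ e₂`, `5`-torsion, independence,
  label rules, freeness of `Ẑ`, the conjugates `e₁[ζ^k] = k e₁[ζ]`) at `K = ℚ̄`,
  `W = (u5Short A B)⁄ℚ̄`;
* helper28's KL/Bridge (the bridge map `Φ_{m,n}`, membership and covariance), through KL/FinalPre.
-/

set_option autoImplicit false
set_option linter.unusedVariables false
set_option linter.unusedSectionVars false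

namespace Fermat.Agent.U5

open WeierstrassCurve WeierstrassCurve.Affine

section Inst

variable {ζ : U5Qb} (hζ : ζ ^ 4 + ζ ^ 3 + ζ ^ 2 + ζ + 1 = 0) {A B : ℚ}

theorem u5kg_short (A B : ℚ) : U5kwShort (u5kgE A B) := ⟨map_zero _, map_zero _, map_zero _⟩

theorem u5kg_disc (hd : 4 * A ^ 3 + 27 * B ^ 2 ≠ 0) :
    4 * (u5kgE A B).a₄ ^ 3 + 27 * (u5kgE A B).a₆ ^ 2 ≠ 0 := by
  show 4 * (u5kgC A) ^ 3 + 27 * (u5kgC B) ^ 2 ≠ 0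
  intro h0
  apply hd
  have : u5kgC (4 * A ^ 3 + 27 * B ^ 2) = 0 := by
    simp only [u5kgC, map_add, map_mul, map_pow, map_ofNat]
    exact h0
  exact (map_eq_zero_iff _ (algebraMap ℚ U5Qb).injective).mp this

/-- `Ŝ` on the fibre over `ℚ̄` -/
noncomputable def u5kgGS (w : U5kgX A B) : U5kgX A B := u5kpS (W := u5kgE A B) hζ w

/-- `T̂` on the fibre over `ℚ̄` -/
noncomputable def u5kgGT (w : U5kgX A B) : U5kgX A B := u5kpT (W := u5kgE A B) hζ w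

/-- `Ẑ` on the fibre over `ℚ̄` -/
noncomputable def u5kgGZ (w : U5kgX A B) : U5kgX A B := u5kpZ (W := u5kgE A B) hζ w

theorem u5kgGS_val (w : U5kgX A B) : (u5kgGS hζ w).1 = u5kpSmap ζ w.1 := rfl

theorem u5kgGT_val (w : U5kgX A B) : (u5kgGT hζ w).1 = u5kpTmap ζ w.1 := rfl

theorem u5kgGZ_val (w : U5kgX A B) : (u5kgGZ hζ w).1 = u5kpZmap ζ w.1 := rfl

variable (hd : 4 * A ^ 3 + 27 * B ^ 2 ≠ 0)

/-- the label `e₁` -/
noncomputable def u5kgL1 (w : U5kgX A B) : (u5kgE A B).Point :=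
  u5kpE1 hζ (u5kg_short A B) (u5kg_disc hd) w

/-- the label `e₂` -/
noncomputable def u5kgL2 (w : U5kgX A B) : (u5kgE A B).Point :=
  u5kpE2 hζ (u5kg_short A B) (u5kg_disc hd) w

/-- the Galois rule for `e₁` -/
theorem u5kgL1_gal (σ : U5Qb ≃ₐ[ℚ] U5Qb) (w : U5kgX A B) :
    σ • u5kgL1 hζ hd w =
      ((u5kgKappa (u5kg_prim_of_cyclo hζ) σ : ℕ) : ℤ) • u5kgL1 hζ hd (u5kgXsig σ w) := by
  refine u5kg_gal₁_of_coords (u5kg_prim_of_cyclo hζ)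
    (fun z u v => u5kiX1e z (u ^ 5) (v ^ 5)) (fun z u v => u5kiY1e z (u ^ 5) (v ^ 5))
    ?_ ?_ (u5kgL1 hζ hd) ?_ ?_ σ w
  · intro τ z u v
    simp only [u5ki_map_X1e, map_pow]
  · intro τ z u v
    simp only [u5ki_map_Y1e, map_pow]
  · intro w
    exact ⟨_, u5kpE1_def hζ (u5kg_short A B) (u5kg_disc hd) w⟩
  · intro k hk0 hk5 w h
    interval_cases k
    · rw [Nat.cast_one, one_smul]
      refine u5kg_some_congr ?_ ?_ _ _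
      · simp only [pow_one]
      · simp only [pow_one]
    · have := u5kp_conj2 hζ (u5kg_short A B) (u5kg_disc hd) w
      refine Eq.trans ?_ (this.trans ?_)
      · rfl
      · rfl
    · have := u5kp_conj3 hζ (u5kg_short A B) (u5kg_disc hd) w
      refine Eq.trans ?_ (this.trans ?_)
      · rfl
      · rfl
    · have := u5kp_conj4 hζ (u5kg_short A B) (u5kg_disc hd) w
      refine Eq.trans ?_ (this.trans ?_)
      · rfl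
      · rfl

/-- the Galois rule for `e₂` -/
theorem u5kgL2_gal (σ : U5Qb ≃ₐ[ℚ] U5Qb) (w : U5kgX A B) :
    σ • u5kgL2 hζ hd w = u5kgL2 hζ hd (u5kgXsig σ w) := by
  refine u5kg_gal₂_of_coords u5kiXS u5kiYS ?_ ?_ (u5kgL2 hζ hd) ?_ σ w
  · intro τ u v
    exact u5ki_map_XS τ u v
  · intro τ u v
    exact u5ki_map_YS τ u v
  · intro w
    exact ⟨_, u5kpE2_def hζ (u5kg_short A B) (u5kg_disc hd) w⟩

end Inst

section Cov

variable {ζ : U5Qb} (hζ : ζ ^ 4 + ζ ^ 3 + ζ ^ 2 + ζ + 1 = 0) (a b m n : ℚ)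

theorem u5kgPhi_S (w : U5kgX (3 * a) b) :
    u5kgPhi a b m n (u5kgGS hζ w) = u5kgGS hζ (u5kgPhi a b m n w) := by
  apply Subtype.ext
  show u5kbPhi (u5kgC m) (u5kgC n) (u5kpSmap ζ w.1) = u5kpSmap ζ (u5kbPhi (u5kgC m) (u5kgC n) w.1)
  obtain ⟨h1, h2⟩ := u5kb_S_rel (K := U5Qb) (by norm_num) ζ hζ
  exact u5kb_Phi_S (u5kiSa ζ) (u5kiSb ζ) h1 h2 _ _ w.1

theorem u5kgPhi_T (w : U5kgX (3 * a) b) :
    u5kgPhi a b m n (u5kgGT hζ w) = u5kgGT hζ (u5kgPhi a b m n w) := by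
  apply Subtype.ext
  show u5kbPhi (u5kgC m) (u5kgC n) (u5kpTmap ζ w.1) = u5kpTmap ζ (u5kbPhi (u5kgC m) (u5kgC n) w.1)
  have h5 := u5ki_zeta5 ζ hζ
  have h3 : (ζ ^ 3) ^ 5 = 1 := by
    have : (ζ ^ 3) ^ 5 = (ζ ^ 5) ^ 3 := by ring
    rw [this, h5, one_pow]
  have h2 : (ζ ^ 2) ^ 5 = 1 := by
    have : (ζ ^ 2) ^ 5 = (ζ ^ 5) ^ 2 := by ring
    rw [this, h5, one_pow]
  exact u5kb_Phi_diag (ζ ^ 3) (ζ ^ 2) h3 h2 _ _ w.1

theorem u5kgPhi_Z (w : U5kgX (3 * a) b) :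
    u5kgPhi a b m n (u5kgGZ hζ w) = u5kgGZ hζ (u5kgPhi a b m n w) := by
  apply Subtype.ext
  show u5kbPhi (u5kgC m) (u5kgC n) (u5kpZmap ζ w.1) = u5kpZmap ζ (u5kbPhi (u5kgC m) (u5kgC n) w.1)
  have h5 := u5ki_zeta5 ζ hζ
  exact u5kb_Phi_diag ζ ζ h5 h5 _ _ w.1

end Cov

/-- **Leaf (U1) : Klein.** -/
theorem u5kg_klein : U5LeafKlein := by
  intro a b m n ha hb hdisc hD
  obtain ⟨ζ, hζ⟩ := u5kg_exists_zeta U5Qb
  have hd₁ : 4 * (u5fA a b m n) ^ 3 + 27 * (u5fB a b m n) ^ 2 ≠ 0 := by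
    rw [u5_syz]
    exact mul_ne_zero hdisc (pow_ne_zero _ hD)
  have hA₀ : 3 * a ≠ 0 := mul_ne_zero (by norm_num) ha
  have hW₀ := u5kg_short (3 * a) b
  have hW₁ := u5kg_short (u5fA a b m n) (u5fB a b m n)
  have hD₀ := u5kg_disc hdisc
  have hD₁ := u5kg_disc hd₁
  exact u5kg_core hA₀ hb hdisc hd₁
    (u5kgGS hζ) (u5kgGT hζ) (u5kgGZ hζ) (u5kgGS hζ) (u5kgGT hζ) (u5kgGZ hζ)
    (u5kgL1 hζ hdisc) (u5kgL2 hζ hdisc) (u5kgL1 hζ hd₁) (u5kgL2 hζ hd₁)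
    (fun w => u5kp_five₁ hζ hW₀ hD₀ w) (fun w => u5kp_five₂ hζ hW₀ hD₀ w)
    (fun w => u5kp_five₁ hζ hW₁ hD₁ w) (fun w => u5kp_five₂ hζ hW₁ hD₁ w)
    (fun w a b h => u5kp_ind hζ hW₀ hD₀ w a b h) (fun w a b h => u5kp_ind hζ hW₁ hD₁ w a b h)
    (fun w => u5kp_S₁ hζ hW₀ hD₀ w) (fun w => u5kp_S₂ hζ hW₀ hD₀ w)
    (fun w => u5kp_T₁ hζ hW₀ hD₀ w) (fun w => u5kp_T₂ hζ hW₀ hD₀ w)
    (fun w => u5kp_Z₁ hζ hW₀ hD₀ w) (fun w => u5kp_Z₂ hζ hW₀ hD₀ w)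
    (fun w => u5kp_S₁ hζ hW₁ hD₁ w) (fun w => u5kp_S₂ hζ hW₁ hD₁ w)
    (fun w => u5kp_T₁ hζ hW₁ hD₁ w) (fun w => u5kp_T₂ hζ hW₁ hD₁ w)
    (fun w => u5kp_Z₁ hζ hW₁ hD₁ w) (fun w => u5kp_Z₂ hζ hW₁ hD₁ w)
    (fun w k hk hk5 => u5kp_Zfree hζ hD₀ w k hk hk5)
    (fun σ => ((u5kgKappa (u5kg_prim_of_cyclo hζ) σ : ℕ) : ℤ))
    (fun σ w => u5kgL1_gal hζ hdisc σ w) (fun σ w => u5kgL2_gal hζ hdisc σ w)
    (fun σ w => u5kgL1_gal hζ hd₁ σ w) (fun σ w => u5kgL2_gal hζ hd₁ σ w)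
    (u5kgPhi a b m n) (u5kgPhi_S hζ a b m n) (u5kgPhi_T hζ a b m n) (u5kgPhi_Z hζ a b m n)
    (u5kgPhi_sig a b m n)

end Fermat.Agent.U5
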