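import Fermat.Agent.U5.FamPoly
import Fermat.Agent.U5.KL.Fibre

/-!
# Program U (S52), Klein route, KL/Bridge : definitions

`Φ_{m,n}(u,v) = m·(u,v) + 3n·(-f_v(u,v), f_u(u,v))` for Klein's form `f` (helper27's `u5kfF`),
and the compatibility of all the polynomial expressions with ring homomorphisms.
Prefix `u5kb`.
-/

set_option autoImplicit false
set_option linter.unusedSimpArgs false

namespace Fermat.Agent.U5

section

variable {R : Type*} [CommRing R]

/-- `∂f/∂u` for Klein's form `f = u5kfF` -/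
def u5kbFu (u v : R) : R := 11 * u ^ 10 * v + 66 * u ^ 5 * v ^ 6 - v ^ 11

/-- `∂f/∂v` for Klein's form `f = u5kfF` -/
def u5kbFv (u v : R) : R := u ^ 11 + 66 * u ^ 6 * v ^ 5 - 11 * u * v ^ 10

/-- first component of `Φ_{m,n}` -/
def u5kbPhi1 (m n u v : R) : R := m * u - 3 * n * u5kbFv u v

/-- second component of `Φ_{m,n}` -/
def u5kbPhi2 (m n u v : R) : R := m * v + 3 * n * u5kbFu u v

/-- `Φ_{m,n}(w) = m·w + 3n·(-f_v(w), f_u(w))` -/
def u5kbPhi (m n : R) (w : R × R) : R × R := (u5kbPhi1 m n w.1 w.2, u5kbPhi2 m n w.1 w.2)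

@[simp] theorem u5kbPhi_fst (m n : R) (w : R × R) :
    (u5kbPhi m n w).1 = m * w.1 - 3 * n * u5kbFv w.1 w.2 := rfl

@[simp] theorem u5kbPhi_snd (m n : R) (w : R × R) :
    (u5kbPhi m n w).2 = m * w.2 + 3 * n * u5kbFu w.1 w.2 := rfl

/-- Euler's relation `u f_u + v f_v = 12 f` -/
theorem u5kb_euler (u v : R) : u * u5kbFu u v + v * u5kbFv u v = 12 * u5kfF u v := by
  simp only [u5kbFu, u5kbFv, u5kfF]; ring

variable {S : Type*} [CommRing S] (f : R →+* S)

theorem u5kb_map_F (u v : R) : f (u5kfF u v) = u5kfF (f u) (f v) := by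
  simp only [u5kfF, map_add, map_sub, map_mul, map_pow, map_neg, map_ofNat]

theorem u5kb_map_H (u v : R) : f (u5kfH u v) = u5kfH (f u) (f v) := by
  simp only [u5kfH, map_add, map_sub, map_mul, map_pow, map_neg, map_ofNat]

theorem u5kb_map_T (u v : R) : f (u5kfT u v) = u5kfT (f u) (f v) := by
  simp only [u5kfT, map_add, map_sub, map_mul, map_pow, map_neg, map_ofNat]

theorem u5kb_map_Fu (u v : R) : f (u5kbFu u v) = u5kbFu (f u) (f v) := by
  simp only [u5kbFu, map_add, map_sub, map_mul, map_pow, map_neg, map_ofNat]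

theorem u5kb_map_Fv (u v : R) : f (u5kbFv u v) = u5kbFv (f u) (f v) := by
  simp only [u5kbFv, map_add, map_sub, map_mul, map_pow, map_neg, map_ofNat]

theorem u5kb_map_Phi1 (m n u v : R) :
    f (u5kbPhi1 m n u v) = u5kbPhi1 (f m) (f n) (f u) (f v) := by
  simp only [u5kbPhi1, map_sub, map_mul, map_ofNat, u5kb_map_Fv]

theorem u5kb_map_Phi2 (m n u v : R) :
    f (u5kbPhi2 m n u v) = u5kbPhi2 (f m) (f n) (f u) (f v) := by
  simp only [u5kbPhi2, map_add, map_mul, map_ofNat, u5kb_map_Fu]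

theorem u5kb_map_fD (a b m n : R) : f (u5fD a b m n) = u5fD (f a) (f b) (f m) (f n) := by
  simp only [u5fD, u5cD0, u5cD1, u5cD2, u5cD3, u5cD4, u5cD5, u5cD6, u5cD7, u5cD8, u5cD9, u5cD10,
    u5cD11, u5cD12,
    map_add, map_sub, map_mul, map_pow, map_neg, map_ofNat, map_one, map_zero]

theorem u5kb_map_fA (a b m n : R) : f (u5fA a b m n) = u5fA (f a) (f b) (f m) (f n) := by
  simp only [u5fA, u5cA0, u5cA1, u5cA2, u5cA3, u5cA4, u5cA5, u5cA6, u5cA7, u5cA8, u5cA9, u5cA10,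
    u5cA11, u5cA12, u5cA13, u5cA14, u5cA15, u5cA16, u5cA17, u5cA18, u5cA19, u5cA20,
    map_add, map_sub, map_mul, map_pow, map_neg, map_ofNat, map_one, map_zero]

theorem u5kb_map_fB (a b m n : R) : f (u5fB a b m n) = u5fB (f a) (f b) (f m) (f n) := by
  simp only [u5fB, u5cB0, u5cB1, u5cB2, u5cB3, u5cB4, u5cB5, u5cB6, u5cB7, u5cB8, u5cB9, u5cB10,
    u5cB11, u5cB12, u5cB13, u5cB14, u5cB15, u5cB16, u5cB17, u5cB18, u5cB19, u5cB20, u5cB21,
    u5cB22, u5cB23, u5cB24, u5cB25, u5cB26, u5cB27, u5cB28, u5cB29, u5cB30,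
    map_add, map_sub, map_mul, map_pow, map_neg, map_ofNat, map_one, map_zero]

end

end Fermat.Agent.U5
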