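import Fermat.Agent.U5.KL.BridgePQ

/-!
# Program U (S52), Klein route, KL/Bridge : the `u5kfH`-bridge, coefficientwise in `n`
(generated by `genHfile.py`; prefix `u5kb`)
-/

set_option autoImplicit false
set_option maxHeartbeats 4000000

namespace Fermat.Agent.U5

variable {R : Type*} [CommRing R]

/-- the coefficient of `m^20 n^0` in `27 u5kfH(u(m - 3np), v(m + 3nq))` -/
def u5kbHc0 (u v p q : R) : R :=
  27 * ((-(u ^ 20) + -(v ^ 20) + 228 * u ^ 15 * v ^ 5 + (-228) * u ^ 5 * v ^ 15 + (-494) * u ^ 10 * v ^ 10))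

/-- the coefficient of `m^19 n^1` in `27 u5kfH(u(m - 3np), v(m + 3nq))` -/
def u5kbHc1 (u v p q : R) : R :=
  81 * (((-20) * v ^ 20 + 1140 * u ^ 15 * v ^ 5 + (-3420) * u ^ 5 * v ^ 15 + (-4940) * u ^ 10 * v ^ 10) * q + (-p) * (((-20) * u ^ 20 + 3420 * u ^ 15 * v ^ 5 + (-1140) * u ^ 5 * v ^ 15 + (-4940) * u ^ 10 * v ^ 10)))

/-- the coefficient of `m^18 n^2` in `27 u5kfH(u(m - 3np), v(m + 3nq))` -/
def u5kbHc2 (u v p q : R) : R :=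
  243 * (((-190) * v ^ 20 + 2280 * u ^ 15 * v ^ 5 + (-23940) * u ^ 5 * v ^ 15 + (-22230) * u ^ 10 * v ^ 10) * q ^ 2 + (-p) * ((17100 * u ^ 15 * v ^ 5 + (-17100) * u ^ 5 * v ^ 15 + (-49400) * u ^ 10 * v ^ 10) * q + (-p) * (((-190) * u ^ 20 + 23940 * u ^ 15 * v ^ 5 + (-2280) * u ^ 5 * v ^ 15 + (-22230) * u ^ 10 * v ^ 10))))

/-- the coefficient of `m^17 n^3` in `27 u5kfH(u(m - 3np), v(m + 3nq))` -/
def u5kbHc3 (u v p q : R) : R :=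
  729 * (((-1140) * v ^ 20 + 2280 * u ^ 15 * v ^ 5 + (-103740) * u ^ 5 * v ^ 15 + (-59280) * u ^ 10 * v ^ 10) * q ^ 3 + (-p) * ((34200 * u ^ 15 * v ^ 5 + (-119700) * u ^ 5 * v ^ 15 + (-222300) * u ^ 10 * v ^ 10) * q ^ 2 + (-p) * ((119700 * u ^ 15 * v ^ 5 + (-34200) * u ^ 5 * v ^ 15 + (-222300) * u ^ 10 * v ^ 10) * q + (-p) * (((-1140) * u ^ 20 + 103740 * u ^ 15 * v ^ 5 + (-2280) * u ^ 5 * v ^ 15 + (-59280) * u ^ 10 * v ^ 10)))))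

/-- the coefficient of `m^16 n^4` in `27 u5kfH(u(m - 3np), v(m + 3nq))` -/
def u5kbHc4 (u v p q : R) : R :=
  2187 * (((-4845) * v ^ 20 + 1140 * u ^ 15 * v ^ 5 + (-311220) * u ^ 5 * v ^ 15 + (-103740) * u ^ 10 * v ^ 10) * q ^ 4 + (-p) * ((34200 * u ^ 15 * v ^ 5 + (-518700) * u ^ 5 * v ^ 15 + (-592800) * u ^ 10 * v ^ 10) * q ^ 3 + (-p) * ((239400 * u ^ 15 * v ^ 5 + (-239400) * u ^ 5 * v ^ 15 + (-1000350) * u ^ 10 * v ^ 10) * q ^ 2 + (-p) * ((518700 * u ^ 15 * v ^ 5 + (-34200) * u ^ 5 * v ^ 15 + (-592800) * u ^ 10 * v ^ 10) * q + (-p) * (((-4845) * u ^ 20 + 311220 * u ^ 15 * v ^ 5 + (-1140) * u ^ 5 * v ^ 15 + (-103740) * u ^ 10 * v ^ 10))))))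

/-- the coefficient of `m^15 n^5` in `27 u5kfH(u(m - 3np), v(m + 3nq))` -/
def u5kbHc5 (u v p q : R) : R :=
  6561 * (((-15504) * v ^ 20 + 228 * u ^ 15 * v ^ 5 + (-684684) * u ^ 5 * v ^ 15 + (-124488) * u ^ 10 * v ^ 10) * q ^ 5 + (-p) * ((17100 * u ^ 15 * v ^ 5 + (-1556100) * u ^ 5 * v ^ 15 + (-1037400) * u ^ 10 * v ^ 10) * q ^ 4 + (-p) * ((239400 * u ^ 15 * v ^ 5 + (-1037400) * u ^ 5 * v ^ 15 + (-2667600) * u ^ 10 * v ^ 10) * q ^ 3 + (-p) * ((1037400 * u ^ 15 * v ^ 5 + (-239400) * u ^ 5 * v ^ 15 + (-2667600) * u ^ 10 * v ^ 10) * q ^ 2 + (-p) * ((1556100 * u ^ 15 * v ^ 5 + (-17100) * u ^ 5 * v ^ 15 + (-1037400) * u ^ 10 * v ^ 10) * q + (-p) * (((-15504) * u ^ 20 + 684684 * u ^ 15 * v ^ 5 + (-228) * u ^ 5 * v ^ 15 + (-124488) * u ^ 10 * v ^ 10)))))))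

/-- the coefficient of `m^14 n^6` in `27 u5kfH(u(m - 3np), v(m + 3nq))` -/
def u5kbHc6 (u v p q : R) : R :=
  19683 * (((-38760) * v ^ 20 + (-1141140) * u ^ 5 * v ^ 15 + (-103740) * u ^ 10 * v ^ 10) * q ^ 6 + (-p) * ((3420 * u ^ 15 * v ^ 5 + (-3423420) * u ^ 5 * v ^ 15 + (-1244880) * u ^ 10 * v ^ 10) * q ^ 5 + (-p) * ((119700 * u ^ 15 * v ^ 5 + (-3112200) * u ^ 5 * v ^ 15 + (-4668300) * u ^ 10 * v ^ 10) * q ^ 4 + (-p) * ((1037400 * u ^ 15 * v ^ 5 + (-1037400) * u ^ 5 * v ^ 15 + (-7113600) * u ^ 10 * v ^ 10) * q ^ 3 + (-p) * ((3112200 * u ^ 15 * v ^ 5 + (-119700) * u ^ 5 * v ^ 15 + (-4668300) * u ^ 10 * v ^ 10) * q ^ 2 + (-p) * ((3423420 * u ^ 15 * v ^ 5 + (-3420) * u ^ 5 * v ^ 15 + (-1244880) * u ^ 10 * v ^ 10) * q + (-p) * (((-38760) * u ^ 20 + 1141140 * u ^ 15 * v ^ 5 + (-103740) * u ^ 10 * v ^ 10))))))))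

/-- the coefficient of `m^13 n^7` in `27 u5kfH(u(m - 3np), v(m + 3nq))` -/
def u5kbHc7 (u v p q : R) : R :=
  59049 * (((-77520) * v ^ 20 + (-1467180) * u ^ 5 * v ^ 15 + (-59280) * u ^ 10 * v ^ 10) * q ^ 7 + (-p) * (((-5705700) * u ^ 5 * v ^ 15 + (-1037400) * u ^ 10 * v ^ 10) * q ^ 6 + (-p) * ((23940 * u ^ 15 * v ^ 5 + (-6846840) * u ^ 5 * v ^ 15 + (-5601960) * u ^ 10 * v ^ 10) * q ^ 5 + (-p) * ((518700 * u ^ 15 * v ^ 5 + (-3112200) * u ^ 5 * v ^ 15 + (-12448800) * u ^ 10 * v ^ 10) * q ^ 4 + (-p) * ((3112200 * u ^ 15 * v ^ 5 + (-518700) * u ^ 5 * v ^ 15 + (-12448800) * u ^ 10 * v ^ 10) * q ^ 3 + (-p) * ((6846840 * u ^ 15 * v ^ 5 + (-23940) * u ^ 5 * v ^ 15 + (-5601960) * u ^ 10 * v ^ 10) * q ^ 2 + (-p) * ((5705700 * u ^ 15 * v ^ 5 + (-1037400) * u ^ 10 * v ^ 10) * q + (-p) * (((-77520) * u ^ 20 + 1467180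 * u ^ 15 * v ^ 5 + (-59280) * u ^ 10 * v ^ 10)))))))))

/-- the coefficient of `m^12 n^8` in `27 u5kfH(u(m - 3np), v(m + 3nq))` -/
def u5kbHc8 (u v p q : R) : R :=
  177147 * (((-125970) * v ^ 20 + (-1467180) * u ^ 5 * v ^ 15 + (-22230) * u ^ 10 * v ^ 10) * q ^ 8 + (-p) * (((-7335900) * u ^ 5 * v ^ 15 + (-592800) * u ^ 10 * v ^ 10) * q ^ 7 + (-p) * (((-11411400) * u ^ 5 * v ^ 15 + (-4668300) * u ^ 10 * v ^ 10) * q ^ 6 + (-p) * ((103740 * u ^ 15 * v ^ 5 + (-6846840) * u ^ 5 * v ^ 15 + (-14938560) * u ^ 10 * v ^ 10) * q ^ 5 + (-p) * ((1556100 * u ^ 15 * v ^ 5 + (-1556100) * u ^ 5 * v ^ 15 + (-21785400) * u ^ 10 * v ^ 10) * q ^ 4 + (-p) * ((6846840 * u ^ 15 * v ^ 5 + (-103740) * u ^ 5 * v ^ 15 + (-14938560) * u ^ 10 * v ^ 10) * q ^ 3 + (-p) * ((11411400 * u ^ 15 * v ^ 5 + (-4668300) * u ^ 10 * v ^ 10) * q ^ 2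 + (-p) * ((7335900 * u ^ 15 * v ^ 5 + (-592800) * u ^ 10 * v ^ 10) * q + (-p) * (((-125970) * u ^ 20 + 1467180 * u ^ 15 * v ^ 5 + (-22230) * u ^ 10 * v ^ 10))))))))))

/-- the coefficient of `m^11 n^9` in `27 u5kfH(u(m - 3np), v(m + 3nq))` -/
def u5kbHc9 (u v p q : R) : R :=
  531441 * (((-167960) * v ^ 20 + (-1141140) * u ^ 5 * v ^ 15 + (-4940) * u ^ 10 * v ^ 10) * q ^ 9 + (-p) * (((-7335900) * u ^ 5 * v ^ 15 + (-222300) * u ^ 10 * v ^ 10) * q ^ 8 + (-p) * (((-14671800) * u ^ 5 * v ^ 15 + (-2667600) * u ^ 10 * v ^ 10) * q ^ 7 + (-p) * (((-11411400) * u ^ 5 * v ^ 15 + (-12448800) * u ^ 10 * v ^ 10) * q ^ 6 + (-p) * ((311220 * u ^ 15 * v ^ 5 + (-3423420) * u ^ 5 * v ^ 15 + (-26142480) * u ^ 10 * v ^ 10) * q ^ 5 + (-p) * ((3423420 * u ^ 15 * v ^ 5 + (-311220) * u ^ 5 * v ^ 15 + (-26142480) * u ^ 10 * v ^ 10)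 * q ^ 4 + (-p) * ((11411400 * u ^ 15 * v ^ 5 + (-12448800) * u ^ 10 * v ^ 10) * q ^ 3 + (-p) * ((14671800 * u ^ 15 * v ^ 5 + (-2667600) * u ^ 10 * v ^ 10) * q ^ 2 + (-p) * ((7335900 * u ^ 15 * v ^ 5 + (-222300) * u ^ 10 * v ^ 10) * q + (-p) * (((-167960) * u ^ 20 + 1141140 * u ^ 15 * v ^ 5 + (-4940) * u ^ 10 * v ^ 10)))))))))))

/-- the coefficient of `m^10 n^10` in `27 u5kfH(u(m - 3np), v(m + 3nq))` -/
def u5kbHc10 (u v p q : R) : R :=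
  1594323 * (((-184756) * v ^ 20 + (-684684) * u ^ 5 * v ^ 15 + (-494) * u ^ 10 * v ^ 10) * q ^ 10 + (-p) * (((-5705700) * u ^ 5 * v ^ 15 + (-49400) * u ^ 10 * v ^ 10) * q ^ 9 + (-p) * (((-14671800) * u ^ 5 * v ^ 15 + (-1000350) * u ^ 10 * v ^ 10) * q ^ 8 + (-p) * (((-14671800) * u ^ 5 * v ^ 15 + (-7113600) * u ^ 10 * v ^ 10) * q ^ 7 + (-p) * (((-5705700) * u ^ 5 * v ^ 15 + (-21785400) * u ^ 10 * v ^ 10) * q ^ 6 + (-p) * ((684684 * u ^ 15 * v ^ 5 + (-684684) * u ^ 5 * v ^ 15 + (-31370976) * u ^ 10 * v ^ 10) * q ^ 5 + (-p) * ((5705700 * u ^ 15 * v ^ 5 + (-21785400) * u ^ 10 * v ^ 10) * q ^ 4 + (-p) * ((14671800 * u ^ 15 * v ^ 5 + (-7113600) * u ^ 10 * v ^ 10) * q ^ 3 + (-p) * ((14671800 * u ^ 15 * v ^ 5 + (-1000350) * u ^ 10 * v ^ 10) * q ^ 2 + (-p) * ((5705700 * u ^ 15 * v ^ 5 + (-49400) * u ^ 10 * v ^ 10)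 * q + (-p) * (((-184756) * u ^ 20 + 684684 * u ^ 15 * v ^ 5 + (-494) * u ^ 10 * v ^ 10))))))))))))

/-- the coefficient of `m^9 n^11` in `27 u5kfH(u(m - 3np), v(m + 3nq))` -/
def u5kbHc11 (u v p q : R) : R :=
  4782969 * (((-167960) * v ^ 20 + (-311220) * u ^ 5 * v ^ 15) * q ^ 11 + (-p) * (((-3423420) * u ^ 5 * v ^ 15 + (-4940) * u ^ 10 * v ^ 10) * q ^ 10 + (-p) * (((-11411400) * u ^ 5 * v ^ 15 + (-222300) * u ^ 10 * v ^ 10) * q ^ 9 + (-p) * (((-14671800) * u ^ 5 * v ^ 15 + (-2667600) * u ^ 10 * v ^ 10) * q ^ 8 + (-p) * (((-7335900) * u ^ 5 * v ^ 15 + (-12448800) * u ^ 10 * v ^ 10) * q ^ 7 + (-p) * (((-1141140) * u ^ 5 * v ^ 15 + (-26142480) * u ^ 10 * v ^ 10) * q ^ 6 + (-p) * ((1141140 * u ^ 15 * v ^ 5 + (-26142480) * u ^ 10 * v ^ 10) * q ^ 5 + (-p) * ((7335900 * u ^ 15 * v ^ 5 + (-12448800) * u ^ 10 * v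 ^ 10) * q ^ 4 + (-p) * ((14671800 * u ^ 15 * v ^ 5 + (-2667600) * u ^ 10 * v ^ 10) * q ^ 3 + (-p) * ((11411400 * u ^ 15 * v ^ 5 + (-222300) * u ^ 10 * v ^ 10) * q ^ 2 + (-p) * ((3423420 * u ^ 15 * v ^ 5 + (-4940) * u ^ 10 * v ^ 10) * q + (-p) * (((-167960) * u ^ 20 + 311220 * u ^ 15 * v ^ 5)))))))))))))

/-- the coefficient of `m^8 n^12` in `27 u5kfH(u(m - 3np), v(m + 3nq))` -/
def u5kbHc12 (u v p q : R) : R :=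
  14348907 * (((-125970) * v ^ 20 + (-103740) * u ^ 5 * v ^ 15) * q ^ 12 + (-p) * (((-1556100) * u ^ 5 * v ^ 15) * q ^ 11 + (-p) * (((-6846840) * u ^ 5 * v ^ 15 + (-22230) * u ^ 10 * v ^ 10) * q ^ 10 + (-p) * (((-11411400) * u ^ 5 * v ^ 15 + (-592800) * u ^ 10 * v ^ 10) * q ^ 9 + (-p) * (((-7335900) * u ^ 5 * v ^ 15 + (-4668300) * u ^ 10 * v ^ 10) * q ^ 8 + (-p) * (((-1467180) * u ^ 5 * v ^ 15 + (-14938560) * u ^ 10 * v ^ 10) * q ^ 7 + (-p) * (((-21785400) * u ^ 10 * v ^ 10) * q ^ 6 + (-p) * ((1467180 * u ^ 15 * v ^ 5 + (-14938560) * u ^ 10 * v ^ 10) * q ^ 5 + (-p) * ((7335900 * u ^ 15 * v ^ 5 + (-4668300) * u ^ 10 * v ^ 10) * q ^ 4 + (-p) * ((11411400 * u ^ 15 * v ^ 5 + (-592800) * u ^ 10 * v ^ 10) * q ^ 3 + (-p) * ((6846840 * u ^ 15 * v ^ 5 + (-22230) * u ^ 10 * v ^ 10) * q ^ 2 + (-p) * ((1556100 * u ^ 15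 * v ^ 5) * q + (-p) * (((-125970) * u ^ 20 + 103740 * u ^ 15 * v ^ 5))))))))))))))

/-- the coefficient of `m^7 n^13` in `27 u5kfH(u(m - 3np), v(m + 3nq))` -/
def u5kbHc13 (u v p q : R) : R :=
  43046721 * (((-77520) * v ^ 20 + (-23940) * u ^ 5 * v ^ 15) * q ^ 13 + (-p) * (((-518700) * u ^ 5 * v ^ 15) * q ^ 12 + (-p) * (((-3112200) * u ^ 5 * v ^ 15) * q ^ 11 + (-p) * (((-6846840) * u ^ 5 * v ^ 15 + (-59280) * u ^ 10 * v ^ 10) * q ^ 10 + (-p) * (((-5705700) * u ^ 5 * v ^ 15 + (-1037400) * u ^ 10 * v ^ 10) * q ^ 9 + (-p) * (((-1467180) * u ^ 5 * v ^ 15 + (-5601960) * u ^ 10 * v ^ 10) * q ^ 8 + (-p) * (((-12448800) * u ^ 10 * v ^ 10) * q ^ 7 + (-p) * (((-12448800) * u ^ 10 * v ^ 10) * q ^ 6 + (-p) * ((1467180 * u ^ 15 * v ^ 5 + (-5601960) * u ^ 10 * v ^ 10) * q ^ 5 + (-p) * ((5705700 * u ^ 15 * v ^ 5 + (-1037400)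 * u ^ 10 * v ^ 10) * q ^ 4 + (-p) * ((6846840 * u ^ 15 * v ^ 5 + (-59280) * u ^ 10 * v ^ 10) * q ^ 3 + (-p) * ((3112200 * u ^ 15 * v ^ 5) * q ^ 2 + (-p) * ((518700 * u ^ 15 * v ^ 5) * q + (-p) * (((-77520) * u ^ 20 + 23940 * u ^ 15 * v ^ 5)))))))))))))))

/-- the coefficient of `m^6 n^14` in `27 u5kfH(u(m - 3np), v(m + 3nq))` -/
def u5kbHc14 (u v p q : R) : R :=
  129140163 * (((-38760) * v ^ 20 + (-3420) * u ^ 5 * v ^ 15) * q ^ 14 + (-p) * (((-119700) * u ^ 5 * v ^ 15) * q ^ 13 + (-p) * (((-1037400) * u ^ 5 * v ^ 15) * q ^ 12 + (-p) * (((-3112200) * u ^ 5 * v ^ 15) * q ^ 11 + (-p) * (((-3423420) * u ^ 5 * v ^ 15 + (-103740) * u ^ 10 * v ^ 10) * q ^ 10 + (-p) * (((-1141140) * u ^ 5 * v ^ 15 + (-1244880) * u ^ 10 * v ^ 10) * q ^ 9 + (-p) * (((-4668300) * u ^ 10 * v ^ 10) * q ^ 8 + (-p) * (((-7113600) * u ^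 10 * v ^ 10) * q ^ 7 + (-p) * (((-4668300) * u ^ 10 * v ^ 10) * q ^ 6 + (-p) * ((1141140 * u ^ 15 * v ^ 5 + (-1244880) * u ^ 10 * v ^ 10) * q ^ 5 + (-p) * ((3423420 * u ^ 15 * v ^ 5 + (-103740) * u ^ 10 * v ^ 10) * q ^ 4 + (-p) * ((3112200 * u ^ 15 * v ^ 5) * q ^ 3 + (-p) * ((1037400 * u ^ 15 * v ^ 5) * q ^ 2 + (-p) * ((119700 * u ^ 15 * v ^ 5) * q + (-p) * (((-38760) * u ^ 20 + 3420 * u ^ 15 * v ^ 5))))))))))))))))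

/-- the coefficient of `m^5 n^15` in `27 u5kfH(u(m - 3np), v(m + 3nq))` -/
def u5kbHc15 (u v p q : R) : R :=
  387420489 * (((-15504) * v ^ 20 + (-228) * u ^ 5 * v ^ 15) * q ^ 15 + (-p) * (((-17100) * u ^ 5 * v ^ 15) * q ^ 14 + (-p) * (((-239400) * u ^ 5 * v ^ 15) * q ^ 13 + (-p) * (((-1037400) * u ^ 5 * v ^ 15) * q ^ 12 + (-p) * (((-1556100) * u ^ 5 * v ^ 15) * q ^ 11 + (-p) * (((-684684) * u ^ 5 * v ^ 15 + (-124488) * u ^ 10 * v ^ 10) * q ^ 10 + (-p) * (((-1037400) * u ^ 10 * v ^ 10) * q ^ 9 + (-p) * (((-2667600) * u ^ 10 * v ^ 10) * q ^ 8 + (-p) * (((-2667600) * u ^ 10 * v ^ 10) * q ^ 7 + (-p) * (((-1037400) * u ^ 10 * v ^ 10) * q ^ 6 + (-p) * ((684684 * u ^ 15 * v ^ 5 + (-124488) * u ^ 10 * v ^ 10) * q ^ 5 + (-p) * ((1556100 * u ^ 15 * v ^ 5) * q ^ 4 + (-p) * ((1037400 * u ^ 15 * v ^ 5) * q ^ 3 + (-p)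 * ((239400 * u ^ 15 * v ^ 5) * q ^ 2 + (-p) * ((17100 * u ^ 15 * v ^ 5) * q + (-p) * (((-15504) * u ^ 20 + 228 * u ^ 15 * v ^ 5)))))))))))))))))

/-- the coefficient of `m^4 n^16` in `27 u5kfH(u(m - 3np), v(m + 3nq))` -/
def u5kbHc16 (u v p q : R) : R :=
  1162261467 * (((-4845) * v ^ 20) * q ^ 16 + (-p) * (((-1140) * u ^ 5 * v ^ 15) * q ^ 15 + (-p) * (((-34200) * u ^ 5 * v ^ 15) * q ^ 14 + (-p) * (((-239400) * u ^ 5 * v ^ 15) * q ^ 13 + (-p) * (((-518700) * u ^ 5 * v ^ 15) * q ^ 12 + (-p) * (((-311220) * u ^ 5 * v ^ 15) * q ^ 11 + (-p) * (((-103740) * u ^ 10 * v ^ 10) * q ^ 10 + (-p) * (((-592800) * u ^ 10 * v ^ 10) * q ^ 9 + (-p) * (((-1000350) * u ^ 10 * v ^ 10) * q ^ 8 + (-p) * (((-592800) * u ^ 10 * v ^ 10) * q ^ 7 + (-p) * (((-103740) * u ^ 10 * v ^ 10) * q ^ 6 + (-p) * ((311220 * u ^ 15 * v ^ 5) * q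 ^ 5 + (-p) * ((518700 * u ^ 15 * v ^ 5) * q ^ 4 + (-p) * ((239400 * u ^ 15 * v ^ 5) * q ^ 3 + (-p) * ((34200 * u ^ 15 * v ^ 5) * q ^ 2 + (-p) * ((1140 * u ^ 15 * v ^ 5) * q + (-p) * (((-4845) * u ^ 20))))))))))))))))))

/-- the coefficient of `m^3 n^17` in `27 u5kfH(u(m - 3np), v(m + 3nq))` -/
def u5kbHc17 (u v p q : R) : R :=
  3486784401 * (((-1140) * v ^ 20) * q ^ 17 + (-p) * ((-p) * (((-2280) * u ^ 5 * v ^ 15) * q ^ 15 + (-p) * (((-34200) * u ^ 5 * v ^ 15) * q ^ 14 + (-p) * (((-119700) * u ^ 5 * v ^ 15) * q ^ 13 + (-p) * (((-103740) * u ^ 5 * v ^ 15) * q ^ 12 + (-p) * ((-p) * (((-59280) * u ^ 10 * v ^ 10) * q ^ 10 + (-p) * (((-222300) * u ^ 10 * v ^ 10) * q ^ 9 + (-p) * (((-222300) * u ^ 10 * v ^ 10) * q ^ 8 + (-p) * (((-59280) * u ^ 10 * v ^ 10) * q ^ 7 + (-p) * ((-p) * ((103740 * u ^ 15 * v ^ 5) * q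 ^ 5 + (-p) * ((119700 * u ^ 15 * v ^ 5) * q ^ 4 + (-p) * ((34200 * u ^ 15 * v ^ 5) * q ^ 3 + (-p) * ((2280 * u ^ 15 * v ^ 5) * q ^ 2 + (-p) * ((-p) * (((-1140) * u ^ 20)))))))))))))))))))

/-- the coefficient of `m^2 n^18` in `27 u5kfH(u(m - 3np), v(m + 3nq))` -/
def u5kbHc18 (u v p q : R) : R :=
  10460353203 * (((-190) * v ^ 20) * q ^ 18 + (-p) * ((-p) * ((-p) * (((-2280) * u ^ 5 * v ^ 15) * q ^ 15 + (-p) * (((-17100) * u ^ 5 * v ^ 15) * q ^ 14 + (-p) * (((-23940) * u ^ 5 * v ^ 15) * q ^ 13 + (-p) * ((-p) * ((-p) * (((-22230) * u ^ 10 * v ^ 10) * q ^ 10 + (-p) * (((-49400) * u ^ 10 * v ^ 10) * q ^ 9 + (-p) * (((-22230) * u ^ 10 * v ^ 10) * q ^ 8 + (-p) * ((-p) * ((-p) * ((23940 * u ^ 15 * v ^ 5) * q ^ 5 + (-p) * ((17100 * u ^ 15 * v ^ 5) * q ^ 4 + (-p) * ((2280 * u ^ 15 * v ^ 5) * q ^ 3 + (-p) * ((-p) *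 ((-p) * (((-190) * u ^ 20))))))))))))))))))))

/-- the coefficient of `m^1 n^19` in `27 u5kfH(u(m - 3np), v(m + 3nq))` -/
def u5kbHc19 (u v p q : R) : R :=
  31381059609 * (((-20) * v ^ 20) * q ^ 19 + (-p) * ((-p) * ((-p) * ((-p) * (((-1140) * u ^ 5 * v ^ 15) * q ^ 15 + (-p) * (((-3420) * u ^ 5 * v ^ 15) * q ^ 14 + (-p) * ((-p) * ((-p) * ((-p) * (((-4940) * u ^ 10 * v ^ 10) * q ^ 10 + (-p) * (((-4940) * u ^ 10 * v ^ 10) * q ^ 9 + (-p) * ((-p) * ((-p) * ((-p) * ((3420 * u ^ 15 * v ^ 5) * q ^ 5 + (-p) * ((1140 * u ^ 15 * v ^ 5) * q ^ 4 + (-p) * ((-p) * ((-p) * ((-p) * (((-20) * u ^ 20)))))))))))))))))))))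

/-- the coefficient of `m^0 n^20` in `27 u5kfH(u(m - 3np), v(m + 3nq))` -/
def u5kbHc20 (u v p q : R) : R :=
  94143178827 * ((-(v ^ 20)) * q ^ 20 + (-p) * ((-p) * ((-p) * ((-p) * ((-p) * (((-228) * u ^ 5 * v ^ 15) * q ^ 15 + (-p) * ((-p) * ((-p) * ((-p) * ((-p) * (((-494) * u ^ 10 * v ^ 10) * q ^ 10 + (-p) * ((-p) * ((-p) * ((-p) * ((-p) * ((228 * u ^ 15 * v ^ 5) * q ^ 5 + (-p) * ((-p) * ((-p) * ((-p) * ((-p) * ((-(u ^ 20)))))))))))))))))))))))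

theorem u5kbHc_polar (u v p q m n : R) :
    27 * u5kfH (u * (m - 3 * n * p)) (v * (m + 3 * n * q)) =
      m ^ 20 * n ^ 0 * u5kbHc0 u v p q +
      m ^ 19 * n ^ 1 * u5kbHc1 u v p q +
      m ^ 18 * n ^ 2 * u5kbHc2 u v p q +
      m ^ 17 * n ^ 3 * u5kbHc3 u v p q +
      m ^ 16 * n ^ 4 * u5kbHc4 u v p q +
      m ^ 15 * n ^ 5 * u5kbHc5 u v p q +
      m ^ 14 * n ^ 6 * u5kbHc6 u v p q +
      m ^ 13 * n ^ 7 * u5kbHc7 u v p q +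
      m ^ 12 * n ^ 8 * u5kbHc8 u v p q +
      m ^ 11 * n ^ 9 * u5kbHc9 u v p q +
      m ^ 10 * n ^ 10 * u5kbHc10 u v p q +
      m ^ 9 * n ^ 11 * u5kbHc11 u v p q +
      m ^ 8 * n ^ 12 * u5kbHc12 u v p q +
      m ^ 7 * n ^ 13 * u5kbHc13 u v p q +
      m ^ 6 * n ^ 14 * u5kbHc14 u v p q +
      m ^ 5 * n ^ 15 * u5kbHc15 u v p q +
      m ^ 4 * n ^ 16 * u5kbHc16 u v p q +
      m ^ 3 * n ^ 17 * u5kbHc17 u v p q +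
      m ^ 2 * n ^ 18 * u5kbHc18 u v p q +
      m ^ 1 * n ^ 19 * u5kbHc19 u v p q +
      m ^ 0 * n ^ 20 * u5kbHc20 u v p q := by
  simp only [u5kfH, u5kbHc0, u5kbHc1, u5kbHc2, u5kbHc3, u5kbHc4, u5kbHc5, u5kbHc6, u5kbHc7, u5kbHc8, u5kbHc9, u5kbHc10, u5kbHc11, u5kbHc12, u5kbHc13, u5kbHc14, u5kbHc15, u5kbHc16, u5kbHc17, u5kbHc18, u5kbHc19, u5kbHc20]
  ring

theorem u5kbHc0_eq (u v : R) :
    u5kbHc0 u v (u5kbP u v) (u5kbQ u v) = u5cA0 (9 * u5kfH u v) (54 * u5kfT u v) := by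
  simp only [u5kbHc0, u5kbP, u5kbQ, u5cA0, u5kfH, u5kfT]
  ring

theorem u5kbHc1_eq (u v : R) :
    u5kbHc1 u v (u5kbP u v) (u5kbQ u v) = u5cA1 (9 * u5kfH u v) (54 * u5kfT u v) := by
  simp only [u5kbHc1, u5kbP, u5kbQ, u5cA1, u5kfH, u5kfT]
  ring

theorem u5kbHc2_eq (u v : R) :
    u5kbHc2 u v (u5kbP u v) (u5kbQ u v) = u5cA2 (9 * u5kfH u v) (54 * u5kfT u v) := by
  simp only [u5kbHc2, u5kbP, u5kbQ, u5cA2, u5kfH, u5kfT]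
  ring

theorem u5kbHc3_eq (u v : R) :
    u5kbHc3 u v (u5kbP u v) (u5kbQ u v) = u5cA3 (9 * u5kfH u v) (54 * u5kfT u v) := by
  simp only [u5kbHc3, u5kbP, u5kbQ, u5cA3, u5kfH, u5kfT]
  ring

theorem u5kbHc4_eq (u v : R) :
    u5kbHc4 u v (u5kbP u v) (u5kbQ u v) = u5cA4 (9 * u5kfH u v) (54 * u5kfT u v) := by
  simp only [u5kbHc4, u5kbP, u5kbQ, u5cA4, u5kfH, u5kfT]
  ring

theorem u5kbHc5_eq (u v : R) :
    u5kbHc5 u v (u5kbP u v) (u5kbQ u v) = u5cA5 (9 * u5kfH u v) (54 * u5kfT u v) := by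
  simp only [u5kbHc5, u5kbP, u5kbQ, u5cA5, u5kfH, u5kfT]
  ring

theorem u5kbHc6_eq (u v : R) :
    u5kbHc6 u v (u5kbP u v) (u5kbQ u v) = u5cA6 (9 * u5kfH u v) (54 * u5kfT u v) := by
  simp only [u5kbHc6, u5kbP, u5kbQ, u5cA6, u5kfH, u5kfT]
  ring

theorem u5kbHc7_eq (u v : R) :
    u5kbHc7 u v (u5kbP u v) (u5kbQ u v) = u5cA7 (9 * u5kfH u v) (54 * u5kfT u v) := by
  simp only [u5kbHc7, u5kbP, u5kbQ, u5cA7, u5kfH, u5kfT]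
  ring

theorem u5kbHc8_eq (u v : R) :
    u5kbHc8 u v (u5kbP u v) (u5kbQ u v) = u5cA8 (9 * u5kfH u v) (54 * u5kfT u v) := by
  simp only [u5kbHc8, u5kbP, u5kbQ, u5cA8, u5kfH, u5kfT]
  ring

theorem u5kbHc9_eq (u v : R) :
    u5kbHc9 u v (u5kbP u v) (u5kbQ u v) = u5cA9 (9 * u5kfH u v) (54 * u5kfT u v) := by
  simp only [u5kbHc9, u5kbP, u5kbQ, u5cA9, u5kfH, u5kfT]
  ring

theorem u5kbHc10_eq (u v : R) :
    u5kbHc10 u v (u5kbP u v) (u5kbQ u v) = u5cA10 (9 * u5kfH u v) (54 * u5kfT u v) := by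
  simp only [u5kbHc10, u5kbP, u5kbQ, u5cA10, u5kfH, u5kfT]
  ring

theorem u5kbHc11_eq (u v : R) :
    u5kbHc11 u v (u5kbP u v) (u5kbQ u v) = u5cA11 (9 * u5kfH u v) (54 * u5kfT u v) := by
  simp only [u5kbHc11, u5kbP, u5kbQ, u5cA11, u5kfH, u5kfT]
  ring

theorem u5kbHc12_eq (u v : R) :
    u5kbHc12 u v (u5kbP u v) (u5kbQ u v) = u5cA12 (9 * u5kfH u v) (54 * u5kfT u v) := by
  simp only [u5kbHc12, u5kbP, u5kbQ, u5cA12, u5kfH, u5kfT]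
  ring

theorem u5kbHc13_eq (u v : R) :
    u5kbHc13 u v (u5kbP u v) (u5kbQ u v) = u5cA13 (9 * u5kfH u v) (54 * u5kfT u v) := by
  simp only [u5kbHc13, u5kbP, u5kbQ, u5cA13, u5kfH, u5kfT]
  ring

theorem u5kbHc14_eq (u v : R) :
    u5kbHc14 u v (u5kbP u v) (u5kbQ u v) = u5cA14 (9 * u5kfH u v) (54 * u5kfT u v) := by
  simp only [u5kbHc14, u5kbP, u5kbQ, u5cA14, u5kfH, u5kfT]
  ring

theorem u5kbHc15_eq (u v : R) :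
    u5kbHc15 u v (u5kbP u v) (u5kbQ u v) = u5cA15 (9 * u5kfH u v) (54 * u5kfT u v) := by
  simp only [u5kbHc15, u5kbP, u5kbQ, u5cA15, u5kfH, u5kfT]
  ring

theorem u5kbHc16_eq (u v : R) :
    u5kbHc16 u v (u5kbP u v) (u5kbQ u v) = u5cA16 (9 * u5kfH u v) (54 * u5kfT u v) := by
  simp only [u5kbHc16, u5kbP, u5kbQ, u5cA16, u5kfH, u5kfT]
  ring

theorem u5kbHc17_eq (u v : R) :
    u5kbHc17 u v (u5kbP u v) (u5kbQ u v) = u5cA17 (9 * u5kfH u v) (54 * u5kfT u v) := by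
  simp only [u5kbHc17, u5kbP, u5kbQ, u5cA17, u5kfH, u5kfT]
  ring

theorem u5kbHc18_eq (u v : R) :
    u5kbHc18 u v (u5kbP u v) (u5kbQ u v) = u5cA18 (9 * u5kfH u v) (54 * u5kfT u v) := by
  simp only [u5kbHc18, u5kbP, u5kbQ, u5cA18, u5kfH, u5kfT]
  ring

theorem u5kbHc19_eq (u v : R) :
    u5kbHc19 u v (u5kbP u v) (u5kbQ u v) = u5cA19 (9 * u5kfH u v) (54 * u5kfT u v) := by
  simp only [u5kbHc19, u5kbP, u5kbQ, u5cA19, u5kfH, u5kfT]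
  ring

theorem u5kbHc20_eq (u v : R) :
    u5kbHc20 u v (u5kbP u v) (u5kbQ u v) = u5cA20 (9 * u5kfH u v) (54 * u5kfT u v) := by
  simp only [u5kbHc20, u5kbP, u5kbQ, u5cA20, u5kfH, u5kfT]
  ring

/-- **(K8)**: `27 u5kfH(Φ_{m,n} w) = u5fA (9 H(w)) (54 T(w)) m n`. -/
theorem u5kb_H (u v m n : R) :
    27 * u5kfH (u5kbPhi1 m n u v) (u5kbPhi2 m n u v) =
      u5fA (9 * u5kfH u v) (54 * u5kfT u v) m n := by
  rw [u5kbPhi1_eq, u5kbPhi2_eq, u5kbHc_polar, u5kbHc0_eq, u5kbHc1_eq, u5kbHc2_eq, u5kbHc3_eq, u5kbHc4_eq, u5kbHc5_eq, u5kbHc6_eq, u5kbHc7_eq, u5kbHc8_eq, u5kbHc9_eq, u5kbHc10_eq, u5kbHc11_eq, u5kbHc12_eq, u5kbHc13_eq, u5kbHc14_eq, u5kbHc15_eq, u5kbHc16_eq, u5kbHc17_eq, u5kbHc18_eq, u5kbHc19_eq, u5kbHc20_eq]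
  simp only [u5fA]
  ring

end Fermat.Agent.U5
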