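import Fermat.Agent.U5.KL.BridgeDefs

/-!
# Program U (S52), Klein route, KL/Bridge : `f_v = u·p`, `f_u = v·q`
Prefix `u5kb`.
-/

set_option autoImplicit false

namespace Fermat.Agent.U5

variable {R : Type*} [CommRing R]

/-- `f_v / u` -/
def u5kbP (u v : R) : R := u ^ 10 + 66 * u ^ 5 * v ^ 5 - 11 * v ^ 10

/-- `f_u / v` -/
def u5kbQ (u v : R) : R := 11 * u ^ 10 + 66 * u ^ 5 * v ^ 5 - v ^ 10

theorem u5kbFv_eq (u v : R) : u5kbFv u v = u * u5kbP u v := by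
  simp only [u5kbFv, u5kbP]; ring

theorem u5kbFu_eq (u v : R) : u5kbFu u v = v * u5kbQ u v := by
  simp only [u5kbFu, u5kbQ]; ring

theorem u5kbPhi1_eq (m n u v : R) : u5kbPhi1 m n u v = u * (m - 3 * n * u5kbP u v) := by
  simp only [u5kbPhi1, u5kbFv_eq]; ring

theorem u5kbPhi2_eq (m n u v : R) : u5kbPhi2 m n u v = v * (m + 3 * n * u5kbQ u v) := by
  simp only [u5kbPhi2, u5kbFu_eq]; ring

end Fermat.Agent.U5
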