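import Mathlib

/-!
# Program U (S52), Klein route, KL/Point : generic part (no `ζ`)

* short Weierstrass curves `y² = x³ + A x + B` (`a₁ = a₂ = a₃ = 0`) : equation, discriminant, polynomial
  criteria for `P + Q = R` (chord, `u5kw_add_of_chord`) and `P + P = R` (tangent, `u5kw_dbl_of_tangent`);
* Tate's normal form for a point of order `5`, homogenised : on
  `y² = x³ - 27 κ⁴ c₄(s,t) x - 54 κ⁶ c₆(s,t)` the point
  `P₁ = (3κ²(s² - 6st + t²), -108κ³ s t²)` satisfies `2P₁ = (3κ²(s² + 6st + t²), 108κ³ s² t)`,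
  `4P₁ = -P₁`, hence `5 • P₁ = 0` (`u5kw_five`).

Prefix `u5kw`.
-/

set_option autoImplicit false
set_option linter.unusedSectionVars false

namespace Fermat.Agent.U5

open WeierstrassCurve WeierstrassCurve.Affine

section Short

variable {K : Type*} [Field K] (W : Affine K)

/-- a short Weierstrass curve -/
def U5kwShort : Prop := W.a₁ = 0 ∧ W.a₂ = 0 ∧ W.a₃ = 0

variable {W}

theorem u5kw_equation (hW : U5kwShort W) (x y : K) :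
    W.Equation x y ↔ y ^ 2 = x ^ 3 + W.a₄ * x + W.a₆ := by
  obtain ⟨h1, h2, h3⟩ := hW
  rw [equation_iff, h1, h2, h3]
  constructor
  · intro h; linear_combination h
  · intro h; linear_combination h

theorem u5kw_Δ (hW : U5kwShort W) : W.Δ = -16 * (4 * W.a₄ ^ 3 + 27 * W.a₆ ^ 2) := by
  obtain ⟨h1, h2, h3⟩ := hW
  simp only [WeierstrassCurve.Δ, WeierstrassCurve.b₂, WeierstrassCurve.b₄, WeierstrassCurve.b₆,
    WeierstrassCurve.b₈, h1, h2, h3]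
  ring

theorem u5kw_Δ_ne_zero [CharZero K] (hW : U5kwShort W)
    (hd : 4 * W.a₄ ^ 3 + 27 * W.a₆ ^ 2 ≠ 0) : W.Δ ≠ 0 := by
  rw [u5kw_Δ hW]
  exact mul_ne_zero (by norm_num) hd

theorem u5kw_nonsingular [CharZero K] (hW : U5kwShort W)
    (hd : 4 * W.a₄ ^ 3 + 27 * W.a₆ ^ 2 ≠ 0) {x y : K}
    (h : y ^ 2 = x ^ 3 + W.a₄ * x + W.a₆) : W.Nonsingular x y :=
  (equation_iff_nonsingular_of_Δ_ne_zero (u5kw_Δ_ne_zero hW hd)).mp ((u5kw_equation hW x y).mpr h)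

theorem u5kw_negY (hW : U5kwShort W) (x y : K) : W.negY x y = -y := by
  obtain ⟨h1, _, h3⟩ := hW
  simp [negY, h1, h3]

theorem u5kw_neg_some (hW : U5kwShort W) {x y : K} (h : W.Nonsingular x y)
    (h' : W.Nonsingular x (-y)) : -Point.some x y h = Point.some x (-y) h' := by
  rw [Point.neg_some]
  congr 1
  exact u5kw_negY hW x y

variable [DecidableEq K]

/-- **chord criterion** : `(x₁,y₁) + (x₂,y₂) = (x₃,y₃)` from two polynomial identities, `x₁ ≠ x₂` -/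
theorem u5kw_add_of_chord (hW : U5kwShort W) {x₁ y₁ x₂ y₂ x₃ y₃ : K}
    (h₁ : W.Nonsingular x₁ y₁) (h₂ : W.Nonsingular x₂ y₂) (h₃ : W.Nonsingular x₃ y₃)
    (hx : x₁ ≠ x₂)
    (hX : (y₁ - y₂) ^ 2 = (x₁ + x₂ + x₃) * (x₁ - x₂) ^ 2)
    (hY : y₃ * (x₁ - x₂) = -((y₁ - y₂) * (x₃ - x₁) + y₁ * (x₁ - x₂))) :
    Point.some x₁ y₁ h₁ + Point.some x₂ y₂ h₂ = Point.some x₃ y₃ h₃ := by
  obtain ⟨e1, e2, e3⟩ := hW
  have hne : x₁ - x₂ ≠ 0 := sub_ne_zero.mpr hx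
  rw [Point.add_of_X_ne hx]
  have hXe : W.addX x₁ x₂ (W.slope x₁ x₂ y₁ y₂) = x₃ := by
    rw [slope_of_X_ne hx]
    simp only [addX, e1, e2]
    field_simp
    linear_combination hX
  have hYe : W.addY x₁ x₂ y₁ (W.slope x₁ x₂ y₁ y₂) = y₃ := by
    rw [addY, hXe, negAddY, hXe, slope_of_X_ne hx]
    simp only [negY, e1, e3]
    field_simp
    linear_combination -hY
  simp only [hXe, hYe]

/-- **tangent criterion** : `2 (x₁,y₁) = (x₃,y₃)` from two polynomial identities, `y₁ ≠ 0` -/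
theorem u5kw_dbl_of_tangent [CharZero K] (hW : U5kwShort W) {x₁ y₁ x₃ y₃ : K}
    (h₁ : W.Nonsingular x₁ y₁) (h₃ : W.Nonsingular x₃ y₃) (hy : y₁ ≠ 0)
    (hX : (3 * x₁ ^ 2 + W.a₄) ^ 2 = (2 * x₁ + x₃) * (2 * y₁) ^ 2)
    (hY : y₃ * (2 * y₁) = -((3 * x₁ ^ 2 + W.a₄) * (x₃ - x₁) + y₁ * (2 * y₁))) :
    Point.some x₁ y₁ h₁ + Point.some x₁ y₁ h₁ = Point.some x₃ y₃ h₃ := by
  have hnegY := u5kw_negY hW x₁ y₁
  obtain ⟨e1, e2, e3⟩ := hW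
  have hyn : y₁ ≠ W.negY x₁ y₁ := by
    rw [hnegY]
    intro h
    apply hy
    have : 2 * y₁ = 0 := by linear_combination h
    rcases mul_eq_zero.mp this with h | h
    · exact absurd h (by norm_num)
    · exact h
  rw [Point.add_self_of_Y_ne hyn]
  have hsl : W.slope x₁ x₁ y₁ y₁ = (3 * x₁ ^ 2 + W.a₄) / (2 * y₁) := by
    rw [slope_of_Y_ne rfl hyn, hnegY, e1, e2]
    congr 1 <;> ring
  have hXe : W.addX x₁ x₁ (W.slope x₁ x₁ y₁ y₁) = x₃ := by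
    rw [hsl]
    simp only [addX, e1, e2]
    field_simp
    linear_combination hX
  have hYe : W.addY x₁ x₁ y₁ (W.slope x₁ x₁ y₁ y₁) = y₃ := by
    rw [addY, hXe, negAddY, hXe, hsl]
    simp only [negY, e1, e3]
    field_simp
    linear_combination -hY
  simp only [hXe, hYe]

end Short

section Tate

variable {K : Type*} [Field K]

/-- `c₄` of Tate's normal form `E_b`, homogenised (`b = s/t`) -/
def u5kwC4 (s t : K) : K := s ^ 4 - 12 * s ^ 3 * t + 14 * s ^ 2 * t ^ 2 + 12 * s * t ^ 3 + t ^ 4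

/-- `c₆` of Tate's normal form, homogenised -/
def u5kwC6 (s t : K) : K :=
  -(s ^ 6 - 18 * s ^ 5 * t + 75 * s ^ 4 * t ^ 2 + 75 * s ^ 2 * t ^ 4 + 18 * s * t ^ 5 + t ^ 6)

/-- the coefficient `A = -27 κ⁴ c₄(s,t)` -/
def u5kwA (κ s t : K) : K := -27 * κ ^ 4 * u5kwC4 s t

/-- the coefficient `B = -54 κ⁶ c₆(s,t)` -/
def u5kwB (κ s t : K) : K := -54 * κ ^ 6 * u5kwC6 s t

def u5kwX1 (κ s t : K) : K := 3 * κ ^ 2 * (s ^ 2 - 6 * s * t + t ^ 2)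
def u5kwY1 (κ s t : K) : K := -108 * κ ^ 3 * s * t ^ 2
def u5kwX2 (κ s t : K) : K := 3 * κ ^ 2 * (s ^ 2 + 6 * s * t + t ^ 2)
def u5kwY2 (κ s t : K) : K := 108 * κ ^ 3 * s ^ 2 * t

theorem u5kw_on₁ (κ s t : K) :
    u5kwY1 κ s t ^ 2 = u5kwX1 κ s t ^ 3 + u5kwA κ s t * u5kwX1 κ s t + u5kwB κ s t := by
  simp only [u5kwY1, u5kwX1, u5kwA, u5kwB, u5kwC4, u5kwC6]
  ring

theorem u5kw_on₂ (κ s t : K) :
    u5kwY2 κ s t ^ 2 = u5kwX2 κ s t ^ 3 + u5kwA κ s t * u5kwX2 κ s t + u5kwB κ s t := by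
  simp only [u5kwY2, u5kwX2, u5kwA, u5kwB, u5kwC4, u5kwC6]
  ring

/-- the discriminant : `4A³ + 27B² = -2⁸ 3¹² κ¹² (st)⁵ (s² - 11st - t²)` -/
theorem u5kw_disc (κ s t : K) :
    4 * u5kwA κ s t ^ 3 + 27 * u5kwB κ s t ^ 2
      = -(2 ^ 8 * 3 ^ 12) * κ ^ 12 * (s * t) ^ 5 * (s ^ 2 - 11 * s * t - t ^ 2) := by
  simp only [u5kwA, u5kwB, u5kwC4, u5kwC6]
  ring

/-- `A = -3 X1² - 6 κ (s - t) Y1` -/
theorem u5kw_A_eq (κ s t : K) :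
    u5kwA κ s t = -3 * u5kwX1 κ s t ^ 2 - 6 * κ * (s - t) * u5kwY1 κ s t := by
  simp only [u5kwA, u5kwC4, u5kwX1, u5kwY1]
  ring

theorem u5kw_X2_sub_X1 (κ s t : K) : u5kwX2 κ s t - u5kwX1 κ s t = 36 * κ ^ 2 * (s * t) := by
  simp only [u5kwX2, u5kwX1]
  ring

variable [CharZero K] {W : Affine K}

/-- the points `P₁`, `P₂` are nonsingular points of `W` as soon as `W` is the curve `(A, B)(κ,s,t)`
with non-zero discriminant -/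
theorem u5kw_nonsing₁ (hW : U5kwShort W) {κ s t : K} (hA : W.a₄ = u5kwA κ s t)
    (hB : W.a₆ = u5kwB κ s t) (hd : 4 * W.a₄ ^ 3 + 27 * W.a₆ ^ 2 ≠ 0) :
    W.Nonsingular (u5kwX1 κ s t) (u5kwY1 κ s t) :=
  u5kw_nonsingular hW hd (by rw [hA, hB]; exact u5kw_on₁ κ s t)

theorem u5kw_nonsing₂ (hW : U5kwShort W) {κ s t : K} (hA : W.a₄ = u5kwA κ s t)
    (hB : W.a₆ = u5kwB κ s t) (hd : 4 * W.a₄ ^ 3 + 27 * W.a₆ ^ 2 ≠ 0) :
    W.Nonsingular (u5kwX2 κ s t) (u5kwY2 κ s t) :=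
  u5kw_nonsingular hW hd (by rw [hA, hB]; exact u5kw_on₂ κ s t)

theorem u5kw_nonsing₁' (hW : U5kwShort W) {κ s t : K} (hA : W.a₄ = u5kwA κ s t)
    (hB : W.a₆ = u5kwB κ s t) (hd : 4 * W.a₄ ^ 3 + 27 * W.a₆ ^ 2 ≠ 0) :
    W.Nonsingular (u5kwX1 κ s t) (-u5kwY1 κ s t) :=
  u5kw_nonsingular hW hd (by rw [hA, hB, neg_sq]; exact u5kw_on₁ κ s t)

theorem u5kw_nonsing₂' (hW : U5kwShort W) {κ s t : K} (hA : W.a₄ = u5kwA κ s t)
    (hB : W.a₆ = u5kwB κ s t) (hd : 4 * W.a₄ ^ 3 + 27 * W.a₆ ^ 2 ≠ 0) :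
    W.Nonsingular (u5kwX2 κ s t) (-u5kwY2 κ s t) :=
  u5kw_nonsingular hW hd (by rw [hA, hB, neg_sq]; exact u5kw_on₂ κ s t)

variable [DecidableEq K]

/-- `2 P₁ = P₂` -/
theorem u5kw_two_P1 (hW : U5kwShort W) {κ s t : K} (hA : W.a₄ = u5kwA κ s t)
    (hκ : κ ≠ 0) (hs : s ≠ 0) (ht : t ≠ 0)
    (h₁ : W.Nonsingular (u5kwX1 κ s t) (u5kwY1 κ s t))
    (h₂ : W.Nonsingular (u5kwX2 κ s t) (u5kwY2 κ s t)) :
    Point.some _ _ h₁ + Point.some _ _ h₁ = Point.some _ _ h₂ := by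
  refine u5kw_dbl_of_tangent hW h₁ h₂ ?_ ?_ ?_
  · simp only [u5kwY1]
    exact mul_ne_zero (mul_ne_zero (mul_ne_zero (by norm_num) (pow_ne_zero _ hκ)) hs)
      (pow_ne_zero _ ht)
  · rw [hA]
    simp only [u5kwY1, u5kwX1, u5kwX2, u5kwA, u5kwC4]
    ring
  · rw [hA]
    simp only [u5kwY1, u5kwX1, u5kwX2, u5kwY2, u5kwA, u5kwC4]
    ring

/-- `2 P₂ = (X1, -Y1)` -/
theorem u5kw_two_P2 (hW : U5kwShort W) {κ s t : K} (hA : W.a₄ = u5kwA κ s t)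
    (hκ : κ ≠ 0) (hs : s ≠ 0) (ht : t ≠ 0)
    (h₂ : W.Nonsingular (u5kwX2 κ s t) (u5kwY2 κ s t))
    (h₁' : W.Nonsingular (u5kwX1 κ s t) (-u5kwY1 κ s t)) :
    Point.some _ _ h₂ + Point.some _ _ h₂ = Point.some _ _ h₁' := by
  refine u5kw_dbl_of_tangent hW h₂ h₁' ?_ ?_ ?_
  · simp only [u5kwY2]
    exact mul_ne_zero (mul_ne_zero (mul_ne_zero (by norm_num) (pow_ne_zero _ hκ))
      (pow_ne_zero _ hs)) ht
  · rw [hA]
    simp only [u5kwY2, u5kwX1, u5kwX2, u5kwA, u5kwC4]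
    ring
  · rw [hA]
    simp only [u5kwY1, u5kwX1, u5kwX2, u5kwY2, u5kwA, u5kwC4]
    ring

/-- `4 P₁ = -P₁`, in the form `2 P₂ = -P₁` -/
theorem u5kw_two_P2_eq_neg (hW : U5kwShort W) {κ s t : K} (hA : W.a₄ = u5kwA κ s t)
    (hB : W.a₆ = u5kwB κ s t) (hd : 4 * W.a₄ ^ 3 + 27 * W.a₆ ^ 2 ≠ 0)
    (hκ : κ ≠ 0) (hs : s ≠ 0) (ht : t ≠ 0)
    (h₁ : W.Nonsingular (u5kwX1 κ s t) (u5kwY1 κ s t))
    (h₂ : W.Nonsingular (u5kwX2 κ s t) (u5kwY2 κ s t)) :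
    Point.some _ _ h₂ + Point.some _ _ h₂ = -Point.some _ _ h₁ := by
  rw [u5kw_two_P2 hW hA hκ hs ht h₂ (u5kw_nonsing₁' hW hA hB hd),
    u5kw_neg_some hW h₁ (u5kw_nonsing₁' hW hA hB hd)]

/-- **`5 • P₁ = 0`** -/
theorem u5kw_five (hW : U5kwShort W) {κ s t : K} (hA : W.a₄ = u5kwA κ s t)
    (hB : W.a₆ = u5kwB κ s t) (hd : 4 * W.a₄ ^ 3 + 27 * W.a₆ ^ 2 ≠ 0)
    (hκ : κ ≠ 0) (hs : s ≠ 0) (ht : t ≠ 0)
    (h₁ : W.Nonsingular (u5kwX1 κ s t) (u5kwY1 κ s t)) :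
    (5 : ℤ) • Point.some _ _ h₁ = 0 := by
  have h₂ := u5kw_nonsing₂ hW hA hB hd
  have e1 := u5kw_two_P1 hW hA hκ hs ht h₁ h₂
  have e2 := u5kw_two_P2_eq_neg hW hA hB hd hκ hs ht h₁ h₂
  have : (5 : ℤ) • Point.some _ _ h₁
      = ((Point.some _ _ h₁ + Point.some _ _ h₁) + (Point.some _ _ h₁ + Point.some _ _ h₁))
        + Point.some _ _ h₁ := by abel
  rw [this, e1, e2, neg_add_cancel]

/-- `2 • P₁ = P₂` as a multiple -/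
theorem u5kw_two_smul (hW : U5kwShort W) {κ s t : K} (hA : W.a₄ = u5kwA κ s t)
    (hκ : κ ≠ 0) (hs : s ≠ 0) (ht : t ≠ 0)
    (h₁ : W.Nonsingular (u5kwX1 κ s t) (u5kwY1 κ s t))
    (h₂ : W.Nonsingular (u5kwX2 κ s t) (u5kwY2 κ s t)) :
    (2 : ℤ) • Point.some _ _ h₁ = Point.some _ _ h₂ := by
  rw [two_smul]
  exact u5kw_two_P1 hW hA hκ hs ht h₁ h₂

end Tate

end Fermat.Agent.U5
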