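import Fermat.Agent.U5.KL.Fibre
import Fermat.Agent.U5.KL.PointGen

/-!
# Program U (S52), Klein route, KL/Point : the generated `ζ`-identities (prefix `u5ki`)

GENERATED by a script (exact arithmetic in `ℚ(ζ₅)`); every identity is checked by
`linear_combination (cofactor) * hζ`, `hζ : ζ⁴ + ζ³ + ζ² + ζ + 1 = 0`.

Constants (reduced cubic polynomials in `ζ`) : `u5kiE5 ζ = ε⁵`, `u5kiKap ζ = κ`, `u5kiSa ζ`, `u5kiSb ζ` (entries of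
`Ŝ = [[a, b], [b, -a]]`).  Forms : `u5kiHq`, `u5kiTq` (`H`, `T` as forms in `U = u⁵`, `V = v⁵`), `u5kiUe`, `u5kiVe`
(`(Ŝw)₁⁵`, `(Ŝw)₂⁵`), `u5kiX1e … u5kiY2e` (coordinates of `P₁`, `2P₁` in `U, V`), `u5kiXS`, `u5kiYS ∈ ℤ[u,v]`
(coordinates of `P₁ ∘ Ŝ`), `u5kiXSTe`, `u5kiYSTe` (`= (XS, YS) ∘ T̂`), `u5kiQ1`, `u5kiQ2` (separation cofactors).
-/

set_option autoImplicit false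
set_option linter.unusedSectionVars false
set_option maxHeartbeats 4000000
set_option maxRecDepth 100000

namespace Fermat.Agent.U5

variable {K : Type*} [Field K] [CharZero K]

/-- `ε⁵` -/
def u5kiE5 (ζ : K) : K := 3 - 5 * ζ ^ 2 - 5 * ζ ^ 3
/-- `κ` -/
def u5kiKap (ζ : K) : K := (3 + 6 * ζ - ζ ^ 2 + 7 * ζ ^ 3) / 5
def u5kiSa (ζ : K) : K := (-1 - 2 * ζ - 3 * ζ ^ 2 + ζ ^ 3) / 5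
def u5kiSb (ζ : K) : K := (2 + 4 * ζ + ζ ^ 2 + 3 * ζ ^ 3) / 5
/-- `s = ε⁵ U - V` -/
def u5kiSs (ζ U V : K) : K := u5kiE5 ζ * U - V
/-- `t = U + ε⁵ V` -/
def u5kiSt (ζ U V : K) : K := U + u5kiE5 ζ * V
def u5kiHq (U V : K) : K := -(U ^ 4 + V ^ 4) + 228 * (U ^ 3 * V - U * V ^ 3) - 494 * U ^ 2 * V ^ 2
def u5kiTq (U V : K) : K :=
  U ^ 6 + V ^ 6 + 522 * (U ^ 5 * V - U * V ^ 5) - 10005 * (U ^ 4 * V ^ 2 + U ^ 2 * V ^ 4)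
def u5kiUe (ζ u v : K) : K :=
  (3 / 25) * v ^ 5 + (1 / 5) * u * v ^ 4 + (4 / 5) * u ^ 2 * v ^ 3 + (-2 / 5) * u ^ 3 * v ^ 2 + (3 / 5) * u ^ 4 * v + (-4 / 25) * u ^ 5 + (6 / 25) * ζ * v ^ 5 + (2 / 5) * ζ * u * v ^ 4 + (8 / 5) * ζ * u ^ 2 * v ^ 3 + (-4 / 5) * ζ * u ^ 3 * v ^ 2 + (6 / 5) * ζ * u ^ 4 * v + (-8 / 25) * ζ * u ^ 5 + (-1 / 25) * ζ ^ 2 * v ^ 5 + (-2 / 5) * ζ ^ 2 * u * v ^ 4 + (2 / 5) * ζ ^ 2 * u ^ 2 * v ^ 3 + (-6 / 5) * ζ ^ 2 * u ^ 3 * v ^ 2 + (4 / 5) * ζ ^ 2 * u ^ 4 * v + (-7 / 25) * ζ ^ 2 * u ^ 5 + (7 / 25) * ζ ^ 3 * v ^ 5 + (4 / 5) * ζ ^ 3 * u * v ^ 4 + (6 / 5) * ζ ^ 3 * u ^ 2 * v ^ 3 + (2 / 5) * ζ ^ 3 * u ^ 3 * v ^ 2 + (2 / 5) * ζ ^ 3 * u ^ 4 * v + (-1 / 25) * ζ ^ 3 * u ^ 5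
def u5kiVe (ζ u v : K) : K :=
  (4 / 25) * v ^ 5 + (3 / 5) * u * v ^ 4 + (2 / 5) * u ^ 2 * v ^ 3 + (4 / 5) * u ^ 3 * v ^ 2 + (-1 / 5) * u ^ 4 * v + (3 / 25) * u ^ 5 + (8 / 25) * ζ * v ^ 5 + (6 / 5) * ζ * u * v ^ 4 + (4 / 5) * ζ * u ^ 2 * v ^ 3 + (8 / 5) * ζ * u ^ 3 * v ^ 2 + (-2 / 5) * ζ * u ^ 4 * v + (6 / 25) * ζ * u ^ 5 + (7 / 25) * ζ ^ 2 * v ^ 5 + (4 / 5) * ζ ^ 2 * u * v ^ 4 + (6 / 5) * ζ ^ 2 * u ^ 2 * v ^ 3 + (2 / 5) * ζ ^ 2 * u ^ 3 * v ^ 2 + (2 / 5) * ζ ^ 2 * u ^ 4 * v + (-1 / 25) * ζ ^ 2 * u ^ 5 + (1 / 25) * ζ ^ 3 * v ^ 5 + (2 / 5) * ζ ^ 3 * u * v ^ 4 + (-2 / 5) * ζ ^ 3 * u ^ 2 * v ^ 3 + (6 / 5) * ζ ^ 3 * u ^ 3 * v ^ 2 + (-4 / 5) * ζ ^ 3 * u ^ 4 * v + (7 / 25) * ζ ^ 3 * u ^ 5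
/-- `s ∘ Ŝ` -/
def u5kiSsS (ζ u v : K) : K :=
  (-2) * u * v ^ 4 + (4) * u ^ 2 * v ^ 3 + (-8) * u ^ 3 * v ^ 2 + (6) * u ^ 4 * v + (-2) * u ^ 5 + (-4) * ζ * u * v ^ 4 + (8) * ζ * u ^ 2 * v ^ 3 + (-16) * ζ * u ^ 3 * v ^ 2 + (12) * ζ * u ^ 4 * v + (-4) * ζ * u ^ 5 + (-3) * ζ ^ 2 * u * v ^ 4 + (6) * ζ ^ 2 * u ^ 2 * v ^ 3 + (-12) * ζ ^ 2 * u ^ 3 * v ^ 2 + (9) * ζ ^ 2 * u ^ 4 * v + (-3) * ζ ^ 2 * u ^ 5 + (-1) * ζ ^ 3 * u * v ^ 4 + (2) * ζ ^ 3 * u ^ 2 * v ^ 3 + (-4) * ζ ^ 3 * u ^ 3 * v ^ 2 + (3) * ζ ^ 3 * u ^ 4 * v + (-1) * ζ ^ 3 * u ^ 5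
/-- `t ∘ Ŝ` -/
def u5kiStS (ζ u v : K) : K :=
  (2) * v ^ 5 + (6) * u * v ^ 4 + (8) * u ^ 2 * v ^ 3 + (4) * u ^ 3 * v ^ 2 + (2) * u ^ 4 * v + (4) * ζ * v ^ 5 + (12) * ζ * u * v ^ 4 + (16) * ζ * u ^ 2 * v ^ 3 + (8) * ζ * u ^ 3 * v ^ 2 + (4) * ζ * u ^ 4 * v + (3) * ζ ^ 2 * v ^ 5 + (9) * ζ ^ 2 * u * v ^ 4 + (12) * ζ ^ 2 * u ^ 2 * v ^ 3 + (6) * ζ ^ 2 * u ^ 3 * v ^ 2 + (3) * ζ ^ 2 * u ^ 4 * v + (1) * ζ ^ 3 * v ^ 5 + (3) * ζ ^ 3 * u * v ^ 4 + (4) * ζ ^ 3 * u ^ 2 * v ^ 3 + (2) * ζ ^ 3 * u ^ 3 * v ^ 2 + (1) * ζ ^ 3 * u ^ 4 * v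
def u5kiX1e (ζ U V : K) : K :=
  (-57 / 5) * V ^ 2 + (-198 / 5) * U * V + (-93 / 5) * U ^ 2 + (36 / 5) * ζ ^ 2 * V ^ 2 + (-396 / 5) * ζ ^ 2 * U * V + (-36 / 5) * ζ ^ 2 * U ^ 2 + (36 / 5) * ζ ^ 3 * V ^ 2 + (-396 / 5) * ζ ^ 3 * U * V + (-36 / 5) * ζ ^ 3 * U ^ 2
def u5kiY1e (ζ U V : K) : K :=
  (-216 / 5) * V ^ 3 + (2484 / 5) * U * V ^ 2 + (-972 / 5) * U ^ 2 * V + (-108 / 5) * U ^ 3 + (-432 / 5) * ζ * V ^ 3 + (4968 / 5) * ζ * U * V ^ 2 + (-1944 / 5) * ζ * U ^ 2 * V + (-216 / 5) * ζ * U ^ 3 + (-324 / 5) * ζ ^ 2 * V ^ 3 + (3456 / 5) * ζ ^ 2 * U * V ^ 2 + (1512 / 5) * ζ ^ 2 * U ^ 2 * V + (108 / 5) * ζ ^ 2 * U ^ 3 + (-108 / 5) * ζ ^ 3 * V ^ 3 + (1512 / 5) * ζ ^ 3 * U * V ^ 2 + (-3456 / 5) * ζ ^ 3 * U ^ 2 * V + (-324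 / 5) * ζ ^ 3 * U ^ 3
def u5kiX2e (ζ U V : K) : K :=
  (-93 / 5) * V ^ 2 + (198 / 5) * U * V + (-57 / 5) * U ^ 2 + (-36 / 5) * ζ ^ 2 * V ^ 2 + (396 / 5) * ζ ^ 2 * U * V + (36 / 5) * ζ ^ 2 * U ^ 2 + (-36 / 5) * ζ ^ 3 * V ^ 2 + (396 / 5) * ζ ^ 3 * U * V + (36 / 5) * ζ ^ 3 * U ^ 2
def u5kiY2e (ζ U V : K) : K :=
  (108 / 5) * V ^ 3 + (-972 / 5) * U * V ^ 2 + (-2484 / 5) * U ^ 2 * V + (-216 / 5) * U ^ 3 + (216 / 5) * ζ * V ^ 3 + (-1944 / 5) * ζ * U * V ^ 2 + (-4968 / 5) * ζ * U ^ 2 * V + (-432 / 5) * ζ * U ^ 3 + (-108 / 5) * ζ ^ 2 * V ^ 3 + (1512 / 5) * ζ ^ 2 * U * V ^ 2 + (-3456 / 5) * ζ ^ 2 * U ^ 2 * V + (-324 / 5) * ζ ^ 2 * U ^ 3 + (324 / 5) * ζ ^ 3 * V ^ 3 + (-3456 / 5) * ζ ^ 3 * U * V ^ 2 + (-1512 / 5) * ζ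 ^ 3 * U ^ 2 * V + (-108 / 5) * ζ ^ 3 * U ^ 3
def u5kiXS (u v : K) : K :=
  (3) * v ^ 10 + (36) * u * v ^ 9 + (72) * u ^ 2 * v ^ 8 + (108) * u ^ 3 * v ^ 7 + (180) * u ^ 4 * v ^ 6 + (90) * u ^ 5 * v ^ 5 + (72) * u ^ 6 * v ^ 4 + (-36) * u ^ 7 * v ^ 3 + (36) * u ^ 8 * v ^ 2 + (3) * u ^ 10
def u5kiYS (u v : K) : K :=
  (-108) * u * v ^ 14 + (-432) * u ^ 2 * v ^ 13 + (-972) * u ^ 3 * v ^ 12 + (-1620) * u ^ 4 * v ^ 11 + (-2700) * u ^ 5 * v ^ 10 + (-3132) * u ^ 6 * v ^ 9 + (-2268) * u ^ 7 * v ^ 8 + (-648) * u ^ 8 * v ^ 7 + (-540) * u ^ 9 * v ^ 6 + (-432) * u ^ 11 * v ^ 4 + (-108) * u ^ 12 * v ^ 3 + (-108) * u ^ 13 * v ^ 2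
def u5kiXSTe (ζ u v : K) : K :=
  (3) * v ^ 10 + (-180) * u ^ 4 * v ^ 6 + (90) * u ^ 5 * v ^ 5 + (3) * u ^ 10 + (36) * ζ * u * v ^ 9 + (-180) * ζ * u ^ 4 * v ^ 6 + (72) * ζ * u ^ 6 * v ^ 4 + (72) * ζ ^ 2 * u ^ 2 * v ^ 8 + (-180) * ζ ^ 2 * u ^ 4 * v ^ 6 + (-36) * ζ ^ 2 * u ^ 7 * v ^ 3 + (108) * ζ ^ 3 * u ^ 3 * v ^ 7 + (-180) * ζ ^ 3 * u ^ 4 * v ^ 6 + (36) * ζ ^ 3 * u ^ 8 * v ^ 2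
def u5kiYSTe (ζ u v : K) : K :=
  (1620) * u ^ 4 * v ^ 11 + (-2700) * u ^ 5 * v ^ 10 + (540) * u ^ 9 * v ^ 6 + (-108) * ζ * u * v ^ 14 + (1620) * ζ * u ^ 4 * v ^ 11 + (-3132) * ζ * u ^ 6 * v ^ 9 + (540) * ζ * u ^ 9 * v ^ 6 + (-432) * ζ * u ^ 11 * v ^ 4 + (-432) * ζ ^ 2 * u ^ 2 * v ^ 13 + (1620) * ζ ^ 2 * u ^ 4 * v ^ 11 + (-2268) * ζ ^ 2 * u ^ 7 * v ^ 8 + (540) * ζ ^ 2 * u ^ 9 * v ^ 6 + (-108) * ζ ^ 2 * u ^ 12 * v ^ 3 + (-972) * ζ ^ 3 * u ^ 3 * v ^ 12 + (1620) * ζ ^ 3 * u ^ 4 * v ^ 11 + (-648) * ζ ^ 3 * u ^ 8 * v ^ 7 + (540) * ζ ^ 3 * u ^ 9 * v ^ 6 + (-108) * ζ ^ 3 * u ^ 13 * v ^ 2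
def u5kiQ1 (ζ u v : K) : K :=
  (3) * u ^ 2 * v ^ 12 + (-10) * u ^ 3 * v ^ 11 + (15) * u ^ 4 * v ^ 10 + (-15) * u ^ 5 * v ^ 9 + (7) * u ^ 7 * v ^ 7 + (5) * u ^ 8 * v ^ 6 + (5) * u ^ 9 * v ^ 5 + (-5) * u ^ 10 * v ^ 4 + (2) * u ^ 12 * v ^ 2 + (1) * ζ ^ 2 * u ^ 2 * v ^ 12 + (-5) * ζ ^ 2 * u ^ 3 * v ^ 11 + (10) * ζ ^ 2 * u ^ 4 * v ^ 10 + (-10) * ζ ^ 2 * u ^ 5 * v ^ 9 + (14) * ζ ^ 2 * u ^ 7 * v ^ 7 + (-10) * ζ ^ 2 * u ^ 8 * v ^ 6 + (-5) * ζ ^ 2 * u ^ 9 * v ^ 5 + (5) * ζ ^ 2 * u ^ 10 * v ^ 4 + (-1) * ζ ^ 2 * u ^ 12 * v ^ 2 + (1) * ζ ^ 3 * u ^ 2 * v ^ 12 + (-5) * ζ ^ 3 * u ^ 3 * v ^ 11 + (10) * ζ ^ 3 * u ^ 4 * v ^ 10 + (-10) * ζ ^ 3 * u ^ 5 * v ^ 9 + (14) * ζ ^ 3 * u ^ 7 * v ^ 7 + (-10) * ζ ^ 3 * u ^ 8 * v ^ 6 +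 (-5) * ζ ^ 3 * u ^ 9 * v ^ 5 + (5) * ζ ^ 3 * u ^ 10 * v ^ 4 + (-1) * ζ ^ 3 * u ^ 12 * v ^ 2
def u5kiQ2 (ζ u v : K) : K :=
  (2) * u ^ 2 * v ^ 12 + (-5) * u ^ 3 * v ^ 11 + (5) * u ^ 4 * v ^ 10 + (-5) * u ^ 5 * v ^ 9 + (-7) * u ^ 7 * v ^ 7 + (15) * u ^ 8 * v ^ 6 + (10) * u ^ 9 * v ^ 5 + (-10) * u ^ 10 * v ^ 4 + (3) * u ^ 12 * v ^ 2 + (-1) * ζ ^ 2 * u ^ 2 * v ^ 12 + (5) * ζ ^ 2 * u ^ 3 * v ^ 11 + (-10) * ζ ^ 2 * u ^ 4 * v ^ 10 + (10) * ζ ^ 2 * u ^ 5 * v ^ 9 + (-14) * ζ ^ 2 * u ^ 7 * v ^ 7 + (10) * ζ ^ 2 * u ^ 8 * v ^ 6 + (5) * ζ ^ 2 * u ^ 9 * v ^ 5 + (-5) * ζ ^ 2 * u ^ 10 * v ^ 4 + (1) * ζ ^ 2 * u ^ 12 * v ^ 2 + (-1) * ζ ^ 3 * u ^ 2 * v ^ 12 + (5) * ζ ^ 3 * u ^ 3 * v ^ 11 + (-10) * ζ ^ 3 * u ^ 4 * v ^ 10 + (10)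 * ζ ^ 3 * u ^ 5 * v ^ 9 + (-14) * ζ ^ 3 * u ^ 7 * v ^ 7 + (10) * ζ ^ 3 * u ^ 8 * v ^ 6 + (5) * ζ ^ 3 * u ^ 9 * v ^ 5 + (-5) * ζ ^ 3 * u ^ 10 * v ^ 4 + (1) * ζ ^ 3 * u ^ 12 * v ^ 2

omit [CharZero K] in
theorem u5ki_H_eq (u v : K) : u5kfH u v = u5kiHq (u ^ 5) (v ^ 5) := by
  simp only [u5kfH, u5kiHq]
  ring

omit [CharZero K] in
theorem u5ki_T_eq (u v : K) : u5kfT u v = u5kiTq (u ^ 5) (v ^ 5) := by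
  simp only [u5kfT, u5kiTq]
  ring

omit [CharZero K] in
/-- `(XS, YS)` lies on `y² = x³ + 27 H x + 54 T` -/
theorem u5ki_onS (u v : K) :
    u5kiYS u v ^ 2 = u5kiXS u v ^ 3 + 27 * u5kiHq (u ^ 5) (v ^ 5) * u5kiXS u v + 54 * u5kiTq (u ^ 5) (v ^ 5) := by
  simp only [u5kiYS, u5kiXS, u5kiHq, u5kiTq]
  ring

theorem u5ki_zeta5 (ζ : K) (hζ : ζ ^ 4 + ζ ^ 3 + ζ ^ 2 + ζ + 1 = 0) :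
    ζ ^ 5 = 1 := by
  linear_combination ((-1) + (1) * ζ) * hζ

theorem u5ki_phi_pow2 (ζ : K) (hζ : ζ ^ 4 + ζ ^ 3 + ζ ^ 2 + ζ + 1 = 0) :
    (ζ ^ 2) ^ 4 + (ζ ^ 2) ^ 3 + (ζ ^ 2) ^ 2 + ζ ^ 2 + 1 = 0 := by
  linear_combination ((1) + (-1) * ζ + (1) * ζ ^ 2 + (-1) * ζ ^ 3 + (1) * ζ ^ 4) * hζ

theorem u5ki_phi_pow3 (ζ : K) (hζ : ζ ^ 4 + ζ ^ 3 + ζ ^ 2 + ζ + 1 = 0) :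
    (ζ ^ 3) ^ 4 + (ζ ^ 3) ^ 3 + (ζ ^ 3) ^ 2 + ζ ^ 3 + 1 = 0 := by
  linear_combination ((1) + (-1) * ζ + (1) * ζ ^ 3 + (-1) * ζ ^ 4 + (1) * ζ ^ 5 + (-1) * ζ ^ 7 + (1) * ζ ^ 8) * hζ

theorem u5ki_phi_pow4 (ζ : K) (hζ : ζ ^ 4 + ζ ^ 3 + ζ ^ 2 + ζ + 1 = 0) :
    (ζ ^ 4) ^ 4 + (ζ ^ 4) ^ 3 + (ζ ^ 4) ^ 2 + ζ ^ 4 + 1 = 0 := by
  linear_combination ((1) + (-1) * ζ + (1) * ζ ^ 4 + (-1) * ζ ^ 6 + (1) * ζ ^ 8 + (-1) * ζ ^ 11 + (1) * ζ ^ 12) * hζ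

theorem u5ki_S2 (ζ : K) (hζ : ζ ^ 4 + ζ ^ 3 + ζ ^ 2 + ζ + 1 = 0) :
    u5kiSa ζ ^ 2 + u5kiSb ζ ^ 2 = -1 := by
  simp only [u5kiSa, u5kiSb]
  linear_combination ((6 / 5) + (-2 / 5) * ζ + (2 / 5) * ζ ^ 2) * hζ

theorem u5ki_kap (ζ : K) (hζ : ζ ^ 4 + ζ ^ 3 + ζ ^ 2 + ζ + 1 = 0) :
    u5kiKap ζ ^ 2 * (-1 - 2 * ζ ^ 2 - 2 * ζ ^ 3) * u5kiE5 ζ = -1 := by
  simp only [u5kiKap, u5kiE5]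
  linear_combination ((-2 / 25) + (-106 / 25) * ζ + (9 / 25) * ζ ^ 2 + (-36 / 25) * ζ ^ 3 + (-96 / 25) * ζ ^ 4 + (751 / 25) * ζ ^ 5 + (44 / 5) * ζ ^ 6 + (14) * ζ ^ 7 + (98 / 5) * ζ ^ 8) * hζ

theorem u5ki_link_H (ζ U V : K) (hζ : ζ ^ 4 + ζ ^ 3 + ζ ^ 2 + ζ + 1 = 0) :
    27 * u5kiHq U V = u5kwA (u5kiKap ζ) (u5kiSs ζ U V) (u5kiSt ζ U V) := by
  simp only [u5kiHq, u5kwA, u5kwC4, u5kiKap, u5kiSs, u5kiSt, u5kiE5]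
  linear_combination ((-38367 / 125) * V ^ 4 + (-874476 / 125) * U * V ^ 3 + (-582498 / 125) * U ^ 2 * V ^ 2 + (874476 / 125) * U ^ 3 * V + (-38367 / 125) * U ^ 4 + (-241569 / 125) * ζ * V ^ 4 + (34668 / 125) * ζ * U * V ^ 3 + (9260514 / 125) * ζ * U ^ 2 * V ^ 2 + (-34668 / 125) * ζ * U ^ 3 * V + (-241569 / 125) * ζ * U ^ 4 + (-250776 / 125) * ζ ^ 2 * V ^ 4 + (-2064528 / 125) * ζ ^ 2 * U * V ^ 3 + (9086256 / 125) * ζ ^ 2 * U ^ 2 * V ^ 2 + (2064528 / 125) * ζ ^ 2 * U ^ 3 * V + (-250776 / 125) * ζ ^ 2 * U ^ 4 + (1726272 / 125) * ζ ^ 3 * V ^ 4 + (-5318784 / 125) * ζ ^ 3 * U * V ^ 3 + (-43016832 / 125) * ζ ^ 3 * U ^ 2 * V ^ 2 + (5318784 / 125) * ζ ^ 3 * U ^ 3 * V + (1726272 / 125) * ζ ^ 3 * U ^ 4 + (886464 / 25)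 * ζ ^ 4 * V ^ 4 + (-1977048 / 25) * ζ ^ 4 * U * V ^ 3 + (-21531744 / 25) * ζ ^ 4 * U ^ 2 * V ^ 2 + (1977048 / 25) * ζ ^ 4 * U ^ 3 * V + (886464 / 25) * ζ ^ 4 * U ^ 4 + (1343817 / 125) * ζ ^ 5 * V ^ 4 + (17268876 / 125) * ζ ^ 5 * U * V ^ 3 + (1621998 / 125) * ζ ^ 5 * U ^ 2 * V ^ 2 + (-17268876 / 125) * ζ ^ 5 * U ^ 3 * V + (1343817 / 125) * ζ ^ 5 * U ^ 4 + (-3519801 / 125) * ζ ^ 6 * V ^ 4 + (94738572 / 125) * ζ ^ 6 * U * V ^ 3 + (181307106 / 125) * ζ ^ 6 * U ^ 2 * V ^ 2 + (-94738572 / 125) * ζ ^ 6 * U ^ 3 * V + (-3519801 / 125) * ζ ^ 6 * U ^ 4 + (-5539104 / 125) * ζ ^ 7 * V ^ 4 + (82672488 / 125) * ζ ^ 7 * U * V ^ 3 + (183959424 / 125) * ζ ^ 7 * U ^ 2 * V ^ 2 + (-82672488 / 125) * ζ ^ 7 * U ^ 3 * V + (-5539104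 / 125) * ζ ^ 7 * U ^ 4 + (-20456577 / 125) * ζ ^ 8 * V ^ 4 + (-32470956 / 125) * ζ ^ 8 * U * V ^ 3 + (248227362 / 125) * ζ ^ 8 * U ^ 2 * V ^ 2 + (32470956 / 125) * ζ ^ 8 * U ^ 3 * V + (-20456577 / 125) * ζ ^ 8 * U ^ 4 + (-1203363 / 5) * ζ ^ 9 * V ^ 4 + (-3637548 / 5) * ζ ^ 9 * U * V ^ 3 + (8747622 / 5) * ζ ^ 9 * U ^ 2 * V ^ 2 + (3637548 / 5) * ζ ^ 9 * U ^ 3 * V + (-1203363 / 5) * ζ ^ 9 * U ^ 4 + (-2274561 / 25) * ζ ^ 10 * V ^ 4 + (-49914468 / 25) * ζ ^ 10 * U * V ^ 3 + (-48717774 / 25) * ζ ^ 10 * U ^ 2 * V ^ 2 + (49914468 / 25) * ζ ^ 10 * U ^ 3 * V + (-2274561 / 25) * ζ ^ 10 * U ^ 4 + (257013 / 25) * ζ ^ 11 * V ^ 4 + (-82755756 / 25) * ζ ^ 11 * U * V ^ 3 + (-134542458 / 25) * ζ ^ 11 * U ^ 2 * V ^ 2 + (82755756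 / 25) * ζ ^ 11 * U ^ 3 * V + (257013 / 25) * ζ ^ 11 * U ^ 4 + (839457 / 5) * ζ ^ 12 * V ^ 4 + (-11002068 / 5) * ζ ^ 12 * U * V ^ 3 + (-24238818 / 5) * ζ ^ 12 * U ^ 2 * V ^ 2 + (11002068 / 5) * ζ ^ 12 * U ^ 3 * V + (839457 / 5) * ζ ^ 12 * U ^ 4 + (2642706 / 5) * ζ ^ 13 * V ^ 4 + (1426896 / 5) * ζ ^ 13 * U * V ^ 3 + (-22239684 / 5) * ζ ^ 13 * U ^ 2 * V ^ 2 + (-1426896 / 5) * ζ ^ 13 * U ^ 3 * V + (2642706 / 5) * ζ ^ 13 * U ^ 4 + (3314439 / 5) * ζ ^ 14 * V ^ 4 + (9159804 / 5) * ζ ^ 14 * U * V ^ 3 + (-11713086 / 5) * ζ ^ 14 * U ^ 2 * V ^ 2 + (-9159804 / 5) * ζ ^ 14 * U ^ 3 * V + (3314439 / 5) * ζ ^ 14 * U ^ 4 + (646569) * ζ ^ 15 * V ^ 4 + (4012092) * ζ ^ 15 * U * V ^ 3 + (1558494) * ζ ^ 15 * U ^ 2 * V ^ 2 + (-4012092)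 * ζ ^ 15 * U ^ 3 * V + (646569) * ζ ^ 15 * U ^ 4 + (637146) * ζ ^ 16 * V ^ 4 + (5423112) * ζ ^ 16 * U * V ^ 3 + (4474764) * ζ ^ 16 * U ^ 2 * V ^ 2 + (-5423112) * ζ ^ 16 * U ^ 3 * V + (637146) * ζ ^ 16 * U ^ 4 + (501984) * ζ ^ 17 * V ^ 4 + (4467960) * ζ ^ 17 * U * V ^ 3 + (3916080) * ζ ^ 17 * U ^ 2 * V ^ 2 + (-4467960) * ζ ^ 17 * U ^ 3 * V + (501984) * ζ ^ 17 * U ^ 4 + (248724) * ζ ^ 18 * V ^ 4 + (2984688) * ζ ^ 18 * U * V ^ 3 + (3482136) * ζ ^ 18 * U ^ 2 * V ^ 2 + (-2984688) * ζ ^ 18 * U ^ 3 * V + (248724) * ζ ^ 18 * U ^ 4 + (157437) * ζ ^ 19 * V ^ 4 + (1889244) * ζ ^ 19 * U * V ^ 3 + (2204118) * ζ ^ 19 * U ^ 2 * V ^ 2 + (-1889244) * ζ ^ 19 * U ^ 3 * V + (157437) * ζ ^ 19 * U ^ 4 + (64827) * ζ ^ 20 * V ^ 4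 + (777924) * ζ ^ 20 * U * V ^ 3 + (907578) * ζ ^ 20 * U ^ 2 * V ^ 2 + (-777924) * ζ ^ 20 * U ^ 3 * V + (64827) * ζ ^ 20 * U ^ 4) * hζ

theorem u5ki_link_T (ζ U V : K) (hζ : ζ ^ 4 + ζ ^ 3 + ζ ^ 2 + ζ + 1 = 0) :
    54 * u5kiTq U V = u5kwB (u5kiKap ζ) (u5kiSs ζ U V) (u5kiSt ζ U V) := by
  simp only [u5kiTq, u5kwB, u5kwC6, u5kiKap, u5kiSs, u5kiSt, u5kiE5]
  linear_combination ((-24710562 / 3125) * V ^ 6 + (144329364 / 3125) * U * V ^ 5 + (-438760638 / 625) * U ^ 2 * V ^ 4 + (-438760638 / 625) * U ^ 4 * V ^ 2 + (-144329364 / 3125) * U ^ 5 * V + (-24710562 / 3125) * U ^ 6 + (-273841182 / 3125) * ζ * V ^ 6 + (2644673004 / 3125) * ζ * U * V ^ 5 + (-774342018 / 625) * ζ * U ^ 2 * V ^ 4 + (-774342018 / 625) * ζ * U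 ^ 4 * V ^ 2 + (-2644673004 / 3125) * ζ * U ^ 5 * V + (-273841182 / 3125) * ζ * U ^ 6 + (-1036742976 / 3125) * ζ ^ 2 * V ^ 6 + (9030245472 / 3125) * ζ ^ 2 * U * V ^ 5 + (-3624191424 / 625) * ζ ^ 2 * U ^ 2 * V ^ 4 + (-3624191424 / 625) * ζ ^ 2 * U ^ 4 * V ^ 2 + (-9030245472 / 3125) * ζ ^ 2 * U ^ 5 * V + (-1036742976 / 3125) * ζ ^ 2 * U ^ 6 + (-219189888 / 625) * ζ ^ 3 * V ^ 6 + (476171136 / 625) * ζ ^ 3 * U * V ^ 5 + (521520768 / 125) * ζ ^ 3 * U ^ 2 * V ^ 4 + (521520768 / 125) * ζ ^ 3 * U ^ 4 * V ^ 2 + (-476171136 / 625) * ζ ^ 3 * U ^ 5 * V + (-219189888 / 625) * ζ ^ 3 * U ^ 6 + (474176592 / 625) * ζ ^ 4 * V ^ 6 + (-11206083024 / 625) * ζ ^ 4 * U * V ^ 5 + (7860917808 / 125) * ζ ^ 4 * U ^ 2 * V ^ 4 + (7860917808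 / 125) * ζ ^ 4 * U ^ 4 * V ^ 2 + (11206083024 / 625) * ζ ^ 4 * U ^ 5 * V + (474176592 / 625) * ζ ^ 4 * U ^ 6 + (7066733166 / 3125) * ζ ^ 5 * V ^ 6 + (-114362546652 / 3125) * ζ ^ 5 * U * V ^ 5 + (61648979634 / 625) * ζ ^ 5 * U ^ 2 * V ^ 4 + (61648979634 / 625) * ζ ^ 5 * U ^ 4 * V ^ 2 + (114362546652 / 3125) * ζ ^ 5 * U ^ 5 * V + (7066733166 / 3125) * ζ ^ 5 * U ^ 6 + (9913140666 / 3125) * ζ ^ 6 * V ^ 6 + (-20626511652 / 3125) * ζ ^ 6 * U * V ^ 5 + (-72908827866 / 625) * ζ ^ 6 * U ^ 2 * V ^ 4 + (-72908827866 / 625) * ζ ^ 6 * U ^ 4 * V ^ 2 + (20626511652 / 3125) * ζ ^ 6 * U ^ 5 * V + (9913140666 / 3125) * ζ ^ 6 * U ^ 6 + (17422773408 / 3125) * ζ ^ 7 * V ^ 6 + (158172483024 / 3125) * ζ ^ 7 * U * V ^ 5 + (-306906923808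 / 625) * ζ ^ 7 * U ^ 2 * V ^ 4 + (-306906923808 / 625) * ζ ^ 7 * U ^ 4 * V ^ 2 + (-158172483024 / 3125) * ζ ^ 7 * U ^ 5 * V + (17422773408 / 3125) * ζ ^ 7 * U ^ 6 + (1551971016 / 625) * ζ ^ 8 * V ^ 6 + (66778960248 / 625) * ζ ^ 8 * U * V ^ 5 + (-52353123336 / 125) * ζ ^ 8 * U ^ 2 * V ^ 4 + (-52353123336 / 125) * ζ ^ 8 * U ^ 4 * V ^ 2 + (-66778960248 / 625) * ζ ^ 8 * U ^ 5 * V + (1551971016 / 625) * ζ ^ 8 * U ^ 6 + (-8975547144 / 625) * ζ ^ 9 * V ^ 6 + (145450074168 / 625) * ζ ^ 9 * U * V ^ 5 + (21403539144 / 125) * ζ ^ 9 * U ^ 2 * V ^ 4 + (21403539144 / 125) * ζ ^ 9 * U ^ 4 * V ^ 2 + (-145450074168 / 625) * ζ ^ 9 * U ^ 5 * V + (-8975547144 / 625) * ζ ^ 9 * U ^ 6 + (-86345184546 / 3125) * ζ ^ 10 * V ^ 6 + (758017914012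 / 3125) * ζ ^ 10 * U * V ^ 5 + (550215833346 / 625) * ζ ^ 10 * U ^ 2 * V ^ 4 + (550215833346 / 625) * ζ ^ 10 * U ^ 4 * V ^ 2 + (-758017914012 / 3125) * ζ ^ 10 * U ^ 5 * V + (-86345184546 / 3125) * ζ ^ 10 * U ^ 6 + (-120165649686 / 3125) * ζ ^ 11 * V ^ 6 + (-418523797908 / 3125) * ζ ^ 11 * U * V ^ 5 + (1213939386486 / 625) * ζ ^ 11 * U ^ 2 * V ^ 4 + (1213939386486 / 625) * ζ ^ 11 * U ^ 4 * V ^ 2 + (418523797908 / 3125) * ζ ^ 11 * U ^ 5 * V + (-120165649686 / 3125) * ζ ^ 11 * U ^ 6 + (-155029458438 / 3125) * ζ ^ 12 * V ^ 6 + (-1932166373364 / 3125) * ζ ^ 12 * U * V ^ 5 + (1582555336038 / 625) * ζ ^ 12 * U ^ 2 * V ^ 4 + (1582555336038 / 625) * ζ ^ 12 * U ^ 4 * V ^ 2 + (1932166373364 / 3125) * ζ ^ 12 * U ^ 5 *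 V + (-155029458438 / 3125) * ζ ^ 12 * U ^ 6 + (-8029760958 / 625) * ζ ^ 13 * V ^ 6 + (-624088314324 / 625) * ζ ^ 13 * U * V ^ 5 + (52651684638 / 125) * ζ ^ 13 * U ^ 2 * V ^ 4 + (52651684638 / 125) * ζ ^ 13 * U ^ 4 * V ^ 2 + (624088314324 / 625) * ζ ^ 13 * U ^ 5 * V + (-8029760958 / 625) * ζ ^ 13 * U ^ 6 + (41015563542 / 625) * ζ ^ 14 * V ^ 6 + (-821694261924 / 625) * ζ ^ 14 * U * V ^ 5 + (-464788965942 / 125) * ζ ^ 14 * U ^ 2 * V ^ 4 + (-464788965942 / 125) * ζ ^ 14 * U ^ 4 * V ^ 2 + (821694261924 / 625) * ζ ^ 14 * U ^ 5 * V + (41015563542 / 625) * ζ ^ 14 * U ^ 6 + (454255292592 / 3125) * ζ ^ 15 * V ^ 6 + (-2918407782024 / 3125) * ζ ^ 15 * U * V ^ 5 + (-4241011383792 / 625) * ζ ^ 15 * U ^ 2 * V ^ 4 + (-4241011383792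 / 625) * ζ ^ 15 * U ^ 4 * V ^ 2 + (2918407782024 / 3125) * ζ ^ 15 * U ^ 5 * V + (454255292592 / 3125) * ζ ^ 15 * U ^ 6 + (703092744702 / 3125) * ζ ^ 16 * V ^ 6 + (1984257686556 / 3125) * ζ ^ 16 * U * V ^ 5 + (-4986725839902 / 625) * ζ ^ 16 * U ^ 2 * V ^ 4 + (-4986725839902 / 625) * ζ ^ 16 * U ^ 4 * V ^ 2 + (-1984257686556 / 3125) * ζ ^ 16 * U ^ 5 * V + (703092744702 / 3125) * ζ ^ 16 * U ^ 6 + (878536051506 / 3125) * ζ ^ 17 * V ^ 6 + (7517732765868 / 3125) * ζ ^ 17 * U * V ^ 5 + (-3700119837906 / 625) * ζ ^ 17 * U ^ 2 * V ^ 4 + (-3700119837906 / 625) * ζ ^ 17 * U ^ 4 * V ^ 2 + (-7517732765868 / 3125) * ζ ^ 17 * U ^ 5 * V + (878536051506 / 3125) * ζ ^ 17 * U ^ 6 + (25165431216 / 125) * ζ ^ 18 * V ^ 6 + (483606832968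 / 125) * ζ ^ 18 * U * V ^ 5 + (1720405008) * ζ ^ 18 * U ^ 2 * V ^ 4 + (1720405008) * ζ ^ 18 * U ^ 4 * V ^ 2 + (-483606832968 / 125) * ζ ^ 18 * U ^ 5 * V + (25165431216 / 125) * ζ ^ 18 * U ^ 6 + (3755965572 / 125) * ζ ^ 19 * V ^ 6 + (590786973216 / 125) * ζ ^ 19 * U * V ^ 5 + (294038879868 / 25) * ζ ^ 19 * U ^ 2 * V ^ 4 + (294038879868 / 25) * ζ ^ 19 * U ^ 4 * V ^ 2 + (-590786973216 / 125) * ζ ^ 19 * U ^ 5 * V + (3755965572 / 125) * ζ ^ 19 * U ^ 6 + (-24932458206 / 125) * ζ ^ 20 * V ^ 6 + (491636142972 / 125) * ζ ^ 20 * U * V ^ 5 + (445922171838 / 25) * ζ ^ 20 * U ^ 2 * V ^ 4 + (445922171838 / 25) * ζ ^ 20 * U ^ 4 * V ^ 2 + (-491636142972 / 125) * ζ ^ 20 * U ^ 5 * V + (-24932458206 / 125) * ζ ^ 20 * U ^ 6 +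 (-12066433272 / 25) * ζ ^ 21 * V ^ 6 + (28181532312 / 25) * ζ ^ 21 * U * V ^ 5 + (465020416152 / 25) * ζ ^ 21 * U ^ 2 * V ^ 4 + (465020416152 / 25) * ζ ^ 21 * U ^ 4 * V ^ 2 + (-28181532312 / 25) * ζ ^ 21 * U ^ 5 * V + (-12066433272 / 25) * ζ ^ 21 * U ^ 6 + (-18509678604 / 25) * ζ ^ 22 * V ^ 6 + (-54866559816 / 25) * ζ ^ 22 * U * V ^ 5 + (339545037564 / 25) * ζ ^ 22 * U ^ 2 * V ^ 4 + (339545037564 / 25) * ζ ^ 22 * U ^ 4 * V ^ 2 + (54866559816 / 25) * ζ ^ 22 * U ^ 5 * V + (-18509678604 / 25) * ζ ^ 22 * U ^ 6 + (-21514922406 / 25) * ζ ^ 23 * V ^ 6 + (-135971210844 / 25) * ζ ^ 23 * U * V ^ 5 + (64772223966 / 25) * ζ ^ 23 * U ^ 2 * V ^ 4 + (64772223966 / 25) * ζ ^ 23 * U ^ 4 * V ^ 2 + (135971210844 / 25) * ζ ^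 23 * U ^ 5 * V + (-21514922406 / 25) * ζ ^ 23 * U ^ 6 + (-4422010968 / 5) * ζ ^ 24 * V ^ 6 + (-39902668416 / 5) * ζ ^ 24 * U * V ^ 5 + (-49799967048 / 5) * ζ ^ 24 * U ^ 2 * V ^ 4 + (-49799967048 / 5) * ζ ^ 24 * U ^ 4 * V ^ 2 + (39902668416 / 5) * ζ ^ 24 * U ^ 5 * V + (-4422010968 / 5) * ζ ^ 24 * U ^ 6 + (-806687370) * ζ ^ 25 * V ^ 6 + (-8838542772) * ζ ^ 25 * U * V ^ 5 + (-18183503214) * ζ ^ 25 * U ^ 2 * V ^ 4 + (-18183503214) * ζ ^ 25 * U ^ 4 * V ^ 2 + (8838542772) * ζ ^ 25 * U ^ 5 * V + (-806687370) * ζ ^ 25 * U ^ 6 + (-3157181388 / 5) * ζ ^ 26 * V ^ 6 + (-39733384896 / 5) * ζ ^ 26 * U * V ^ 5 + (-107340272388 / 5) * ζ ^ 26 * U ^ 2 * V ^ 4 + (-107340272388 / 5) * ζ ^ 26 * U ^ 4 * V ^ 2 + (39733384896 / 5)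 * ζ ^ 26 * U ^ 5 * V + (-3157181388 / 5) * ζ ^ 26 * U ^ 6 + (-440789580) * ζ ^ 27 * V ^ 6 + (-6328577304) * ζ ^ 27 * U * V ^ 5 + (-20214137412) * ζ ^ 27 * U ^ 2 * V ^ 4 + (-20214137412) * ζ ^ 27 * U ^ 4 * V ^ 2 + (6328577304) * ζ ^ 27 * U ^ 5 * V + (-440789580) * ζ ^ 27 * U ^ 6 + (-280759122) * ζ ^ 28 * V ^ 6 + (-4334862420) * ζ ^ 28 * U * V ^ 5 + (-15306519942) * ζ ^ 28 * U ^ 2 * V ^ 4 + (-15306519942) * ζ ^ 28 * U ^ 4 * V ^ 2 + (4334862420) * ζ ^ 28 * U ^ 5 * V + (-280759122) * ζ ^ 28 * U ^ 6 + (-148472352) * ζ ^ 29 * V ^ 6 + (-2443792680) * ζ ^ 29 * U * V ^ 5 + (-9305749152) * ζ ^ 29 * U ^ 2 * V ^ 4 + (-9305749152) * ζ ^ 29 * U ^ 4 * V ^ 2 + (2443792680) * ζ ^ 29 * U ^ 5 * V + (-148472352) * ζ ^ 29 * U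 ^ 6 + (-64567692) * ζ ^ 30 * V ^ 6 + (-1162218456) * ζ ^ 30 * U * V ^ 5 + (-4842576900) * ζ ^ 30 * U ^ 2 * V ^ 4 + (-4842576900) * ζ ^ 30 * U ^ 4 * V ^ 2 + (1162218456) * ζ ^ 30 * U ^ 5 * V + (-64567692) * ζ ^ 30 * U ^ 6 + (-26319762) * ζ ^ 31 * V ^ 6 + (-473755716) * ζ ^ 31 * U * V ^ 5 + (-1973982150) * ζ ^ 31 * U ^ 2 * V ^ 4 + (-1973982150) * ζ ^ 31 * U ^ 4 * V ^ 2 + (473755716) * ζ ^ 31 * U ^ 5 * V + (-26319762) * ζ ^ 31 * U ^ 6 + (-6353046) * ζ ^ 32 * V ^ 6 + (-114354828) * ζ ^ 32 * U * V ^ 5 + (-476478450) * ζ ^ 32 * U ^ 2 * V ^ 4 + (-476478450) * ζ ^ 32 * U ^ 4 * V ^ 2 + (114354828) * ζ ^ 32 * U ^ 5 * V + (-6353046) * ζ ^ 32 * U ^ 6) * hζ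

theorem u5ki_st (ζ U V : K) (hζ : ζ ^ 4 + ζ ^ 3 + ζ ^ 2 + ζ + 1 = 0) :
    u5kiSs ζ U V * u5kiSt ζ U V = u5kiE5 ζ * (U ^ 2 + 11 * U * V - V ^ 2) := by
  simp only [u5kiSs, u5kiSt, u5kiE5]
  linear_combination ((-25) * U * V + (25) * ζ * U * V + (25) * ζ ^ 2 * U * V) * hζ

theorem u5ki_X1e (ζ U V : K) (hζ : ζ ^ 4 + ζ ^ 3 + ζ ^ 2 + ζ + 1 = 0) :
    u5kwX1 (u5kiKap ζ) (u5kiSs ζ U V) (u5kiSt ζ U V) = u5kiX1e ζ U V := by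
  simp only [u5kwX1, u5kiX1e, u5kiKap, u5kiSs, u5kiSt, u5kiE5]
  linear_combination ((1041 / 25) * V ^ 2 + (-306 / 25) * U * V + (249 / 25) * U ^ 2 + (1983 / 25) * ζ * V ^ 2 + (-4878 / 25) * ζ * U * V + (-1113 / 25) * ζ * U ^ 2 + (-2304 / 25) * ζ ^ 2 * V ^ 2 + (7704 / 25) * ζ ^ 2 * U * V + (324 / 25) * ζ ^ 2 * U ^ 2 + (-1296 / 5) * ζ ^ 3 * V ^ 2 + (3888 / 5) * ζ ^ 3 * U * V + (339 / 5) * ζ ^ 4 * V ^ 2 + (-522 / 5) * ζ ^ 4 * U * V + (-33) * ζ ^ 4 * U ^ 2 + (-564 / 5) * ζ ^ 5 * V ^ 2 + (-1908 / 5) * ζ ^ 5 * U * V + (240) * ζ ^ 5 * U ^ 2 + (66) * ζ ^ 6 * V ^ 2 + (-396) * ζ ^ 6 * U * V + (66) * ζ ^ 6 * U ^ 2 + (105) * ζ ^ 7 * V ^ 2 + (-630) * ζ ^ 7 * U * V + (105) * ζ ^ 7 * U ^ 2 + (147) * ζ ^ 8 * V ^ 2 + (-882)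 * ζ ^ 8 * U * V + (147) * ζ ^ 8 * U ^ 2) * hζ

theorem u5ki_Y1e (ζ U V : K) (hζ : ζ ^ 4 + ζ ^ 3 + ζ ^ 2 + ζ + 1 = 0) :
    u5kwY1 (u5kiKap ζ) (u5kiSs ζ U V) (u5kiSt ζ U V) = u5kiY1e ζ U V := by
  simp only [u5kwY1, u5kiY1e, u5kiKap, u5kiSs, u5kiSt, u5kiE5]
  linear_combination ((31644 / 125) * V ^ 3 + (-123336 / 125) * U * V ^ 2 + (-25272 / 125) * U ^ 2 * V + (-6048 / 125) * U ^ 3 + (27324 / 25) * ζ * V ^ 3 + (-73656 / 25) * ζ * U * V ^ 2 + (-44712 / 25) * ζ * U ^ 2 * V + (-8208 / 25) * ζ * U ^ 3 + (8208 / 25) * ζ ^ 2 * V ^ 3 + (19224 / 25) * ζ ^ 2 * U * V ^ 2 + (-6372 / 5) * ζ ^ 2 * U ^ 2 * V + (-7452 / 25) * ζ ^ 2 * U ^ 3 + (-106056 / 25) * ζ ^ 3 * V ^ 3 + (89424 / 5) * ζ ^ 3 * U * V ^ 2 + (234792 / 25)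 * ζ ^ 3 * U ^ 2 * V + (19656 / 25) * ζ ^ 3 * U ^ 3 + (-90936 / 25) * ζ ^ 4 * V ^ 3 + (442044 / 25) * ζ ^ 4 * U * V ^ 2 + (171288 / 25) * ζ ^ 4 * U ^ 2 * V + (4212 / 25) * ζ ^ 4 * U ^ 3 + (95796 / 125) * ζ ^ 5 * V ^ 3 + (-2873124 / 125) * ζ ^ 5 * U * V ^ 2 + (-154548 / 125) * ζ ^ 5 * U ^ 2 * V + (69768 / 125) * ζ ^ 5 * U ^ 3 + (-2484) * ζ ^ 6 * V ^ 3 + (-183924 / 5) * ζ ^ 6 * U * V ^ 2 + (4968) * ζ ^ 6 * U ^ 2 * V + (12096 / 5) * ζ ^ 6 * U ^ 3 + (138456 / 25) * ζ ^ 7 * V ^ 3 + (-29700) * ζ ^ 7 * U * V ^ 2 + (-276912 / 25) * ζ ^ 7 * U ^ 2 * V + (-15876 / 25) * ζ ^ 7 * U ^ 3 + (261036 / 25) * ζ ^ 8 * V ^ 3 + (-42876) * ζ ^ 8 * U * V ^ 2 + (-522072 / 25) * ζ ^ 8 * U ^ 2 * V + (37044 / 25) * ζ ^ 8 * U ^ 3 + (44604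 / 5) * ζ ^ 9 * V ^ 3 + (-57456 / 5) * ζ ^ 9 * U * V ^ 2 + (-89208 / 5) * ζ ^ 9 * U ^ 2 * V + (21168 / 5) * ζ ^ 10 * V ^ 3 + (335988 / 5) * ζ ^ 10 * U * V ^ 2 + (-42336 / 5) * ζ ^ 10 * U ^ 2 * V + (37044 / 5) * ζ ^ 11 * V ^ 3 + (372924 / 5) * ζ ^ 11 * U * V ^ 2 + (-74088 / 5) * ζ ^ 11 * U ^ 2 * V + (65772) * ζ ^ 12 * U * V ^ 2 + (58212) * ζ ^ 13 * U * V ^ 2 + (37044) * ζ ^ 14 * U * V ^ 2) * hζ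

theorem u5ki_X2e (ζ U V : K) (hζ : ζ ^ 4 + ζ ^ 3 + ζ ^ 2 + ζ + 1 = 0) :
    u5kwX2 (u5kiKap ζ) (u5kiSs ζ U V) (u5kiSt ζ U V) = u5kiX2e ζ U V := by
  simp only [u5kwX2, u5kiX2e, u5kiKap, u5kiSs, u5kiSt, u5kiE5]
  linear_combination ((249 / 25) * V ^ 2 + (306 / 25) * U * V + (1041 / 25) * U ^ 2 + (-1113 / 25) * ζ * V ^ 2 + (4878 / 25) * ζ * U * V + (1983 / 25) * ζ * U ^ 2 + (324 / 25) * ζ ^ 2 * V ^ 2 + (-7704 / 25) * ζ ^ 2 * U * V + (-2304 / 25) * ζ ^ 2 * U ^ 2 + (-3888 / 5) * ζ ^ 3 * U * V + (-1296 / 5) * ζ ^ 3 * U ^ 2 + (-33) * ζ ^ 4 * V ^ 2 + (522 / 5) * ζ ^ 4 * U * V + (339 / 5) * ζ ^ 4 * U ^ 2 + (240) * ζ ^ 5 * V ^ 2 + (1908 / 5) * ζ ^ 5 * U * V + (-564 / 5) * ζ ^ 5 * U ^ 2 + (66) * ζ ^ 6 * V ^ 2 + (396)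 * ζ ^ 6 * U * V + (66) * ζ ^ 6 * U ^ 2 + (105) * ζ ^ 7 * V ^ 2 + (630) * ζ ^ 7 * U * V + (105) * ζ ^ 7 * U ^ 2 + (147) * ζ ^ 8 * V ^ 2 + (882) * ζ ^ 8 * U * V + (147) * ζ ^ 8 * U ^ 2) * hζ

theorem u5ki_Y2e (ζ U V : K) (hζ : ζ ^ 4 + ζ ^ 3 + ζ ^ 2 + ζ + 1 = 0) :
    u5kwY2 (u5kiKap ζ) (u5kiSs ζ U V) (u5kiSt ζ U V) = u5kiY2e ζ U V := by
  simp only [u5kwY2, u5kiY2e, u5kiKap, u5kiSs, u5kiSt, u5kiE5]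
  linear_combination ((6048 / 125) * V ^ 3 + (-25272 / 125) * U * V ^ 2 + (123336 / 125) * U ^ 2 * V + (31644 / 125) * U ^ 3 + (8208 / 25) * ζ * V ^ 3 + (-44712 / 25) * ζ * U * V ^ 2 + (73656 / 25) * ζ * U ^ 2 * V + (27324 / 25) * ζ * U ^ 3 + (7452 / 25) * ζ ^ 2 * V ^ 3 + (-6372 / 5) * ζ ^ 2 * U * V ^ 2 + (-19224 / 25) * ζ ^ 2 * U ^ 2 * V + (8208 / 25) * ζ ^ 2 * U ^ 3 + (-19656 / 25) * ζ ^ 3 * V ^ 3 + (234792 / 25) * ζ ^ 3 * U * V ^ 2 + (-89424 / 5) * ζ ^ 3 * U ^ 2 * V + (-106056 / 25) * ζ ^ 3 * U ^ 3 + (-4212 / 25) * ζ ^ 4 * V ^ 3 + (171288 / 25) * ζ ^ 4 * U * V ^ 2 + (-442044 / 25) * ζ ^ 4 * U ^ 2 * V + (-90936 / 25) * ζ ^ 4 * U ^ 3 + (-69768 / 125) * ζ ^ 5 * V ^ 3 + (-154548 / 125) * ζ ^ 5 * U * V ^ 2 +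 (2873124 / 125) * ζ ^ 5 * U ^ 2 * V + (95796 / 125) * ζ ^ 5 * U ^ 3 + (-12096 / 5) * ζ ^ 6 * V ^ 3 + (4968) * ζ ^ 6 * U * V ^ 2 + (183924 / 5) * ζ ^ 6 * U ^ 2 * V + (-2484) * ζ ^ 6 * U ^ 3 + (15876 / 25) * ζ ^ 7 * V ^ 3 + (-276912 / 25) * ζ ^ 7 * U * V ^ 2 + (29700) * ζ ^ 7 * U ^ 2 * V + (138456 / 25) * ζ ^ 7 * U ^ 3 + (-37044 / 25) * ζ ^ 8 * V ^ 3 + (-522072 / 25) * ζ ^ 8 * U * V ^ 2 + (42876) * ζ ^ 8 * U ^ 2 * V + (261036 / 25) * ζ ^ 8 * U ^ 3 + (-89208 / 5) * ζ ^ 9 * U * V ^ 2 + (57456 / 5) * ζ ^ 9 * U ^ 2 * V + (44604 / 5) * ζ ^ 9 * U ^ 3 + (-42336 / 5) * ζ ^ 10 * U * V ^ 2 + (-335988 / 5) * ζ ^ 10 * U ^ 2 * V + (21168 / 5) * ζ ^ 10 * U ^ 3 + (-74088 / 5) * ζ ^ 11 * U * V ^ 2 + (-372924 / 5) * ζ ^ 11 *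 U ^ 2 * V + (37044 / 5) * ζ ^ 11 * U ^ 3 + (-65772) * ζ ^ 12 * U ^ 2 * V + (-58212) * ζ ^ 13 * U ^ 2 * V + (-37044) * ζ ^ 14 * U ^ 2 * V) * hζ

theorem u5ki_Ue (ζ u v : K) (hζ : ζ ^ 4 + ζ ^ 3 + ζ ^ 2 + ζ + 1 = 0) :
    (u5kiSa ζ * u + u5kiSb ζ * v) ^ 5 = u5kiUe ζ u v := by
  simp only [u5kiSa, u5kiSb, u5kiUe]
  linear_combination ((-343 / 3125) * v ^ 5 + (-141 / 625) * u * v ^ 4 + (-484 / 625) * u ^ 2 * v ^ 3 + (242 / 625) * u ^ 3 * v ^ 2 + (-373 / 625) * u ^ 4 * v + (499 / 3125) * u ^ 5 + (-87 / 3125) * ζ * v ^ 5 + (-269 / 625) * ζ * u * v ^ 4 + (-356 / 625) * ζ * u ^ 2 * v ^ 3 + (178 / 625) * ζ * u ^ 3 * v ^ 2 + (-357 / 625) * ζ * u ^ 4 * v + (491 / 3125) * ζ * u ^ 5 + (383 / 625) * ζ ^ 2 * v ^ 5 + (-12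 / 125) * ζ ^ 2 * u * v ^ 4 + (54 / 25) * ζ ^ 2 * u ^ 2 * v ^ 3 + (-14 / 125) * ζ ^ 2 * u ^ 3 * v ^ 2 + (67 / 125) * ζ ^ 2 * u ^ 4 * v + (-34 / 625) * ζ ^ 2 * u ^ 5 + (216 / 625) * ζ ^ 3 * v ^ 5 + (-406 / 125) * ζ ^ 3 * u * v ^ 4 + (204 / 125) * ζ ^ 3 * u ^ 2 * v ^ 3 + (-376 / 125) * ζ ^ 3 * u ^ 3 * v ^ 2 + (4 / 5) * ζ ^ 3 * u ^ 4 * v + (-178 / 625) * ζ ^ 3 * u ^ 5 + (783 / 625) * ζ ^ 4 * v ^ 5 + (-292 / 125) * ζ ^ 4 * u * v ^ 4 + (26 / 5) * ζ ^ 4 * u ^ 2 * v ^ 3 + (-264 / 125) * ζ ^ 4 * u ^ 3 * v ^ 2 + (147 / 125) * ζ ^ 4 * u ^ 4 * v + (-84 / 625) * ζ ^ 4 * u ^ 5 + (3481 / 3125) * ζ ^ 5 * v ^ 5 + (-2293 / 625) * ζ ^ 5 * u * v ^ 4 + (2208 / 625) * ζ ^ 5 * u ^ 2 * v ^ 3 + (-1524 / 625) * ζ ^ 5 * u ^ 3 * v ^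 2 + (211 / 625) * ζ ^ 5 * u ^ 4 * v + (117 / 3125) * ζ ^ 5 * u ^ 5 + (3169 / 3125) * ζ ^ 6 * v ^ 5 + (-2037 / 625) * ζ ^ 6 * u * v ^ 4 + (1402 / 625) * ζ ^ 6 * u ^ 2 * v ^ 3 + (-746 / 625) * ζ ^ 6 * u ^ 3 * v ^ 2 + (-71 / 625) * ζ ^ 6 * u ^ 4 * v + (283 / 3125) * ζ ^ 6 * u ^ 5 + (687 / 625) * ζ ^ 7 * v ^ 5 + (-148 / 125) * ζ ^ 7 * u * v ^ 4 + (58 / 25) * ζ ^ 7 * u ^ 2 * v ^ 3 + (84 / 125) * ζ ^ 7 * u ^ 3 * v ^ 2 + (3 / 125) * ζ ^ 7 * u ^ 4 * v + (24 / 625) * ζ ^ 7 * u ^ 5 + (234 / 625) * ζ ^ 8 * v ^ 5 + (-219 / 125) * ζ ^ 8 * u * v ^ 4 + (-104 / 125) * ζ ^ 8 * u ^ 2 * v ^ 3 + (-74 / 125) * ζ ^ 8 * u ^ 3 * v ^ 2 + (-2 / 5) * ζ ^ 8 * u ^ 4 * v + (-47 / 625) * ζ ^ 8 * u ^ 5 + (297 / 625) * ζ ^ 9 * v ^ 5 + (27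 / 125) * ζ ^ 9 * u * v ^ 4 + (18 / 25) * ζ ^ 9 * u ^ 2 * v ^ 3 + (94 / 125) * ζ ^ 9 * u ^ 3 * v ^ 2 + (33 / 125) * ζ ^ 9 * u ^ 4 * v + (19 / 625) * ζ ^ 9 * u ^ 5 + (162 / 3125) * ζ ^ 10 * v ^ 5 + (-216 / 625) * ζ ^ 10 * u * v ^ 4 + (-324 / 625) * ζ ^ 10 * u ^ 2 * v ^ 3 + (-168 / 625) * ζ ^ 10 * u ^ 3 * v ^ 2 + (-38 / 625) * ζ ^ 10 * u ^ 4 * v + (-16 / 3125) * ζ ^ 10 * u ^ 5 + (243 / 3125) * ζ ^ 11 * v ^ 5 + (81 / 625) * ζ ^ 11 * u * v ^ 4 + (54 / 625) * ζ ^ 11 * u ^ 2 * v ^ 3 + (18 / 625) * ζ ^ 11 * u ^ 3 * v ^ 2 + (3 / 625) * ζ ^ 11 * u ^ 4 * v + (1 / 3125) * ζ ^ 11 * u ^ 5) * hζ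

theorem u5ki_Ve (ζ u v : K) (hζ : ζ ^ 4 + ζ ^ 3 + ζ ^ 2 + ζ + 1 = 0) :
    (u5kiSb ζ * u - u5kiSa ζ * v) ^ 5 = u5kiVe ζ u v := by
  simp only [u5kiSa, u5kiSb, u5kiVe]
  linear_combination ((-499 / 3125) * v ^ 5 + (-373 / 625) * u * v ^ 4 + (-242 / 625) * u ^ 2 * v ^ 3 + (-484 / 625) * u ^ 3 * v ^ 2 + (141 / 625) * u ^ 4 * v + (-343 / 3125) * u ^ 5 + (-491 / 3125) * ζ * v ^ 5 + (-357 / 625) * ζ * u * v ^ 4 + (-178 / 625) * ζ * u ^ 2 * v ^ 3 + (-356 / 625) * ζ * u ^ 3 * v ^ 2 + (269 / 625) * ζ * u ^ 4 * v + (-87 / 3125) * ζ * u ^ 5 + (34 / 625) * ζ ^ 2 * v ^ 5 + (67 / 125) * ζ ^ 2 * u * v ^ 4 + (14 / 125) * ζ ^ 2 * u ^ 2 * v ^ 3 + (54 / 25) * ζ ^ 2 * u ^ 3 * v ^ 2 + (12 / 125) * ζ ^ 2 * u ^ 4 * v + (383 / 625)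 * ζ ^ 2 * u ^ 5 + (178 / 625) * ζ ^ 3 * v ^ 5 + (4 / 5) * ζ ^ 3 * u * v ^ 4 + (376 / 125) * ζ ^ 3 * u ^ 2 * v ^ 3 + (204 / 125) * ζ ^ 3 * u ^ 3 * v ^ 2 + (406 / 125) * ζ ^ 3 * u ^ 4 * v + (216 / 625) * ζ ^ 3 * u ^ 5 + (84 / 625) * ζ ^ 4 * v ^ 5 + (147 / 125) * ζ ^ 4 * u * v ^ 4 + (264 / 125) * ζ ^ 4 * u ^ 2 * v ^ 3 + (26 / 5) * ζ ^ 4 * u ^ 3 * v ^ 2 + (292 / 125) * ζ ^ 4 * u ^ 4 * v + (783 / 625) * ζ ^ 4 * u ^ 5 + (-117 / 3125) * ζ ^ 5 * v ^ 5 + (211 / 625) * ζ ^ 5 * u * v ^ 4 + (1524 / 625) * ζ ^ 5 * u ^ 2 * v ^ 3 + (2208 / 625) * ζ ^ 5 * u ^ 3 * v ^ 2 + (2293 / 625) * ζ ^ 5 * u ^ 4 * v + (3481 / 3125) * ζ ^ 5 * u ^ 5 + (-283 / 3125) * ζ ^ 6 * v ^ 5 + (-71 / 625) * ζ ^ 6 * u * v ^ 4 + (746 / 625) * ζ ^ 6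 * u ^ 2 * v ^ 3 + (1402 / 625) * ζ ^ 6 * u ^ 3 * v ^ 2 + (2037 / 625) * ζ ^ 6 * u ^ 4 * v + (3169 / 3125) * ζ ^ 6 * u ^ 5 + (-24 / 625) * ζ ^ 7 * v ^ 5 + (3 / 125) * ζ ^ 7 * u * v ^ 4 + (-84 / 125) * ζ ^ 7 * u ^ 2 * v ^ 3 + (58 / 25) * ζ ^ 7 * u ^ 3 * v ^ 2 + (148 / 125) * ζ ^ 7 * u ^ 4 * v + (687 / 625) * ζ ^ 7 * u ^ 5 + (47 / 625) * ζ ^ 8 * v ^ 5 + (-2 / 5) * ζ ^ 8 * u * v ^ 4 + (74 / 125) * ζ ^ 8 * u ^ 2 * v ^ 3 + (-104 / 125) * ζ ^ 8 * u ^ 3 * v ^ 2 + (219 / 125) * ζ ^ 8 * u ^ 4 * v + (234 / 625) * ζ ^ 8 * u ^ 5 + (-19 / 625) * ζ ^ 9 * v ^ 5 + (33 / 125) * ζ ^ 9 * u * v ^ 4 + (-94 / 125) * ζ ^ 9 * u ^ 2 * v ^ 3 + (18 / 25) * ζ ^ 9 * u ^ 3 * v ^ 2 + (-27 / 125) * ζ ^ 9 * u ^ 4 * v + (297 / 625) * ζ ^ 9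 * u ^ 5 + (16 / 3125) * ζ ^ 10 * v ^ 5 + (-38 / 625) * ζ ^ 10 * u * v ^ 4 + (168 / 625) * ζ ^ 10 * u ^ 2 * v ^ 3 + (-324 / 625) * ζ ^ 10 * u ^ 3 * v ^ 2 + (216 / 625) * ζ ^ 10 * u ^ 4 * v + (162 / 3125) * ζ ^ 10 * u ^ 5 + (-1 / 3125) * ζ ^ 11 * v ^ 5 + (3 / 625) * ζ ^ 11 * u * v ^ 4 + (-18 / 625) * ζ ^ 11 * u ^ 2 * v ^ 3 + (54 / 625) * ζ ^ 11 * u ^ 3 * v ^ 2 + (-81 / 625) * ζ ^ 11 * u ^ 4 * v + (243 / 3125) * ζ ^ 11 * u ^ 5) * hζ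

theorem u5ki_SsS (ζ u v : K) (hζ : ζ ^ 4 + ζ ^ 3 + ζ ^ 2 + ζ + 1 = 0) :
    u5kiSs ζ (u5kiUe ζ u v) (u5kiVe ζ u v) = u5kiSsS ζ u v := by
  simp only [u5kiSs, u5kiE5, u5kiUe, u5kiVe, u5kiSsS]
  linear_combination ((1 / 5) * v ^ 5 + (2) * u * v ^ 4 + (-2) * u ^ 2 * v ^ 3 + (6) * u ^ 3 * v ^ 2 + (-4) * u ^ 4 * v + (7 / 5) * u ^ 5 + (1 / 5) * ζ * v ^ 5 + (2) * ζ * u * v ^ 4 + (-2) * ζ * u ^ 2 * v ^ 3 + (6) * ζ * u ^ 3 * v ^ 2 + (-4) * ζ * u ^ 4 * v + (7 / 5) * ζ * u ^ 5 + (-7 / 5) * ζ ^ 2 * v ^ 5 + (-4) * ζ ^ 2 * u * v ^ 4 + (-6) * ζ ^ 2 * u ^ 2 * v ^ 3 + (-2) * ζ ^ 2 * u ^ 3 * v ^ 2 + (-2) * ζ ^ 2 * u ^ 4 * v + (1 / 5) * ζ ^ 2 * u ^ 5) * hζ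

theorem u5ki_StS (ζ u v : K) (hζ : ζ ^ 4 + ζ ^ 3 + ζ ^ 2 + ζ + 1 = 0) :
    u5kiSt ζ (u5kiUe ζ u v) (u5kiVe ζ u v) = u5kiStS ζ u v := by
  simp only [u5kiSt, u5kiE5, u5kiUe, u5kiVe, u5kiStS]
  linear_combination ((-7 / 5) * v ^ 5 + (-4) * u * v ^ 4 + (-6) * u ^ 2 * v ^ 3 + (-2) * u ^ 3 * v ^ 2 + (-2) * u ^ 4 * v + (1 / 5) * u ^ 5 + (-7 / 5) * ζ * v ^ 5 + (-4) * ζ * u * v ^ 4 + (-6) * ζ * u ^ 2 * v ^ 3 + (-2) * ζ * u ^ 3 * v ^ 2 + (-2) * ζ * u ^ 4 * v + (1 / 5) * ζ * u ^ 5 + (-1 / 5) * ζ ^ 2 * v ^ 5 + (-2) * ζ ^ 2 * u * v ^ 4 + (2) * ζ ^ 2 * u ^ 2 * v ^ 3 + (-6) * ζ ^ 2 * u ^ 3 * v ^ 2 + (4) * ζ ^ 2 * u ^ 4 * v + (-7 / 5) * ζ ^ 2 * u ^ 5) * hζ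

theorem u5ki_XS (ζ u v : K) (hζ : ζ ^ 4 + ζ ^ 3 + ζ ^ 2 + ζ + 1 = 0) :
    u5kwX1 (u5kiKap ζ) (u5kiSsS ζ u v) (u5kiStS ζ u v) = u5kiXS u v := by
  simp only [u5kwX1, u5kiKap, u5kiSsS, u5kiStS, u5kiXS]
  linear_combination ((33 / 25) * v ^ 10 + (396 / 25) * u * v ^ 9 + (792 / 25) * u ^ 2 * v ^ 8 + (1188 / 25) * u ^ 3 * v ^ 7 + (396 / 5) * u ^ 4 * v ^ 6 + (198 / 5) * u ^ 5 * v ^ 5 + (792 / 25) * u ^ 6 * v ^ 4 + (-396 / 25) * u ^ 7 * v ^ 3 + (396 / 25) * u ^ 8 * v ^ 2 + (33 / 25) * u ^ 10 + (831 / 25) * ζ * v ^ 10 + (9972 / 25) * ζ * u * v ^ 9 + (19944 / 25) * ζ * u ^ 2 * v ^ 8 + (29916 / 25) * ζ * u ^ 3 * v ^ 7 + (9972 / 5) * ζ * u ^ 4 * v ^ 6 + (4986 / 5) * ζ * u ^ 5 * v ^ 5 + (19944 / 25) * ζ * u ^ 6 * v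 ^ 4 + (-9972 / 25) * ζ * u ^ 7 * v ^ 3 + (9972 / 25) * ζ * u ^ 8 * v ^ 2 + (831 / 25) * ζ * u ^ 10 + (396 / 5) * ζ ^ 2 * v ^ 10 + (4752 / 5) * ζ ^ 2 * u * v ^ 9 + (9504 / 5) * ζ ^ 2 * u ^ 2 * v ^ 8 + (14256 / 5) * ζ ^ 2 * u ^ 3 * v ^ 7 + (4752) * ζ ^ 2 * u ^ 4 * v ^ 6 + (2376) * ζ ^ 2 * u ^ 5 * v ^ 5 + (9504 / 5) * ζ ^ 2 * u ^ 6 * v ^ 4 + (-4752 / 5) * ζ ^ 2 * u ^ 7 * v ^ 3 + (4752 / 5) * ζ ^ 2 * u ^ 8 * v ^ 2 + (396 / 5) * ζ ^ 2 * u ^ 10 + (2736 / 25) * ζ ^ 3 * v ^ 10 + (32832 / 25) * ζ ^ 3 * u * v ^ 9 + (65664 / 25) * ζ ^ 3 * u ^ 2 * v ^ 8 + (98496 / 25) * ζ ^ 3 * u ^ 3 * v ^ 7 + (32832 / 5) * ζ ^ 3 * u ^ 4 * v ^ 6 + (16416 / 5) * ζ ^ 3 * u ^ 5 * v ^ 5 + (65664 / 25) * ζ ^ 3 * u ^ 6 * v ^ 4 + (-32832 / 25)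 * ζ ^ 3 * u ^ 7 * v ^ 3 + (32832 / 25) * ζ ^ 3 * u ^ 8 * v ^ 2 + (2736 / 25) * ζ ^ 3 * u ^ 10 + (2883 / 25) * ζ ^ 4 * v ^ 10 + (34596 / 25) * ζ ^ 4 * u * v ^ 9 + (69192 / 25) * ζ ^ 4 * u ^ 2 * v ^ 8 + (103788 / 25) * ζ ^ 4 * u ^ 3 * v ^ 7 + (34596 / 5) * ζ ^ 4 * u ^ 4 * v ^ 6 + (17298 / 5) * ζ ^ 4 * u ^ 5 * v ^ 5 + (69192 / 25) * ζ ^ 4 * u ^ 6 * v ^ 4 + (-34596 / 25) * ζ ^ 4 * u ^ 7 * v ^ 3 + (34596 / 25) * ζ ^ 4 * u ^ 8 * v ^ 2 + (2883 / 25) * ζ ^ 4 * u ^ 10 + (504 / 5) * ζ ^ 5 * v ^ 10 + (6048 / 5) * ζ ^ 5 * u * v ^ 9 + (12096 / 5) * ζ ^ 5 * u ^ 2 * v ^ 8 + (18144 / 5) * ζ ^ 5 * u ^ 3 * v ^ 7 + (6048) * ζ ^ 5 * u ^ 4 * v ^ 6 + (3024) * ζ ^ 5 * u ^ 5 * v ^ 5 + (12096 / 5) * ζ ^ 5 * u ^ 6 * v ^ 4 + (-6048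 / 5) * ζ ^ 5 * u ^ 7 * v ^ 3 + (6048 / 5) * ζ ^ 5 * u ^ 8 * v ^ 2 + (504 / 5) * ζ ^ 5 * u ^ 10 + (1662 / 25) * ζ ^ 6 * v ^ 10 + (19944 / 25) * ζ ^ 6 * u * v ^ 9 + (39888 / 25) * ζ ^ 6 * u ^ 2 * v ^ 8 + (59832 / 25) * ζ ^ 6 * u ^ 3 * v ^ 7 + (19944 / 5) * ζ ^ 6 * u ^ 4 * v ^ 6 + (9972 / 5) * ζ ^ 6 * u ^ 5 * v ^ 5 + (39888 / 25) * ζ ^ 6 * u ^ 6 * v ^ 4 + (-19944 / 25) * ζ ^ 6 * u ^ 7 * v ^ 3 + (19944 / 25) * ζ ^ 6 * u ^ 8 * v ^ 2 + (1662 / 25) * ζ ^ 6 * u ^ 10 + (693 / 25) * ζ ^ 7 * v ^ 10 + (8316 / 25) * ζ ^ 7 * u * v ^ 9 + (16632 / 25) * ζ ^ 7 * u ^ 2 * v ^ 8 + (24948 / 25) * ζ ^ 7 * u ^ 3 * v ^ 7 + (8316 / 5) * ζ ^ 7 * u ^ 4 * v ^ 6 + (4158 / 5) * ζ ^ 7 * u ^ 5 * v ^ 5 + (16632 / 25) * ζ ^ 7 * u ^ 6 * v ^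 4 + (-8316 / 25) * ζ ^ 7 * u ^ 7 * v ^ 3 + (8316 / 25) * ζ ^ 7 * u ^ 8 * v ^ 2 + (693 / 25) * ζ ^ 7 * u ^ 10 + (147 / 25) * ζ ^ 8 * v ^ 10 + (1764 / 25) * ζ ^ 8 * u * v ^ 9 + (3528 / 25) * ζ ^ 8 * u ^ 2 * v ^ 8 + (5292 / 25) * ζ ^ 8 * u ^ 3 * v ^ 7 + (1764 / 5) * ζ ^ 8 * u ^ 4 * v ^ 6 + (882 / 5) * ζ ^ 8 * u ^ 5 * v ^ 5 + (3528 / 25) * ζ ^ 8 * u ^ 6 * v ^ 4 + (-1764 / 25) * ζ ^ 8 * u ^ 7 * v ^ 3 + (1764 / 25) * ζ ^ 8 * u ^ 8 * v ^ 2 + (147 / 25) * ζ ^ 8 * u ^ 10) * hζ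

theorem u5ki_YS (ζ u v : K) (hζ : ζ ^ 4 + ζ ^ 3 + ζ ^ 2 + ζ + 1 = 0) :
    u5kwY1 (u5kiKap ζ) (u5kiSsS ζ u v) (u5kiStS ζ u v) = u5kiYS u v := by
  simp only [u5kwY1, u5kiKap, u5kiSsS, u5kiStS, u5kiYS]
  linear_combination ((36828 / 125) * u * v ^ 14 + (147312 / 125) * u ^ 2 * v ^ 13 + (331452 / 125) * u ^ 3 * v ^ 12 + (110484 / 25) * u ^ 4 * v ^ 11 + (36828 / 5) * u ^ 5 * v ^ 10 + (1068012 / 125) * u ^ 6 * v ^ 9 + (773388 / 125) * u ^ 7 * v ^ 8 + (220968 / 125) * u ^ 8 * v ^ 7 + (36828 / 25) * u ^ 9 * v ^ 6 + (147312 / 125) * u ^ 11 * v ^ 4 + (36828 / 125) * u ^ 12 * v ^ 3 + (36828 / 125) * u ^ 13 * v ^ 2 + (243108 / 125) * ζ * u * v ^ 14 + (972432 / 125) * ζ * u ^ 2 * v ^ 13 + (2187972 / 125) * ζ * u ^ 3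 * v ^ 12 + (729324 / 25) * ζ * u ^ 4 * v ^ 11 + (243108 / 5) * ζ * u ^ 5 * v ^ 10 + (7050132 / 125) * ζ * u ^ 6 * v ^ 9 + (5105268 / 125) * ζ * u ^ 7 * v ^ 8 + (1458648 / 125) * ζ * u ^ 8 * v ^ 7 + (243108 / 25) * ζ * u ^ 9 * v ^ 6 + (972432 / 125) * ζ * u ^ 11 * v ^ 4 + (243108 / 125) * ζ * u ^ 12 * v ^ 3 + (243108 / 125) * ζ * u ^ 13 * v ^ 2 + (1201392 / 125) * ζ ^ 2 * u * v ^ 14 + (4805568 / 125) * ζ ^ 2 * u ^ 2 * v ^ 13 + (10812528 / 125) * ζ ^ 2 * u ^ 3 * v ^ 12 + (3604176 / 25) * ζ ^ 2 * u ^ 4 * v ^ 11 + (1201392 / 5) * ζ ^ 2 * u ^ 5 * v ^ 10 + (34840368 / 125) * ζ ^ 2 * u ^ 6 * v ^ 9 + (25229232 / 125) * ζ ^ 2 * u ^ 7 * v ^ 8 + (7208352 / 125) * ζ ^ 2 * u ^ 8 * v ^ 7 + (1201392 / 25) * ζ ^ 2 * u ^ 9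 * v ^ 6 + (4805568 / 125) * ζ ^ 2 * u ^ 11 * v ^ 4 + (1201392 / 125) * ζ ^ 2 * u ^ 12 * v ^ 3 + (1201392 / 125) * ζ ^ 2 * u ^ 13 * v ^ 2 + (653184 / 25) * ζ ^ 3 * u * v ^ 14 + (2612736 / 25) * ζ ^ 3 * u ^ 2 * v ^ 13 + (5878656 / 25) * ζ ^ 3 * u ^ 3 * v ^ 12 + (1959552 / 5) * ζ ^ 3 * u ^ 4 * v ^ 11 + (653184) * ζ ^ 3 * u ^ 5 * v ^ 10 + (18942336 / 25) * ζ ^ 3 * u ^ 6 * v ^ 9 + (13716864 / 25) * ζ ^ 3 * u ^ 7 * v ^ 8 + (3919104 / 25) * ζ ^ 3 * u ^ 8 * v ^ 7 + (653184 / 5) * ζ ^ 3 * u ^ 9 * v ^ 6 + (2612736 / 25) * ζ ^ 3 * u ^ 11 * v ^ 4 + (653184 / 25) * ζ ^ 3 * u ^ 12 * v ^ 3 + (653184 / 25) * ζ ^ 3 * u ^ 13 * v ^ 2 + (6160536 / 125) * ζ ^ 4 * u * v ^ 14 + (24642144 / 125) * ζ ^ 4 * u ^ 2 * v ^ 13 + (55444824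 / 125) * ζ ^ 4 * u ^ 3 * v ^ 12 + (18481608 / 25) * ζ ^ 4 * u ^ 4 * v ^ 11 + (6160536 / 5) * ζ ^ 4 * u ^ 5 * v ^ 10 + (178655544 / 125) * ζ ^ 4 * u ^ 6 * v ^ 9 + (129371256 / 125) * ζ ^ 4 * u ^ 7 * v ^ 8 + (36963216 / 125) * ζ ^ 4 * u ^ 8 * v ^ 7 + (6160536 / 25) * ζ ^ 4 * u ^ 9 * v ^ 6 + (24642144 / 125) * ζ ^ 4 * u ^ 11 * v ^ 4 + (6160536 / 125) * ζ ^ 4 * u ^ 12 * v ^ 3 + (6160536 / 125) * ζ ^ 4 * u ^ 13 * v ^ 2 + (9249444 / 125) * ζ ^ 5 * u * v ^ 14 + (36997776 / 125) * ζ ^ 5 * u ^ 2 * v ^ 13 + (83244996 / 125) * ζ ^ 5 * u ^ 3 * v ^ 12 + (27748332 / 25) * ζ ^ 5 * u ^ 4 * v ^ 11 + (9249444 / 5) * ζ ^ 5 * u ^ 5 * v ^ 10 + (268233876 / 125) * ζ ^ 5 * u ^ 6 * v ^ 9 + (194238324 / 125) * ζ ^ 5 * u ^ 7 * v ^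 8 + (55496664 / 125) * ζ ^ 5 * u ^ 8 * v ^ 7 + (9249444 / 25) * ζ ^ 5 * u ^ 9 * v ^ 6 + (36997776 / 125) * ζ ^ 5 * u ^ 11 * v ^ 4 + (9249444 / 125) * ζ ^ 5 * u ^ 12 * v ^ 3 + (9249444 / 125) * ζ ^ 5 * u ^ 13 * v ^ 2 + (11623392 / 125) * ζ ^ 6 * u * v ^ 14 + (46493568 / 125) * ζ ^ 6 * u ^ 2 * v ^ 13 + (104610528 / 125) * ζ ^ 6 * u ^ 3 * v ^ 12 + (34870176 / 25) * ζ ^ 6 * u ^ 4 * v ^ 11 + (11623392 / 5) * ζ ^ 6 * u ^ 5 * v ^ 10 + (337078368 / 125) * ζ ^ 6 * u ^ 6 * v ^ 9 + (244091232 / 125) * ζ ^ 6 * u ^ 7 * v ^ 8 + (69740352 / 125) * ζ ^ 6 * u ^ 8 * v ^ 7 + (11623392 / 25) * ζ ^ 6 * u ^ 9 * v ^ 6 + (46493568 / 125) * ζ ^ 6 * u ^ 11 * v ^ 4 + (11623392 / 125) * ζ ^ 6 * u ^ 12 * v ^ 3 + (11623392 / 125) * ζ ^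 6 * u ^ 13 * v ^ 2 + (12303792 / 125) * ζ ^ 7 * u * v ^ 14 + (49215168 / 125) * ζ ^ 7 * u ^ 2 * v ^ 13 + (110734128 / 125) * ζ ^ 7 * u ^ 3 * v ^ 12 + (36911376 / 25) * ζ ^ 7 * u ^ 4 * v ^ 11 + (12303792 / 5) * ζ ^ 7 * u ^ 5 * v ^ 10 + (356809968 / 125) * ζ ^ 7 * u ^ 6 * v ^ 9 + (258379632 / 125) * ζ ^ 7 * u ^ 7 * v ^ 8 + (73822752 / 125) * ζ ^ 7 * u ^ 8 * v ^ 7 + (12303792 / 25) * ζ ^ 7 * u ^ 9 * v ^ 6 + (49215168 / 125) * ζ ^ 7 * u ^ 11 * v ^ 4 + (12303792 / 125) * ζ ^ 7 * u ^ 12 * v ^ 3 + (12303792 / 125) * ζ ^ 7 * u ^ 13 * v ^ 2 + (10983924 / 125) * ζ ^ 8 * u * v ^ 14 + (43935696 / 125) * ζ ^ 8 * u ^ 2 * v ^ 13 + (98855316 / 125) * ζ ^ 8 * u ^ 3 * v ^ 12 + (32951772 / 25) * ζ ^ 8 * u ^ 4 * v ^ 11 + (10983924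 / 5) * ζ ^ 8 * u ^ 5 * v ^ 10 + (318533796 / 125) * ζ ^ 8 * u ^ 6 * v ^ 9 + (230662404 / 125) * ζ ^ 8 * u ^ 7 * v ^ 8 + (65903544 / 125) * ζ ^ 8 * u ^ 8 * v ^ 7 + (10983924 / 25) * ζ ^ 8 * u ^ 9 * v ^ 6 + (43935696 / 125) * ζ ^ 8 * u ^ 11 * v ^ 4 + (10983924 / 125) * ζ ^ 8 * u ^ 12 * v ^ 3 + (10983924 / 125) * ζ ^ 8 * u ^ 13 * v ^ 2 + (1666548 / 25) * ζ ^ 9 * u * v ^ 14 + (6666192 / 25) * ζ ^ 9 * u ^ 2 * v ^ 13 + (14998932 / 25) * ζ ^ 9 * u ^ 3 * v ^ 12 + (4999644 / 5) * ζ ^ 9 * u ^ 4 * v ^ 11 + (1666548) * ζ ^ 9 * u ^ 5 * v ^ 10 + (48329892 / 25) * ζ ^ 9 * u ^ 6 * v ^ 9 + (34997508 / 25) * ζ ^ 9 * u ^ 7 * v ^ 8 + (9999288 / 25) * ζ ^ 9 * u ^ 8 * v ^ 7 + (1666548 / 5) * ζ ^ 9 * u ^ 9 * v ^ 6 + (6666192 / 25)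 * ζ ^ 9 * u ^ 11 * v ^ 4 + (1666548 / 25) * ζ ^ 9 * u ^ 12 * v ^ 3 + (1666548 / 25) * ζ ^ 9 * u ^ 13 * v ^ 2 + (5333148 / 125) * ζ ^ 10 * u * v ^ 14 + (21332592 / 125) * ζ ^ 10 * u ^ 2 * v ^ 13 + (47998332 / 125) * ζ ^ 10 * u ^ 3 * v ^ 12 + (15999444 / 25) * ζ ^ 10 * u ^ 4 * v ^ 11 + (5333148 / 5) * ζ ^ 10 * u ^ 5 * v ^ 10 + (154661292 / 125) * ζ ^ 10 * u ^ 6 * v ^ 9 + (111996108 / 125) * ζ ^ 10 * u ^ 7 * v ^ 8 + (31998888 / 125) * ζ ^ 10 * u ^ 8 * v ^ 7 + (5333148 / 25) * ζ ^ 10 * u ^ 9 * v ^ 6 + (21332592 / 125) * ζ ^ 10 * u ^ 11 * v ^ 4 + (5333148 / 125) * ζ ^ 10 * u ^ 12 * v ^ 3 + (5333148 / 125) * ζ ^ 10 * u ^ 13 * v ^ 2 + (553824 / 25) * ζ ^ 11 * u * v ^ 14 + (2215296 / 25) * ζ ^ 11 * u ^ 2 * v ^ 13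 + (4984416 / 25) * ζ ^ 11 * u ^ 3 * v ^ 12 + (1661472 / 5) * ζ ^ 11 * u ^ 4 * v ^ 11 + (553824) * ζ ^ 11 * u ^ 5 * v ^ 10 + (16060896 / 25) * ζ ^ 11 * u ^ 6 * v ^ 9 + (11630304 / 25) * ζ ^ 11 * u ^ 7 * v ^ 8 + (3322944 / 25) * ζ ^ 11 * u ^ 8 * v ^ 7 + (553824 / 5) * ζ ^ 11 * u ^ 9 * v ^ 6 + (2215296 / 25) * ζ ^ 11 * u ^ 11 * v ^ 4 + (553824 / 25) * ζ ^ 11 * u ^ 12 * v ^ 3 + (553824 / 25) * ζ ^ 11 * u ^ 13 * v ^ 2 + (1081836 / 125) * ζ ^ 12 * u * v ^ 14 + (4327344 / 125) * ζ ^ 12 * u ^ 2 * v ^ 13 + (9736524 / 125) * ζ ^ 12 * u ^ 3 * v ^ 12 + (3245508 / 25) * ζ ^ 12 * u ^ 4 * v ^ 11 + (1081836 / 5) * ζ ^ 12 * u ^ 5 * v ^ 10 + (31373244 / 125) * ζ ^ 12 * u ^ 6 * v ^ 9 + (22718556 / 125) * ζ ^ 12 * u ^ 7 * v ^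 8 + (6491016 / 125) * ζ ^ 12 * u ^ 8 * v ^ 7 + (1081836 / 25) * ζ ^ 12 * u ^ 9 * v ^ 6 + (4327344 / 125) * ζ ^ 12 * u ^ 11 * v ^ 4 + (1081836 / 125) * ζ ^ 12 * u ^ 12 * v ^ 3 + (1081836 / 125) * ζ ^ 12 * u ^ 13 * v ^ 2 + (280476 / 125) * ζ ^ 13 * u * v ^ 14 + (1121904 / 125) * ζ ^ 13 * u ^ 2 * v ^ 13 + (2524284 / 125) * ζ ^ 13 * u ^ 3 * v ^ 12 + (841428 / 25) * ζ ^ 13 * u ^ 4 * v ^ 11 + (280476 / 5) * ζ ^ 13 * u ^ 5 * v ^ 10 + (8133804 / 125) * ζ ^ 13 * u ^ 6 * v ^ 9 + (5889996 / 125) * ζ ^ 13 * u ^ 7 * v ^ 8 + (1682856 / 125) * ζ ^ 13 * u ^ 8 * v ^ 7 + (280476 / 25) * ζ ^ 13 * u ^ 9 * v ^ 6 + (1121904 / 125) * ζ ^ 13 * u ^ 11 * v ^ 4 + (280476 / 125) * ζ ^ 13 * u ^ 12 * v ^ 3 + (280476 / 125) * ζ ^ 13 * u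 ^ 13 * v ^ 2 + (37044 / 125) * ζ ^ 14 * u * v ^ 14 + (148176 / 125) * ζ ^ 14 * u ^ 2 * v ^ 13 + (333396 / 125) * ζ ^ 14 * u ^ 3 * v ^ 12 + (111132 / 25) * ζ ^ 14 * u ^ 4 * v ^ 11 + (37044 / 5) * ζ ^ 14 * u ^ 5 * v ^ 10 + (1074276 / 125) * ζ ^ 14 * u ^ 6 * v ^ 9 + (777924 / 125) * ζ ^ 14 * u ^ 7 * v ^ 8 + (222264 / 125) * ζ ^ 14 * u ^ 8 * v ^ 7 + (37044 / 25) * ζ ^ 14 * u ^ 9 * v ^ 6 + (148176 / 125) * ζ ^ 14 * u ^ 11 * v ^ 4 + (37044 / 125) * ζ ^ 14 * u ^ 12 * v ^ 3 + (37044 / 125) * ζ ^ 14 * u ^ 13 * v ^ 2) * hζ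

theorem u5ki_HS (ζ u v : K) (hζ : ζ ^ 4 + ζ ^ 3 + ζ ^ 2 + ζ + 1 = 0) :
    -3 * u5kiXS u v ^ 2 - 6 * u5kiKap ζ * (u5kiSsS ζ u v - u5kiStS ζ u v) * u5kiYS u v = 27 * u5kiHq (u ^ 5) (v ^ 5) := by
  simp only [u5kiXS, u5kiYS, u5kiKap, u5kiSsS, u5kiStS, u5kiHq]
  linear_combination ((-7128 / 5) * u * v ^ 19 + (-57024 / 5) * u ^ 2 * v ^ 18 + (-192456 / 5) * u ^ 3 * v ^ 17 + (-92664) * u ^ 4 * v ^ 16 + (-178200) * u ^ 5 * v ^ 15 + (-1468368 / 5) * u ^ 6 * v ^ 14 + (-1874664 / 5) * u ^ 7 * v ^ 13 + (-1974456 / 5) * u ^ 8 * v ^ 12 + (-299376) * u ^ 9 * v ^ 11 + (-178200) * u ^ 10 * v ^ 10 + (-263736 / 5) * u ^ 11 * v ^ 9 + (-399168 / 5) * u ^ 12 * v ^ 8 + (-64152 / 5) * u ^ 13 * v ^ 7 + (-49896) * u ^ 14 * v ^ 6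 + (-57024 / 5) * u ^ 16 * v ^ 4 + (7128 / 5) * u ^ 17 * v ^ 3 + (-7128 / 5) * u ^ 18 * v ^ 2 + (-8424 / 5) * ζ * u * v ^ 19 + (-67392 / 5) * ζ * u ^ 2 * v ^ 18 + (-227448 / 5) * ζ * u ^ 3 * v ^ 17 + (-109512) * ζ * u ^ 4 * v ^ 16 + (-210600) * ζ * u ^ 5 * v ^ 15 + (-1735344 / 5) * ζ * u ^ 6 * v ^ 14 + (-2215512 / 5) * ζ * u ^ 7 * v ^ 13 + (-2333448 / 5) * ζ * u ^ 8 * v ^ 12 + (-353808) * ζ * u ^ 9 * v ^ 11 + (-210600) * ζ * u ^ 10 * v ^ 10 + (-311688 / 5) * ζ * u ^ 11 * v ^ 9 + (-471744 / 5) * ζ * u ^ 12 * v ^ 8 + (-75816 / 5) * ζ * u ^ 13 * v ^ 7 + (-58968) * ζ * u ^ 14 * v ^ 6 + (-67392 / 5) * ζ * u ^ 16 * v ^ 4 + (8424 / 5) * ζ * u ^ 17 * v ^ 3 + (-8424 / 5) * ζ * u ^ 18 * v ^ 2 + (-4536 / 5) * ζ ^ 2 *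 u * v ^ 19 + (-36288 / 5) * ζ ^ 2 * u ^ 2 * v ^ 18 + (-122472 / 5) * ζ ^ 2 * u ^ 3 * v ^ 17 + (-58968) * ζ ^ 2 * u ^ 4 * v ^ 16 + (-113400) * ζ ^ 2 * u ^ 5 * v ^ 15 + (-934416 / 5) * ζ ^ 2 * u ^ 6 * v ^ 14 + (-1192968 / 5) * ζ ^ 2 * u ^ 7 * v ^ 13 + (-1256472 / 5) * ζ ^ 2 * u ^ 8 * v ^ 12 + (-190512) * ζ ^ 2 * u ^ 9 * v ^ 11 + (-113400) * ζ ^ 2 * u ^ 10 * v ^ 10 + (-167832 / 5) * ζ ^ 2 * u ^ 11 * v ^ 9 + (-254016 / 5) * ζ ^ 2 * u ^ 12 * v ^ 8 + (-40824 / 5) * ζ ^ 2 * u ^ 13 * v ^ 7 + (-31752) * ζ ^ 2 * u ^ 14 * v ^ 6 + (-36288 / 5) * ζ ^ 2 * u ^ 16 * v ^ 4 + (4536 / 5) * ζ ^ 2 * u ^ 17 * v ^ 3 + (-4536 / 5) * ζ ^ 2 * u ^ 18 * v ^ 2) * hζ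

theorem u5ki_XST (ζ u v : K) (hζ : ζ ^ 4 + ζ ^ 3 + ζ ^ 2 + ζ + 1 = 0) :
    u5kiXS (ζ ^ 3 * u) (ζ ^ 2 * v) = u5kiXSTe ζ u v := by
  simp only [u5kiXS, u5kiXSTe]
  linear_combination ((-3) * v ^ 10 + (180) * u ^ 4 * v ^ 6 + (-90) * u ^ 5 * v ^ 5 + (-3) * u ^ 10 + (3) * ζ * v ^ 10 + (-36) * ζ * u * v ^ 9 + (90) * ζ * u ^ 5 * v ^ 5 + (-72) * ζ * u ^ 6 * v ^ 4 + (3) * ζ * u ^ 10 + (36) * ζ ^ 2 * u * v ^ 9 + (-72) * ζ ^ 2 * u ^ 2 * v ^ 8 + (72) * ζ ^ 2 * u ^ 6 * v ^ 4 + (36) * ζ ^ 2 * u ^ 7 * v ^ 3 + (72) * ζ ^ 3 * u ^ 2 * v ^ 8 + (-108) * ζ ^ 3 * u ^ 3 * v ^ 7 + (-36) * ζ ^ 3 * u ^ 7 * v ^ 3 + (-36) * ζ ^ 3 * u ^ 8 * v ^ 2 + (108) * ζ ^ 4 * u ^ 3 * v ^ 7 + (-180) * ζ ^ 4 * u ^ 4 * v ^ 6 + (36) * ζ ^ 4 * u ^ 8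 * v ^ 2 + (-3) * ζ ^ 5 * v ^ 10 + (180) * ζ ^ 5 * u ^ 4 * v ^ 6 + (-90) * ζ ^ 5 * u ^ 5 * v ^ 5 + (-3) * ζ ^ 5 * u ^ 10 + (3) * ζ ^ 6 * v ^ 10 + (-36) * ζ ^ 6 * u * v ^ 9 + (90) * ζ ^ 6 * u ^ 5 * v ^ 5 + (-72) * ζ ^ 6 * u ^ 6 * v ^ 4 + (3) * ζ ^ 6 * u ^ 10 + (36) * ζ ^ 7 * u * v ^ 9 + (-72) * ζ ^ 7 * u ^ 2 * v ^ 8 + (72) * ζ ^ 7 * u ^ 6 * v ^ 4 + (36) * ζ ^ 7 * u ^ 7 * v ^ 3 + (72) * ζ ^ 8 * u ^ 2 * v ^ 8 + (-108) * ζ ^ 8 * u ^ 3 * v ^ 7 + (-36) * ζ ^ 8 * u ^ 7 * v ^ 3 + (-36) * ζ ^ 8 * u ^ 8 * v ^ 2 + (108) * ζ ^ 9 * u ^ 3 * v ^ 7 + (-180) * ζ ^ 9 * u ^ 4 * v ^ 6 + (36) * ζ ^ 9 * u ^ 8 * v ^ 2 + (-3) * ζ ^ 10 * v ^ 10 + (180) * ζ ^ 10 * u ^ 4 * v ^ 6 + (-90) * ζ ^ 10 * u ^ 5 * v ^ 5 + (-3) * ζ ^ 10 * u ^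 10 + (3) * ζ ^ 11 * v ^ 10 + (-36) * ζ ^ 11 * u * v ^ 9 + (90) * ζ ^ 11 * u ^ 5 * v ^ 5 + (-72) * ζ ^ 11 * u ^ 6 * v ^ 4 + (3) * ζ ^ 11 * u ^ 10 + (36) * ζ ^ 12 * u * v ^ 9 + (-72) * ζ ^ 12 * u ^ 2 * v ^ 8 + (72) * ζ ^ 12 * u ^ 6 * v ^ 4 + (36) * ζ ^ 12 * u ^ 7 * v ^ 3 + (72) * ζ ^ 13 * u ^ 2 * v ^ 8 + (-108) * ζ ^ 13 * u ^ 3 * v ^ 7 + (-36) * ζ ^ 13 * u ^ 7 * v ^ 3 + (-36) * ζ ^ 13 * u ^ 8 * v ^ 2 + (108) * ζ ^ 14 * u ^ 3 * v ^ 7 + (-180) * ζ ^ 14 * u ^ 4 * v ^ 6 + (36) * ζ ^ 14 * u ^ 8 * v ^ 2 + (-3) * ζ ^ 15 * v ^ 10 + (180) * ζ ^ 15 * u ^ 4 * v ^ 6 + (-90) * ζ ^ 15 * u ^ 5 * v ^ 5 + (-3) * ζ ^ 15 * u ^ 10 + (3) * ζ ^ 16 * v ^ 10 + (-36) * ζ ^ 16 * u * v ^ 9 + (90) * ζ ^ 16 * u ^ 5 * v ^ 5 + (-72) * ζ ^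 16 * u ^ 6 * v ^ 4 + (3) * ζ ^ 16 * u ^ 10 + (36) * ζ ^ 17 * u * v ^ 9 + (-72) * ζ ^ 17 * u ^ 2 * v ^ 8 + (72) * ζ ^ 17 * u ^ 6 * v ^ 4 + (36) * ζ ^ 17 * u ^ 7 * v ^ 3 + (72) * ζ ^ 18 * u ^ 2 * v ^ 8 + (-108) * ζ ^ 18 * u ^ 3 * v ^ 7 + (-36) * ζ ^ 18 * u ^ 7 * v ^ 3 + (-36) * ζ ^ 18 * u ^ 8 * v ^ 2 + (108) * ζ ^ 19 * u ^ 3 * v ^ 7 + (-180) * ζ ^ 19 * u ^ 4 * v ^ 6 + (36) * ζ ^ 19 * u ^ 8 * v ^ 2 + (180) * ζ ^ 20 * u ^ 4 * v ^ 6 + (-90) * ζ ^ 20 * u ^ 5 * v ^ 5 + (-3) * ζ ^ 20 * u ^ 10 + (90) * ζ ^ 21 * u ^ 5 * v ^ 5 + (-72) * ζ ^ 21 * u ^ 6 * v ^ 4 + (3) * ζ ^ 21 * u ^ 10 + (72) * ζ ^ 22 * u ^ 6 * v ^ 4 + (36) * ζ ^ 22 * u ^ 7 * v ^ 3 + (-36) * ζ ^ 23 * u ^ 7 * v ^ 3 + (-36) * ζ ^ 23 * u ^ 8 * v ^ 2 + (36)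 * ζ ^ 24 * u ^ 8 * v ^ 2 + (-3) * ζ ^ 25 * u ^ 10 + (3) * ζ ^ 26 * u ^ 10) * hζ

theorem u5ki_YST (ζ u v : K) (hζ : ζ ^ 4 + ζ ^ 3 + ζ ^ 2 + ζ + 1 = 0) :
    u5kiYS (ζ ^ 3 * u) (ζ ^ 2 * v) = u5kiYSTe ζ u v := by
  simp only [u5kiYS, u5kiYSTe]
  linear_combination ((-1620) * u ^ 4 * v ^ 11 + (2700) * u ^ 5 * v ^ 10 + (-540) * u ^ 9 * v ^ 6 + (108) * ζ * u * v ^ 14 + (-2700) * ζ * u ^ 5 * v ^ 10 + (3132) * ζ * u ^ 6 * v ^ 9 + (432) * ζ * u ^ 11 * v ^ 4 + (-108) * ζ ^ 2 * u * v ^ 14 + (432) * ζ ^ 2 * u ^ 2 * v ^ 13 + (-3132) * ζ ^ 2 * u ^ 6 * v ^ 9 + (2268) * ζ ^ 2 * u ^ 7 * v ^ 8 + (-432) * ζ ^ 2 * u ^ 11 * v ^ 4 + (108) * ζ ^ 2 * u ^ 12 * v ^ 3 + (-432) * ζ ^ 3 * u ^ 2 * v ^ 13 + (972) * ζ ^ 3 * u ^ 3 * v ^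 12 + (-2268) * ζ ^ 3 * u ^ 7 * v ^ 8 + (648) * ζ ^ 3 * u ^ 8 * v ^ 7 + (-108) * ζ ^ 3 * u ^ 12 * v ^ 3 + (108) * ζ ^ 3 * u ^ 13 * v ^ 2 + (-972) * ζ ^ 4 * u ^ 3 * v ^ 12 + (1620) * ζ ^ 4 * u ^ 4 * v ^ 11 + (-648) * ζ ^ 4 * u ^ 8 * v ^ 7 + (540) * ζ ^ 4 * u ^ 9 * v ^ 6 + (-108) * ζ ^ 4 * u ^ 13 * v ^ 2 + (-1620) * ζ ^ 5 * u ^ 4 * v ^ 11 + (2700) * ζ ^ 5 * u ^ 5 * v ^ 10 + (-540) * ζ ^ 5 * u ^ 9 * v ^ 6 + (108) * ζ ^ 6 * u * v ^ 14 + (-2700) * ζ ^ 6 * u ^ 5 * v ^ 10 + (3132) * ζ ^ 6 * u ^ 6 * v ^ 9 + (432) * ζ ^ 6 * u ^ 11 * v ^ 4 + (-108) * ζ ^ 7 * u * v ^ 14 + (432) * ζ ^ 7 * u ^ 2 * v ^ 13 + (-3132) * ζ ^ 7 * u ^ 6 * v ^ 9 + (2268) * ζ ^ 7 * u ^ 7 * v ^ 8 + (-432) * ζ ^ 7 * u ^ 11 * v ^ 4 + (108) * ζ ^ 7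 * u ^ 12 * v ^ 3 + (-432) * ζ ^ 8 * u ^ 2 * v ^ 13 + (972) * ζ ^ 8 * u ^ 3 * v ^ 12 + (-2268) * ζ ^ 8 * u ^ 7 * v ^ 8 + (648) * ζ ^ 8 * u ^ 8 * v ^ 7 + (-108) * ζ ^ 8 * u ^ 12 * v ^ 3 + (108) * ζ ^ 8 * u ^ 13 * v ^ 2 + (-972) * ζ ^ 9 * u ^ 3 * v ^ 12 + (1620) * ζ ^ 9 * u ^ 4 * v ^ 11 + (-648) * ζ ^ 9 * u ^ 8 * v ^ 7 + (540) * ζ ^ 9 * u ^ 9 * v ^ 6 + (-108) * ζ ^ 9 * u ^ 13 * v ^ 2 + (-1620) * ζ ^ 10 * u ^ 4 * v ^ 11 + (2700) * ζ ^ 10 * u ^ 5 * v ^ 10 + (-540) * ζ ^ 10 * u ^ 9 * v ^ 6 + (108) * ζ ^ 11 * u * v ^ 14 + (-2700) * ζ ^ 11 * u ^ 5 * v ^ 10 + (3132) * ζ ^ 11 * u ^ 6 * v ^ 9 + (432) * ζ ^ 11 * u ^ 11 * v ^ 4 + (-108) * ζ ^ 12 * u * v ^ 14 + (432) * ζ ^ 12 * u ^ 2 * v ^ 13 + (-3132) * ζ ^ 12 * u ^ 6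 * v ^ 9 + (2268) * ζ ^ 12 * u ^ 7 * v ^ 8 + (-432) * ζ ^ 12 * u ^ 11 * v ^ 4 + (108) * ζ ^ 12 * u ^ 12 * v ^ 3 + (-432) * ζ ^ 13 * u ^ 2 * v ^ 13 + (972) * ζ ^ 13 * u ^ 3 * v ^ 12 + (-2268) * ζ ^ 13 * u ^ 7 * v ^ 8 + (648) * ζ ^ 13 * u ^ 8 * v ^ 7 + (-108) * ζ ^ 13 * u ^ 12 * v ^ 3 + (108) * ζ ^ 13 * u ^ 13 * v ^ 2 + (-972) * ζ ^ 14 * u ^ 3 * v ^ 12 + (1620) * ζ ^ 14 * u ^ 4 * v ^ 11 + (-648) * ζ ^ 14 * u ^ 8 * v ^ 7 + (540) * ζ ^ 14 * u ^ 9 * v ^ 6 + (-108) * ζ ^ 14 * u ^ 13 * v ^ 2 + (-1620) * ζ ^ 15 * u ^ 4 * v ^ 11 + (2700) * ζ ^ 15 * u ^ 5 * v ^ 10 + (-540) * ζ ^ 15 * u ^ 9 * v ^ 6 + (108) * ζ ^ 16 * u * v ^ 14 + (-2700) * ζ ^ 16 * u ^ 5 * v ^ 10 + (3132) * ζ ^ 16 * u ^ 6 * v ^ 9 + (432) * ζ ^ 16 * u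 ^ 11 * v ^ 4 + (-108) * ζ ^ 17 * u * v ^ 14 + (432) * ζ ^ 17 * u ^ 2 * v ^ 13 + (-3132) * ζ ^ 17 * u ^ 6 * v ^ 9 + (2268) * ζ ^ 17 * u ^ 7 * v ^ 8 + (-432) * ζ ^ 17 * u ^ 11 * v ^ 4 + (108) * ζ ^ 17 * u ^ 12 * v ^ 3 + (-432) * ζ ^ 18 * u ^ 2 * v ^ 13 + (972) * ζ ^ 18 * u ^ 3 * v ^ 12 + (-2268) * ζ ^ 18 * u ^ 7 * v ^ 8 + (648) * ζ ^ 18 * u ^ 8 * v ^ 7 + (-108) * ζ ^ 18 * u ^ 12 * v ^ 3 + (108) * ζ ^ 18 * u ^ 13 * v ^ 2 + (-972) * ζ ^ 19 * u ^ 3 * v ^ 12 + (1620) * ζ ^ 19 * u ^ 4 * v ^ 11 + (-648) * ζ ^ 19 * u ^ 8 * v ^ 7 + (540) * ζ ^ 19 * u ^ 9 * v ^ 6 + (-108) * ζ ^ 19 * u ^ 13 * v ^ 2 + (-1620) * ζ ^ 20 * u ^ 4 * v ^ 11 + (2700) * ζ ^ 20 * u ^ 5 * v ^ 10 + (-540) * ζ ^ 20 * u ^ 9 * v ^ 6 + (108) * ζ ^ 21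 * u * v ^ 14 + (-2700) * ζ ^ 21 * u ^ 5 * v ^ 10 + (3132) * ζ ^ 21 * u ^ 6 * v ^ 9 + (432) * ζ ^ 21 * u ^ 11 * v ^ 4 + (-108) * ζ ^ 22 * u * v ^ 14 + (432) * ζ ^ 22 * u ^ 2 * v ^ 13 + (-3132) * ζ ^ 22 * u ^ 6 * v ^ 9 + (2268) * ζ ^ 22 * u ^ 7 * v ^ 8 + (-432) * ζ ^ 22 * u ^ 11 * v ^ 4 + (108) * ζ ^ 22 * u ^ 12 * v ^ 3 + (-432) * ζ ^ 23 * u ^ 2 * v ^ 13 + (972) * ζ ^ 23 * u ^ 3 * v ^ 12 + (-2268) * ζ ^ 23 * u ^ 7 * v ^ 8 + (648) * ζ ^ 23 * u ^ 8 * v ^ 7 + (-108) * ζ ^ 23 * u ^ 12 * v ^ 3 + (108) * ζ ^ 23 * u ^ 13 * v ^ 2 + (-972) * ζ ^ 24 * u ^ 3 * v ^ 12 + (1620) * ζ ^ 24 * u ^ 4 * v ^ 11 + (-648) * ζ ^ 24 * u ^ 8 * v ^ 7 + (540) * ζ ^ 24 * u ^ 9 * v ^ 6 + (-108) * ζ ^ 24 * u ^ 13 * v ^ 2 + (-1620) * ζ ^ 25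 * u ^ 4 * v ^ 11 + (2700) * ζ ^ 25 * u ^ 5 * v ^ 10 + (-540) * ζ ^ 25 * u ^ 9 * v ^ 6 + (108) * ζ ^ 26 * u * v ^ 14 + (-2700) * ζ ^ 26 * u ^ 5 * v ^ 10 + (3132) * ζ ^ 26 * u ^ 6 * v ^ 9 + (432) * ζ ^ 26 * u ^ 11 * v ^ 4 + (-108) * ζ ^ 27 * u * v ^ 14 + (432) * ζ ^ 27 * u ^ 2 * v ^ 13 + (-3132) * ζ ^ 27 * u ^ 6 * v ^ 9 + (2268) * ζ ^ 27 * u ^ 7 * v ^ 8 + (-432) * ζ ^ 27 * u ^ 11 * v ^ 4 + (108) * ζ ^ 27 * u ^ 12 * v ^ 3 + (-432) * ζ ^ 28 * u ^ 2 * v ^ 13 + (972) * ζ ^ 28 * u ^ 3 * v ^ 12 + (-2268) * ζ ^ 28 * u ^ 7 * v ^ 8 + (648) * ζ ^ 28 * u ^ 8 * v ^ 7 + (-108) * ζ ^ 28 * u ^ 12 * v ^ 3 + (108) * ζ ^ 28 * u ^ 13 * v ^ 2 + (-972) * ζ ^ 29 * u ^ 3 * v ^ 12 + (1620) * ζ ^ 29 * u ^ 4 * v ^ 11 + (-648) * ζ ^ 29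 * u ^ 8 * v ^ 7 + (540) * ζ ^ 29 * u ^ 9 * v ^ 6 + (-108) * ζ ^ 29 * u ^ 13 * v ^ 2 + (-1620) * ζ ^ 30 * u ^ 4 * v ^ 11 + (2700) * ζ ^ 30 * u ^ 5 * v ^ 10 + (-540) * ζ ^ 30 * u ^ 9 * v ^ 6 + (-2700) * ζ ^ 31 * u ^ 5 * v ^ 10 + (3132) * ζ ^ 31 * u ^ 6 * v ^ 9 + (432) * ζ ^ 31 * u ^ 11 * v ^ 4 + (-3132) * ζ ^ 32 * u ^ 6 * v ^ 9 + (2268) * ζ ^ 32 * u ^ 7 * v ^ 8 + (-432) * ζ ^ 32 * u ^ 11 * v ^ 4 + (108) * ζ ^ 32 * u ^ 12 * v ^ 3 + (-2268) * ζ ^ 33 * u ^ 7 * v ^ 8 + (648) * ζ ^ 33 * u ^ 8 * v ^ 7 + (-108) * ζ ^ 33 * u ^ 12 * v ^ 3 + (108) * ζ ^ 33 * u ^ 13 * v ^ 2 + (-648) * ζ ^ 34 * u ^ 8 * v ^ 7 + (540) * ζ ^ 34 * u ^ 9 * v ^ 6 + (-108) * ζ ^ 34 * u ^ 13 * v ^ 2 + (-540) * ζ ^ 35 * u ^ 9 * v ^ 6 + (432) * ζ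 ^ 36 * u ^ 11 * v ^ 4 + (-432) * ζ ^ 37 * u ^ 11 * v ^ 4 + (108) * ζ ^ 37 * u ^ 12 * v ^ 3 + (-108) * ζ ^ 38 * u ^ 12 * v ^ 3 + (108) * ζ ^ 38 * u ^ 13 * v ^ 2 + (-108) * ζ ^ 39 * u ^ 13 * v ^ 2) * hζ

/-- the chord `P₁(w) + P₁(ŜT̂w) = P₁(Ŝw)`, `X`-part -/
theorem u5ki_chordX (ζ u v : K) (hζ : ζ ^ 4 + ζ ^ 3 + ζ ^ 2 + ζ + 1 = 0) :
    (u5kiY1e ζ (u ^ 5) (v ^ 5) - u5kiYSTe ζ u v) ^ 2 =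
      (u5kiX1e ζ (u ^ 5) (v ^ 5) + u5kiXSTe ζ u v + u5kiXS u v) * (u5kiX1e ζ (u ^ 5) (v ^ 5) - u5kiXSTe ζ u v) ^ 2 := by
  simp only [u5kiY1e, u5kiYSTe, u5kiX1e, u5kiXSTe, u5kiXS]
  linear_combination ((373248 / 125) * v ^ 30 + (-186624 / 25) * u * v ^ 29 + (-373248 / 25) * u ^ 2 * v ^ 28 + (-559872 / 25) * u ^ 3 * v ^ 27 + (559872 / 5) * u ^ 4 * v ^ 26 + (-12317184 / 125) * u ^ 5 * v ^ 25 + (1119744 / 5) * u ^ 6 * v ^ 24 + (1492992 / 5) * u ^ 7 * v ^ 23 + (11943936 / 5) * u ^ 8 * v ^ 22 + (-55007424 / 5) * u ^ 9 * v ^ 21 + (238225536 / 25) * u ^ 10 * v ^ 20 + (-6111936 / 5) * u ^ 11 * v ^ 19 + (4105728) * u ^ 12 * v ^ 18 + (-24074496 / 5) * u ^ 13 * v ^ 17 + (6438528 / 5) * u ^ 14 * v ^ 16 + (29906496 / 25)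 * u ^ 15 * v ^ 15 + (-18709056 / 5) * u ^ 16 * v ^ 14 + (13716864 / 5) * u ^ 17 * v ^ 13 + (-2659392 / 5) * u ^ 18 * v ^ 12 + (3919104 / 5) * u ^ 19 * v ^ 11 + (-2612736 / 25) * u ^ 20 * v ^ 10 + (-699840) * u ^ 21 * v ^ 9 + (2239488 / 5) * u ^ 22 * v ^ 8 + (-1259712 / 5) * u ^ 23 * v ^ 7 + (-373248 / 5) * u ^ 24 * v ^ 6 + (1679616 / 125) * u ^ 25 * v ^ 5 + (-839808 / 25) * u ^ 26 * v ^ 4 + (419904 / 25) * u ^ 27 * v ^ 3 + (-419904 / 25) * u ^ 28 * v ^ 2 + (793152 / 125) * u ^ 30 + (559872 / 125) * ζ * v ^ 30 + (-93312 / 25) * ζ * u * v ^ 29 + (-559872 / 25) * ζ * u ^ 2 * v ^ 28 + (-1306368 / 25) * ζ * u ^ 3 * v ^ 27 + (1026432 / 5) * ζ * u ^ 4 * v ^ 26 + (-73296576 / 125) * ζ * u ^ 5 * v ^ 25 + (4012416 /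 5) * ζ * u ^ 6 * v ^ 24 + (3545856 / 5) * ζ * u ^ 7 * v ^ 23 + (2892672) * ζ * u ^ 8 * v ^ 22 + (-30279744 / 5) * ζ * u ^ 9 * v ^ 21 + (-306343296 / 25) * ζ * u ^ 10 * v ^ 20 + (84167424 / 5) * ζ * u ^ 11 * v ^ 19 + (34012224 / 5) * ζ * u ^ 12 * v ^ 18 + (-34805376 / 5) * ζ * u ^ 13 * v ^ 17 + (-19688832 / 5) * ζ * u ^ 14 * v ^ 16 + (106095744 / 25) * ζ * u ^ 15 * v ^ 15 + (-2192832 / 5) * ζ * u ^ 16 * v ^ 14 + (-13623552 / 5) * ζ * u ^ 17 * v ^ 13 + (9844416 / 5) * ζ * u ^ 18 * v ^ 12 + (2519424 / 5) * ζ * u ^ 19 * v ^ 11 + (6578496 / 25) * ζ * u ^ 20 * v ^ 10 + (-2426112 / 5) * ζ * u ^ 21 * v ^ 9 + (-1959552 / 5) * ζ * u ^ 22 * v ^ 8 + (1819584 / 5) * ζ * u ^ 23 * v ^ 7 + (93312 / 5) * ζ * u ^ 24 * v ^ 6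 + (2519424 / 125) * ζ * u ^ 25 * v ^ 5 + (513216 / 25) * ζ * u ^ 26 * v ^ 4 + (-419904 / 25) * ζ * u ^ 27 * v ^ 3 + (419904 / 25) * ζ * u ^ 28 * v ^ 2 + (-559872 / 125) * ζ * u ^ 30 + (373248 / 125) * ζ ^ 2 * v ^ 30 + (-186624 / 25) * ζ ^ 2 * u ^ 2 * v ^ 28 + (-606528 / 25) * ζ ^ 2 * u ^ 3 * v ^ 27 + (653184 / 5) * ζ ^ 2 * u ^ 4 * v ^ 26 + (-32145984 / 125) * ζ ^ 2 * u ^ 5 * v ^ 25 + (-1399680) * ζ ^ 2 * u ^ 6 * v ^ 24 + (16236288 / 5) * ζ ^ 2 * u ^ 7 * v ^ 23 + (15909696 / 5) * ζ ^ 2 * u ^ 8 * v ^ 22 + (-24401088 / 5) * ζ ^ 2 * u ^ 9 * v ^ 21 + (-127090944 / 25) * ζ ^ 2 * u ^ 10 * v ^ 20 + (-12690432) * ζ ^ 2 * u ^ 11 * v ^ 19 + (172673856 / 5) * ζ ^ 2 * u ^ 12 * v ^ 18 + (-66391488 / 5) * ζ ^ 2 * u ^ 13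 * v ^ 17 + (-38444544 / 5) * ζ ^ 2 * u ^ 14 * v ^ 16 + (242657856 / 25) * ζ ^ 2 * u ^ 15 * v ^ 15 + (-6858432) * ζ ^ 2 * u ^ 16 * v ^ 14 + (3872448) * ζ ^ 2 * u ^ 17 * v ^ 13 + (-1679616) * ζ ^ 2 * u ^ 18 * v ^ 12 + (-3359232 / 5) * ζ ^ 2 * u ^ 19 * v ^ 11 + (31446144 / 25) * ζ ^ 2 * u ^ 20 * v ^ 10 + (-419904) * ζ ^ 2 * u ^ 21 * v ^ 9 + (3405888 / 5) * ζ ^ 2 * u ^ 22 * v ^ 8 + (-1119744 / 5) * ζ ^ 2 * u ^ 23 * v ^ 7 + (-279936 / 5) * ζ ^ 2 * u ^ 24 * v ^ 6 + (16842816 / 125) * ζ ^ 2 * u ^ 25 * v ^ 5 + (-46656) * ζ ^ 2 * u ^ 26 * v ^ 4 + (93312 / 25) * ζ ^ 2 * u ^ 27 * v ^ 3 + (-279936 / 25) * ζ ^ 2 * u ^ 28 * v ^ 2 + (793152 / 125) * ζ ^ 2 * u ^ 30 + (46656 / 25) * ζ ^ 3 * u * v ^ 29 + (93312 / 25) * ζ ^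 3 * u ^ 2 * v ^ 28 + (-139968 / 25) * ζ ^ 3 * u ^ 3 * v ^ 27 + (419904 / 5) * ζ ^ 3 * u ^ 4 * v ^ 26 + (-93312) * ζ ^ 3 * u ^ 5 * v ^ 25 + (-1539648 / 5) * ζ ^ 3 * u ^ 6 * v ^ 24 + (-15116544 / 5) * ζ ^ 3 * u ^ 7 * v ^ 23 + (50528448 / 5) * ζ ^ 3 * u ^ 8 * v ^ 22 + (-21135168 / 5) * ζ ^ 3 * u ^ 9 * v ^ 21 + (-6158592) * ζ ^ 3 * u ^ 10 * v ^ 20 + (-36718272 / 5) * ζ ^ 3 * u ^ 11 * v ^ 19 + (78708672 / 5) * ζ ^ 3 * u ^ 12 * v ^ 18 + (8304768 / 5) * ζ ^ 3 * u ^ 13 * v ^ 17 + (-45909504 / 5) * ζ ^ 3 * u ^ 14 * v ^ 16 + (5645376) * ζ ^ 3 * u ^ 15 * v ^ 15 + (-15816384 / 5) * ζ ^ 3 * u ^ 16 * v ^ 14 + (-1819584) * ζ ^ 3 * u ^ 17 * v ^ 13 + (10637568 / 5) * ζ ^ 3 * u ^ 18 * v ^ 12 + (-4059072 / 5) * ζ ^ 3 * u ^ 19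 * v ^ 11 + (186624) * ζ ^ 3 * u ^ 20 * v ^ 10 + (746496 / 5) * ζ ^ 3 * u ^ 21 * v ^ 9 + (-2286144 / 5) * ζ ^ 3 * u ^ 22 * v ^ 8 + (-186624) * ζ ^ 3 * u ^ 23 * v ^ 7 + (-279936 / 5) * ζ ^ 3 * u ^ 24 * v ^ 6 + (326592 / 25) * ζ ^ 3 * u ^ 26 * v ^ 4 + (-46656 / 25) * ζ ^ 3 * u ^ 27 * v ^ 3 + (-46656 / 25) * ζ ^ 3 * u ^ 28 * v ^ 2 + (-93312 / 125) * ζ ^ 4 * v ^ 30 + (93312 / 25) * ζ ^ 4 * u ^ 2 * v ^ 28 + (139968 / 25) * ζ ^ 4 * u ^ 3 * v ^ 27 + (-93312 / 5) * ζ ^ 4 * u ^ 4 * v ^ 26 + (17076096 / 125) * ζ ^ 4 * u ^ 5 * v ^ 25 + (-186624) * ζ ^ 4 * u ^ 6 * v ^ 24 + (-1819584 / 5) * ζ ^ 4 * u ^ 7 * v ^ 23 + (-10870848 / 5) * ζ ^ 4 * u ^ 8 * v ^ 22 + (50341824 / 5) * ζ ^ 4 * u ^ 9 * v ^ 21 + (-212937984 / 25) * ζ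 ^ 4 * u ^ 10 * v ^ 20 + (-8351424) * ζ ^ 4 * u ^ 11 * v ^ 19 + (75676032 / 5) * ζ ^ 4 * u ^ 12 * v ^ 18 + (-24634368 / 5) * ζ ^ 4 * u ^ 13 * v ^ 17 + (-11803968 / 5) * ζ ^ 4 * u ^ 14 * v ^ 16 + (112954176 / 25) * ζ ^ 4 * u ^ 15 * v ^ 15 + (-4339008) * ζ ^ 4 * u ^ 16 * v ^ 14 + (1166400) * ζ ^ 4 * u ^ 17 * v ^ 13 + (2192832 / 5) * ζ ^ 4 * u ^ 18 * v ^ 12 + (-6951744 / 5) * ζ ^ 4 * u ^ 19 * v ^ 11 + (12317184 / 25) * ζ ^ 4 * u ^ 20 * v ^ 10 + (-93312) * ζ ^ 4 * u ^ 21 * v ^ 9 + (279936 / 5) * ζ ^ 4 * u ^ 22 * v ^ 8 + (186624) * ζ ^ 4 * u ^ 23 * v ^ 7 + (139968 / 5) * ζ ^ 4 * u ^ 24 * v ^ 6 + (5412096 / 125) * ζ ^ 4 * u ^ 25 * v ^ 5 + (-46656 / 25) * ζ ^ 4 * u ^ 27 * v ^ 3 + (46656 / 25) * ζ ^ 4 * u ^ 28 * v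 ^ 2 + (93312 / 125) * ζ ^ 4 * u ^ 30 + (-46656 / 125) * ζ ^ 5 * v ^ 30 + (139968 / 25) * ζ ^ 5 * u ^ 3 * v ^ 27 + (-46656 / 5) * ζ ^ 5 * u ^ 4 * v ^ 26 + (1539648 / 125) * ζ ^ 5 * u ^ 5 * v ^ 25 + (419904 / 5) * ζ ^ 5 * u ^ 6 * v ^ 24 + (-279936) * ζ ^ 5 * u ^ 7 * v ^ 23 + (559872 / 5) * ζ ^ 5 * u ^ 8 * v ^ 22 + (-5272128 / 5) * ζ ^ 5 * u ^ 9 * v ^ 21 + (154104768 / 25) * ζ ^ 5 * u ^ 10 * v ^ 20 + (-56827008 / 5) * ζ ^ 5 * u ^ 11 * v ^ 19 + (8817984) * ζ ^ 5 * u ^ 12 * v ^ 18 + (-9704448 / 5) * ζ ^ 5 * u ^ 13 * v ^ 17 + (-11850624 / 5) * ζ ^ 5 * u ^ 14 * v ^ 16 + (116779968 / 25) * ζ ^ 5 * u ^ 15 * v ^ 15 + (-20948544 / 5) * ζ ^ 5 * u ^ 16 * v ^ 14 + (1306368) * ζ ^ 5 * u ^ 17 * v ^ 13 + (559872 / 5) * ζ ^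 5 * u ^ 18 * v ^ 12 + (-3125952 / 5) * ζ ^ 5 * u ^ 19 * v ^ 11 + (20855232 / 25) * ζ ^ 5 * u ^ 20 * v ^ 10 + (-793152 / 5) * ζ ^ 5 * u ^ 21 * v ^ 9 + (93312) * ζ ^ 5 * u ^ 22 * v ^ 8 + (46656) * ζ ^ 5 * u ^ 23 * v ^ 7 + (-279936 / 5) * ζ ^ 5 * u ^ 24 * v ^ 6 + (1539648 / 125) * ζ ^ 5 * u ^ 25 * v ^ 5 + (-46656 / 5) * ζ ^ 5 * u ^ 26 * v ^ 4 + (46656 / 25) * ζ ^ 5 * u ^ 28 * v ^ 2 + (46656 / 125) * ζ ^ 5 * u ^ 30) * hζ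

/-- the chord, `Y`-part -/
theorem u5ki_chordY (ζ u v : K) (hζ : ζ ^ 4 + ζ ^ 3 + ζ ^ 2 + ζ + 1 = 0) :
    u5kiYS u v * (u5kiX1e ζ (u ^ 5) (v ^ 5) - u5kiXSTe ζ u v) =
      -((u5kiY1e ζ (u ^ 5) (v ^ 5) - u5kiYSTe ζ u v) * (u5kiXS u v - u5kiX1e ζ (u ^ 5) (v ^ 5))
        + u5kiY1e ζ (u ^ 5) (v ^ 5) * (u5kiX1e ζ (u ^ 5) (v ^ 5) - u5kiXSTe ζ u v)) := by
  simp only [u5kiY1e, u5kiYSTe, u5kiX1e, u5kiXSTe, u5kiXS, u5kiYS]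
  linear_combination ((15552 / 5) * u ^ 2 * v ^ 23 + (46656 / 5) * u ^ 3 * v ^ 22 + (-15552) * u ^ 4 * v ^ 21 + (-23328) * u ^ 6 * v ^ 19 + (-147744 / 5) * u ^ 7 * v ^ 18 + (-520992 / 5) * u ^ 8 * v ^ 17 + (178848) * u ^ 9 * v ^ 16 + (248832) * u ^ 11 * v ^ 14 + (-287712 / 5) * u ^ 12 * v ^ 13 + (31104 / 5) * u ^ 13 * v ^ 12 + (-69984) * u ^ 14 * v ^ 11 + (108864) * u ^ 16 * v ^ 9 + (147744 / 5) * u ^ 17 * v ^ 8 + (93312 / 5) * u ^ 18 * v ^ 7 + (-7776) * u ^ 19 * v ^ 6 + (7776) * u ^ 21 * v ^ 4 + (15552 / 5) * u ^ 22 * v ^ 3 + (7776 / 5) * u ^ 23 * v ^ 2 + (-7776 / 5) * ζ * u ^ 2 * v ^ 23 + (23328 / 5) * ζ * u ^ 3 * v ^ 22 + (-23328 / 5) * ζ * u ^ 7 * v ^ 18 + (-202176 / 5) * ζ * u ^ 8 * v ^ 17 + (1213056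 / 5) * ζ * u ^ 12 * v ^ 13 + (-606528 / 5) * ζ * u ^ 13 * v ^ 12 + (23328 / 5) * ζ * u ^ 17 * v ^ 8 + (-225504 / 5) * ζ * u ^ 18 * v ^ 7 + (-7776 / 5) * ζ * u ^ 22 * v ^ 3 + (-15552 / 5) * ζ * u ^ 23 * v ^ 2 + (-23328 / 5) * ζ ^ 2 * u ^ 3 * v ^ 22 + (7776) * ζ ^ 2 * u ^ 4 * v ^ 21 + (202176 / 5) * ζ ^ 2 * u ^ 8 * v ^ 17 + (-69984) * ζ ^ 2 * u ^ 9 * v ^ 16 + (606528 / 5) * ζ ^ 2 * u ^ 13 * v ^ 12 + (-178848) * ζ ^ 2 * u ^ 14 * v ^ 11 + (225504 / 5) * ζ ^ 2 * u ^ 18 * v ^ 7 + (-15552) * ζ ^ 2 * u ^ 19 * v ^ 6 + (15552 / 5) * ζ ^ 2 * u ^ 23 * v ^ 2) * hζ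

/-- separation : `x(e₂) ≠ x(e₁)` where `f ≠ 0` -/
theorem u5ki_sep1 (ζ u v : K) (hζ : ζ ^ 4 + ζ ^ 3 + ζ ^ 2 + ζ + 1 = 0) :
    (u5kiXS u v - u5kiX1e ζ (u ^ 5) (v ^ 5)) * u5kiQ1 ζ u v = 36 * u5kfF u v ^ 2 := by
  simp only [u5kiXS, u5kiX1e, u5kiQ1, u5kfF]
  linear_combination ((36 / 5) * u ^ 2 * v ^ 22 + (-36) * u ^ 3 * v ^ 21 + (72) * u ^ 4 * v ^ 20 + (-72) * u ^ 5 * v ^ 19 + (108 / 5) * u ^ 7 * v ^ 17 + (324) * u ^ 8 * v ^ 16 + (-828) * u ^ 9 * v ^ 15 + (828) * u ^ 10 * v ^ 14 + (-5616 / 5) * u ^ 12 * v ^ 12 + (828) * u ^ 13 * v ^ 11 + (324) * u ^ 14 * v ^ 10 + (-324) * u ^ 15 * v ^ 9 + (-108 / 5) * u ^ 17 * v ^ 7 + (72) * u ^ 18 * v ^ 6 + (36) * u ^ 19 * v ^ 5 + (-36) * u ^ 20 * v ^ 4 + (36 / 5) * u ^ 22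 * v ^ 2 + (-36 / 5) * ζ * u ^ 2 * v ^ 22 + (36) * ζ * u ^ 3 * v ^ 21 + (-72) * ζ * u ^ 4 * v ^ 20 + (72) * ζ * u ^ 5 * v ^ 19 + (-108 / 5) * ζ * u ^ 7 * v ^ 17 + (-324) * ζ * u ^ 8 * v ^ 16 + (828) * ζ * u ^ 9 * v ^ 15 + (-828) * ζ * u ^ 10 * v ^ 14 + (5616 / 5) * ζ * u ^ 12 * v ^ 12 + (-828) * ζ * u ^ 13 * v ^ 11 + (-324) * ζ * u ^ 14 * v ^ 10 + (324) * ζ * u ^ 15 * v ^ 9 + (108 / 5) * ζ * u ^ 17 * v ^ 7 + (-72) * ζ * u ^ 18 * v ^ 6 + (-36) * ζ * u ^ 19 * v ^ 5 + (36) * ζ * u ^ 20 * v ^ 4 + (-36 / 5) * ζ * u ^ 22 * v ^ 2 + (-36 / 5) * ζ ^ 2 * u ^ 2 * v ^ 22 + (36) * ζ ^ 2 * u ^ 3 * v ^ 21 + (-72) * ζ ^ 2 * u ^ 4 * v ^ 20 + (72) * ζ ^ 2 * u ^ 5 * v ^ 19 + (-108 / 5) * ζ ^ 2 * u ^ 7 * v ^ 17 + (-324) * ζ ^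 2 * u ^ 8 * v ^ 16 + (828) * ζ ^ 2 * u ^ 9 * v ^ 15 + (-828) * ζ ^ 2 * u ^ 10 * v ^ 14 + (5616 / 5) * ζ ^ 2 * u ^ 12 * v ^ 12 + (-828) * ζ ^ 2 * u ^ 13 * v ^ 11 + (-324) * ζ ^ 2 * u ^ 14 * v ^ 10 + (324) * ζ ^ 2 * u ^ 15 * v ^ 9 + (108 / 5) * ζ ^ 2 * u ^ 17 * v ^ 7 + (-72) * ζ ^ 2 * u ^ 18 * v ^ 6 + (-36) * ζ ^ 2 * u ^ 19 * v ^ 5 + (36) * ζ ^ 2 * u ^ 20 * v ^ 4 + (-36 / 5) * ζ ^ 2 * u ^ 22 * v ^ 2) * hζ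

/-- separation : `x(e₂) ≠ x(2e₁)` where `f ≠ 0` -/
theorem u5ki_sep2 (ζ u v : K) (hζ : ζ ^ 4 + ζ ^ 3 + ζ ^ 2 + ζ + 1 = 0) :
    (u5kiXS u v - u5kiX2e ζ (u ^ 5) (v ^ 5)) * u5kiQ2 ζ u v = 36 * u5kfF u v ^ 2 := by
  simp only [u5kiXS, u5kiX2e, u5kiQ2, u5kfF]
  linear_combination ((36 / 5) * u ^ 2 * v ^ 22 + (-36) * u ^ 3 * v ^ 21 + (72) * u ^ 4 * v ^ 20 + (-72) * u ^ 5 * v ^ 19 + (108 / 5) * u ^ 7 * v ^ 17 + (324) * u ^ 8 * v ^ 16 + (-828) * u ^ 9 * v ^ 15 + (828) * u ^ 10 * v ^ 14 + (-5616 / 5) * u ^ 12 * v ^ 12 + (828) * u ^ 13 * v ^ 11 + (324) * u ^ 14 * v ^ 10 + (-324) * u ^ 15 * v ^ 9 + (-108 / 5) * u ^ 17 * v ^ 7 + (72) * u ^ 18 * v ^ 6 + (36) * u ^ 19 * v ^ 5 + (-36) * u ^ 20 * v ^ 4 + (36 / 5) * u ^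 22 * v ^ 2 + (-36 / 5) * ζ * u ^ 2 * v ^ 22 + (36) * ζ * u ^ 3 * v ^ 21 + (-72) * ζ * u ^ 4 * v ^ 20 + (72) * ζ * u ^ 5 * v ^ 19 + (-108 / 5) * ζ * u ^ 7 * v ^ 17 + (-324) * ζ * u ^ 8 * v ^ 16 + (828) * ζ * u ^ 9 * v ^ 15 + (-828) * ζ * u ^ 10 * v ^ 14 + (5616 / 5) * ζ * u ^ 12 * v ^ 12 + (-828) * ζ * u ^ 13 * v ^ 11 + (-324) * ζ * u ^ 14 * v ^ 10 + (324) * ζ * u ^ 15 * v ^ 9 + (108 / 5) * ζ * u ^ 17 * v ^ 7 + (-72) * ζ * u ^ 18 * v ^ 6 + (-36) * ζ * u ^ 19 * v ^ 5 + (36) * ζ * u ^ 20 * v ^ 4 + (-36 / 5) * ζ * u ^ 22 * v ^ 2 + (-36 / 5) * ζ ^ 2 * u ^ 2 * v ^ 22 + (36) * ζ ^ 2 * u ^ 3 * v ^ 21 + (-72) * ζ ^ 2 * u ^ 4 * v ^ 20 + (72) * ζ ^ 2 * u ^ 5 * v ^ 19 + (-108 / 5) * ζ ^ 2 * u ^ 7 * v ^ 17 + (-324) * ζ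 ^ 2 * u ^ 8 * v ^ 16 + (828) * ζ ^ 2 * u ^ 9 * v ^ 15 + (-828) * ζ ^ 2 * u ^ 10 * v ^ 14 + (5616 / 5) * ζ ^ 2 * u ^ 12 * v ^ 12 + (-828) * ζ ^ 2 * u ^ 13 * v ^ 11 + (-324) * ζ ^ 2 * u ^ 14 * v ^ 10 + (324) * ζ ^ 2 * u ^ 15 * v ^ 9 + (108 / 5) * ζ ^ 2 * u ^ 17 * v ^ 7 + (-72) * ζ ^ 2 * u ^ 18 * v ^ 6 + (-36) * ζ ^ 2 * u ^ 19 * v ^ 5 + (36) * ζ ^ 2 * u ^ 20 * v ^ 4 + (-36 / 5) * ζ ^ 2 * u ^ 22 * v ^ 2) * hζ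

/-- the factorisation of `Φ₅` -/
theorem u5ki_factor (ζ ξ : K) (hζ : ζ ^ 4 + ζ ^ 3 + ζ ^ 2 + ζ + 1 = 0) :
    (ξ - ζ) * (ξ - ζ ^ 2) * (ξ - ζ ^ 3) * (ξ - ζ ^ 4) = ξ ^ 4 + ξ ^ 3 + ξ ^ 2 + ξ + 1 := by
  linear_combination ((-1) + (-1) * ξ + (-1) * ξ ^ 2 + (-1) * ξ ^ 3 + (1) * ζ + (1) * ζ * ξ + (1) * ζ * ξ ^ 2 + (1) * ζ ^ 3 * ξ ^ 2 + (-1) * ζ ^ 5 + (-1) * ζ ^ 5 * ξ + (1) * ζ ^ 6) * hζ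

theorem u5ki_conj2_X (ζ U V : K) (hζ : ζ ^ 4 + ζ ^ 3 + ζ ^ 2 + ζ + 1 = 0) :
    u5kiX1e (ζ ^ 2) U V = u5kiX2e ζ U V := by
  simp only [u5kiX1e, u5kiX2e]
  linear_combination ((36 / 5) * V ^ 2 + (-396 / 5) * U * V + (-36 / 5) * U ^ 2 + (-36 / 5) * ζ * V ^ 2 + (396 / 5) * ζ * U * V + (36 / 5) * ζ * U ^ 2 + (36 / 5) * ζ ^ 2 * V ^ 2 + (-396 / 5) * ζ ^ 2 * U * V + (-36 / 5) * ζ ^ 2 * U ^ 2) * hζ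

theorem u5ki_conj2_Y (ζ U V : K) (hζ : ζ ^ 4 + ζ ^ 3 + ζ ^ 2 + ζ + 1 = 0) :
    u5kiY1e (ζ ^ 2) U V = u5kiY2e ζ U V := by
  simp only [u5kiY1e, u5kiY2e]
  linear_combination ((-324 / 5) * V ^ 3 + (3456 / 5) * U * V ^ 2 + (1512 / 5) * U ^ 2 * V + (108 / 5) * U ^ 3 + (108 / 5) * ζ * V ^ 3 + (-1512 / 5) * ζ * U * V ^ 2 + (3456 / 5) * ζ * U ^ 2 * V + (324 / 5) * ζ * U ^ 3 + (-108 / 5) * ζ ^ 2 * V ^ 3 + (1512 / 5) * ζ ^ 2 * U * V ^ 2 + (-3456 / 5) * ζ ^ 2 * U ^ 2 * V + (-324 / 5) * ζ ^ 2 * U ^ 3) * hζ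

theorem u5ki_conj3_X (ζ U V : K) (hζ : ζ ^ 4 + ζ ^ 3 + ζ ^ 2 + ζ + 1 = 0) :
    u5kiX1e (ζ ^ 3) U V = u5kiX2e ζ U V := by
  simp only [u5kiX1e, u5kiX2e]
  linear_combination ((36 / 5) * V ^ 2 + (-396 / 5) * U * V + (-36 / 5) * U ^ 2 + (-36 / 5) * ζ * V ^ 2 + (396 / 5) * ζ * U * V + (36 / 5) * ζ * U ^ 2 + (36 / 5) * ζ ^ 2 * V ^ 2 + (-396 / 5) * ζ ^ 2 * U * V + (-36 / 5) * ζ ^ 2 * U ^ 2 + (-36 / 5) * ζ ^ 4 * V ^ 2 + (396 / 5) * ζ ^ 4 * U * V + (36 / 5) * ζ ^ 4 * U ^ 2 + (36 / 5) * ζ ^ 5 * V ^ 2 + (-396 / 5) * ζ ^ 5 * U * V + (-36 / 5) * ζ ^ 5 * U ^ 2) * hζ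

theorem u5ki_conj3_Y (ζ U V : K) (hζ : ζ ^ 4 + ζ ^ 3 + ζ ^ 2 + ζ + 1 = 0) :
    u5kiY1e (ζ ^ 3) U V = -u5kiY2e ζ U V := by
  simp only [u5kiY1e, u5kiY2e]
  linear_combination ((-108 / 5) * V ^ 3 + (1512 / 5) * U * V ^ 2 + (-3456 / 5) * U ^ 2 * V + (-324 / 5) * U ^ 3 + (324 / 5) * ζ * V ^ 3 + (-3456 / 5) * ζ * U * V ^ 2 + (-1512 / 5) * ζ * U ^ 2 * V + (-108 / 5) * ζ * U ^ 3 + (-324 / 5) * ζ ^ 2 * V ^ 3 + (3456 / 5) * ζ ^ 2 * U * V ^ 2 + (1512 / 5) * ζ ^ 2 * U ^ 2 * V + (108 / 5) * ζ ^ 2 * U ^ 3 + (108 / 5) * ζ ^ 4 * V ^ 3 + (-1512 / 5) * ζ ^ 4 * U * V ^ 2 + (3456 / 5) * ζ ^ 4 * U ^ 2 * V + (324 / 5) * ζ ^ 4 * U ^ 3 + (-108 / 5) * ζ ^ 5 * V ^ 3 + (1512 / 5) * ζ ^ 5 * U * V ^ 2 + (-3456 / 5) * ζ ^ 5 * U ^ 2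 * V + (-324 / 5) * ζ ^ 5 * U ^ 3) * hζ

theorem u5ki_conj4_X (ζ U V : K) (hζ : ζ ^ 4 + ζ ^ 3 + ζ ^ 2 + ζ + 1 = 0) :
    u5kiX1e (ζ ^ 4) U V = u5kiX1e ζ U V := by
  simp only [u5kiX1e]
  linear_combination ((-36 / 5) * ζ ^ 2 * V ^ 2 + (396 / 5) * ζ ^ 2 * U * V + (36 / 5) * ζ ^ 2 * U ^ 2 + (36 / 5) * ζ ^ 4 * V ^ 2 + (-396 / 5) * ζ ^ 4 * U * V + (-36 / 5) * ζ ^ 4 * U ^ 2 + (-36 / 5) * ζ ^ 7 * V ^ 2 + (396 / 5) * ζ ^ 7 * U * V + (36 / 5) * ζ ^ 7 * U ^ 2 + (36 / 5) * ζ ^ 8 * V ^ 2 + (-396 / 5) * ζ ^ 8 * U * V + (-36 / 5) * ζ ^ 8 * U ^ 2) * hζ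

theorem u5ki_conj4_Y (ζ U V : K) (hζ : ζ ^ 4 + ζ ^ 3 + ζ ^ 2 + ζ + 1 = 0) :
    u5kiY1e (ζ ^ 4) U V = -u5kiY1e ζ U V := by
  simp only [u5kiY1e]
  linear_combination ((-432 / 5) * V ^ 3 + (4968 / 5) * U * V ^ 2 + (-1944 / 5) * U ^ 2 * V + (-216 / 5) * U ^ 3 + (108 / 5) * ζ ^ 2 * V ^ 3 + (-1512 / 5) * ζ ^ 2 * U * V ^ 2 + (3456 / 5) * ζ ^ 2 * U ^ 2 * V + (324 / 5) * ζ ^ 2 * U ^ 3 + (216 / 5) * ζ ^ 3 * V ^ 3 + (-1944 / 5) * ζ ^ 3 * U * V ^ 2 + (-4968 / 5) * ζ ^ 3 * U ^ 2 * V + (-432 / 5) * ζ ^ 3 * U ^ 3 + (-324 / 5) * ζ ^ 4 * V ^ 3 + (3456 / 5) * ζ ^ 4 * U * V ^ 2 + (1512 / 5) * ζ ^ 4 * U ^ 2 * V + (108 / 5) * ζ ^ 4 * U ^ 3 + (108 / 5) * ζ ^ 7 * V ^ 3 + (-1512 / 5) * ζ ^ 7 * U * V ^ 2 + (3456 / 5) * ζ ^ 7 *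 U ^ 2 * V + (324 / 5) * ζ ^ 7 * U ^ 3 + (-108 / 5) * ζ ^ 8 * V ^ 3 + (1512 / 5) * ζ ^ 8 * U * V ^ 2 + (-3456 / 5) * ζ ^ 8 * U ^ 2 * V + (-324 / 5) * ζ ^ 8 * U ^ 3) * hζ

end Fermat.Agent.U5
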